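/-
T4E, package P7b (helper8): **(UNIT_w), the local equation of a middle component** `(a, b)`,
`1 ≤ b ≤ a`, in terms of the cusp embedding `M : T4eCusp L L' N'' q a b ζ` and the cyclotomic data
`Cy : T4eCyc O O' π π' q b` (generalises `t4rm_pi_f_mid`, `t4rm_pi_f_pow`, `t4rm_a0_mid`,
`t4rm_local_eq` of `Lib/T4/Reg/TopMid.lean`, which is `(a, b) = (1, 1)`).

With `ϖ_f = a_{a+b} f - a_{a-b} f` (`f ∈ F_0` Gauss-integral), `μ = φ(q^b)`:
* `t4eru_ι_pi_f`: `ι ϖ_f = C λ · (-Δ_ζ f)(𝔮^{q^{a-b}})`;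
* `t4eru_pi_f`: `ι ϖ_f` is Gauss-integral with reduction `0`;
* `t4eru_pi_f_pow`: `ι (ϖ_f ^ μ / q)` is Gauss-integral with reduction `-(θ f̄)^μ (𝔮^{q^{a-b}})`
  (Wilson: `q = λ^μ U`, `Ū = -1`);
* `t4eru_low`: `ι (a_n e)` is Gauss-integral with reduction `ē(𝔮^{q^n})` (`n ≤ a`);
* **`t4eru_local_eq`**: `ι (ϖ_f ^ μ / q + a_{a-b} e)` is Gauss-integral with reduction `0` as soon as
  `ē = (θ f̄)^μ`.
-/
import Fermat.Agent.Lib.T4E.Cyc.Gen
import Fermat.Agent.Lib.T4.Inst.GaussExt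
import Fermat.Agent.Lib.T2.Inst.KronH

set_option autoImplicit false
set_option linter.unusedSectionVars false
set_option linter.unusedVariables false
set_option linter.style.haveILetI false
set_option synthInstance.maxHeartbeats 400000

open HahnSeries ModularCurve Fermat.Agent.T1 Fermat.Agent.T2

noncomputable section

namespace Fermat.Agent.T4

/-- `(-1) ^ φ(q^b) = 1` in characteristic `q` (`b ≥ 1`) -/
theorem t4eru_neg_one_pow (k : Type*) [Field k] (q : ℕ) [hq : Fact q.Prime] [CharP k q] {b : ℕ}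
    (hb : 1 ≤ b) : (-1 : k) ^ Nat.totient (q ^ b) = 1 := by
  obtain ⟨b', rfl⟩ : ∃ b', b = b' + 1 := ⟨b - 1, by omega⟩
  rw [Nat.totient_prime_pow_succ hq.out, mul_comm, pow_mul]
  have h1 : (-1 : k) ^ (q - 1) = 1 := by
    rcases hq.out.eq_two_or_odd' with h2 | hodd
    · subst h2
      haveI : CharP k 2 := inferInstance
      rw [show 2 - 1 = 1 from rfl, pow_one, CharTwo.neg_eq]
    · obtain ⟨m, hm⟩ := hodd
      have : q - 1 = 2 * m := by omega
      rw [this, pow_mul, neg_one_sq, one_pow]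
  rw [h1, one_pow]

section Unit

variable {L : Type} [Field L] [Algebra ℚ L] (O : ValuationSubring L) {k : Type*} [Field k]
  (π : ↥O →+* k) (hπ : Function.Surjective π)
  {N'' q : ℕ} [NeZero N''] [hq : Fact q.Prime] [CharP k q]
  {L' : Type*} [Field L'] [Algebra L L'] (O' : ValuationSubring L') (π' : ↥O' →+* k)
  {a b : ℕ} (Cy : T4eCyc O O' π π' q b) (M : T4eCusp L L' N'' q a b Cy.ζ)

/-- the constant `C λ ≠ 0` -/
theorem t4eru_C_lam_ne_zero :
    (HahnSeries.C ((Cy.lam : ↥O') : L') : LaurentSeries L') ≠ 0 := by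
  intro h0
  have h1 := congrArg (fun z : LaurentSeries L' => z.coeff 0) h0
  simp only [HahnSeries.C_apply, HahnSeries.coeff_single_same, HahnSeries.coeff_zero] at h1
  exact Cy.unif.ne_zero (Subtype.ext h1)

/-- `ι ϖ_f = C λ · (-Δ_ζ f)(𝔮^{q^{a-b}})`, `ϖ_f = a_{a+b} f - a_{a-b} f` -/
theorem t4eru_ι_pi_f (hb : 1 ≤ b) (f : ↥(TaF L N'')) :
    M.ι (t4eDeg L N'' q (a + b) (a + b) f - t4eDeg L N'' q (a + b) (a - b) f)
      = HahnSeries.C ((Cy.lam : ↥O') : L') *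
          qExpand L' (q ^ (a - b))
            (-t4vDel Cy.ζ (coeffMap (algebraMap L L') (f : LaurentSeries L))) := by
  have h1 := M.ι_high b hb le_rfl f
  rw [Nat.sub_self, pow_zero, pow_one] at h1
  have h2 := M.ι_low (a - b) (Nat.sub_le a b) f
  rw [coeffMap_qExpand] at h2
  have h3 : (HahnSeries.C ((Cy.lam : ↥O') : L') : LaurentSeries L') =
      -HahnSeries.C (((Cy.ζ : L'ˣ) : L') - 1) := by
    rw [Cy.lam_eq, ← map_neg, neg_sub]
  rw [map_sub, h1, h2, ← map_sub, t4vSig_sub_self, map_mul, qExpand_C, h3, map_neg]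
  ring

include hπ in
/-- `(-Δ_ζ f)(𝔮^{q^{a-b}})` is Gauss-integral -/
theorem t4eru_gauss_th_f {f : ↥(TaF L N'')} (hf : TaGauss O π (f : LaurentSeries L)) :
    TaGauss O' π' (qExpand L' (q ^ (a - b))
      (-t4vDel Cy.ζ (coeffMap (algebraMap L L') (f : LaurentSeries L)))) := by
  haveI : NeZero (q ^ (a - b)) := ⟨pow_ne_zero _ hq.out.ne_zero⟩
  letI : Algebra ℚ L' := ((algebraMap L L').comp (algebraMap ℚ L)).toAlgebra
  refine t2i_taGauss_qExpand O' π' (q ^ (a - b)) ?_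
  exact (taGaussSubring O' π').neg_mem
    (t4v_taGauss_del O' π' Cy.ζ (Cy.ζO hq.out) (Cy.coe_ζO hq.out) (Cy.π'_ζO hq.out hπ)
      Cy.ζ_ne_one (t4v_taGauss_coeffMap O O' π π' Cy.map_mem Cy.π_map hf))

include hπ in
/-- the reduction of `(-Δ_ζ f)(𝔮^{q^{a-b}})` is `-(θ f̄)(𝔮^{q^{a-b}})` -/
theorem t4eru_taRhoFun_th_f {f : ↥(TaF L N'')} (hf : TaGauss O π (f : LaurentSeries L)) :
    taRhoFun O' π' (qExpand L' (q ^ (a - b))
      (-t4vDel Cy.ζ (coeffMap (algebraMap L L') (f : LaurentSeries L))))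
      = -qExpand k (q ^ (a - b)) (t4vTheta (taRhoFun O π (f : LaurentSeries L))) := by
  haveI : NeZero (q ^ (a - b)) := ⟨pow_ne_zero _ hq.out.ne_zero⟩
  letI : Algebra ℚ L' := ((algebraMap L L').comp (algebraMap ℚ L)).toAlgebra
  have hG := t4v_taGauss_del O' π' Cy.ζ (Cy.ζO hq.out) (Cy.coe_ζO hq.out) (Cy.π'_ζO hq.out hπ)
    Cy.ζ_ne_one (t4v_taGauss_coeffMap O O' π π' Cy.map_mem Cy.π_map hf)
  have hGn : TaGauss O' π' (-t4vDel Cy.ζ (coeffMap (algebraMap L L') (f : LaurentSeries L))) :=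
    (taGaussSubring O' π').neg_mem hG
  rw [t2i_taRhoFun_qExpand O' π' (q ^ (a - b)) hGn]
  have h1 : (⟨-t4vDel Cy.ζ (coeffMap (algebraMap L L') (f : LaurentSeries L)), hGn⟩ :
      ↥(taGaussSubring O' π')) = -⟨_, hG⟩ := rfl
  have h2 := congrArg (taRho O' π') h1
  rw [map_neg] at h2
  have h3 : taRho O' π' ⟨_, hG⟩ = t4vTheta (taRhoFun O π (f : LaurentSeries L)) := by
    show taRhoFun O' π' _ = _
    rw [t4v_taRhoFun_del O' π' Cy.ζ (Cy.ζO hq.out) (Cy.coe_ζO hq.out) (Cy.π'_ζO hq.out hπ)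
      Cy.ζ_ne_one (t4v_taGauss_coeffMap O O' π π' Cy.map_mem Cy.π_map hf),
      t4v_taRhoFun_coeffMap O O' π π' Cy.map_mem Cy.π_map hf]
  rw [h3] at h2
  have h4 : taRhoFun O' π' (-t4vDel Cy.ζ (coeffMap (algebraMap L L') (f : LaurentSeries L)))
      = -t4vTheta (taRhoFun O π (f : LaurentSeries L)) := h2
  rw [h4, map_neg]

/-- constants of `O'` in the Gauss ring -/
theorem t4eru_gauss_C (c : ↥O') : TaGauss O' π' (HahnSeries.C ((c : ↥O') : L')) := by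
  rw [← taInc_C]
  exact taGauss_taInc O' π' _

theorem t4eru_taRhoFun_C (c : ↥O') :
    taRhoFun O' π' (HahnSeries.C ((c : ↥O') : L')) = HahnSeries.C (π' c) := by
  have h : (HahnSeries.C ((c : ↥O') : L') : LaurentSeries L') * taInc O' 1
      = taInc O' (HahnSeries.C c) := by
    rw [map_one, mul_one, taInc_C]
  rw [taRhoFun_eq O' π' (by rw [map_one]; exact one_ne_zero) h, map_one, div_one]
  ext n
  rw [taRed_coeff]
  by_cases hn : n = 0
  · subst hn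
    simp [HahnSeries.C_apply]
  · simp [HahnSeries.C_apply, HahnSeries.coeff_single_of_ne hn]

include hπ in
/-- `ϖ_f` is Gauss-integral with reduction `0` -/
theorem t4eru_pi_f (hb : 1 ≤ b) {f : ↥(TaF L N'')} (hf : TaGauss O π (f : LaurentSeries L)) :
    ∃ hG : TaGauss O' π'
      (M.ι (t4eDeg L N'' q (a + b) (a + b) f - t4eDeg L N'' q (a + b) (a - b) f)),
      taRho O' π' ⟨_, hG⟩ = 0 := by
  have hG1 := t4eru_gauss_th_f O π hπ O' π' (a := a) Cy hf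
  have hG0 := t4eru_gauss_C O' π' Cy.lam
  have hmem : TaGauss O' π'
      (M.ι (t4eDeg L N'' q (a + b) (a + b) f - t4eDeg L N'' q (a + b) (a - b) f)) := by
    rw [t4eru_ι_pi_f O π O' π' Cy M hb f]
    exact (taGaussSubring O' π').mul_mem hG0 hG1
  refine ⟨hmem, ?_⟩
  have h1 : (⟨_, hmem⟩ : ↥(taGaussSubring O' π')) = ⟨_, hG0⟩ * ⟨_, hG1⟩ :=
    Subtype.ext (t4eru_ι_pi_f O π O' π' Cy M hb f)
  rw [h1, map_mul]
  have h2 : taRho O' π' ⟨_, hG0⟩ = 0 := by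
    show taRhoFun O' π' _ = 0
    rw [t4eru_taRhoFun_C, Cy.π'_lam hπ, map_zero]
  rw [h2, zero_mul]

include hπ in
/-- **`res (ϖ_f ^ μ / q) = -(θ f̄)^μ (𝔮^{q^{a-b}})`**, `μ = φ(q^b)` -/
theorem t4eru_pi_f_pow (hb : 1 ≤ b) {f : ↥(TaF L N'')}
    (hf : TaGauss O π (f : LaurentSeries L)) :
    ∃ hG : TaGauss O' π'
      (M.ι ((t4eDeg L N'' q (a + b) (a + b) f - t4eDeg L N'' q (a + b) (a - b) f)
        ^ Nat.totient (q ^ b) / ((q : ℕ) : ↥(TaF L (t4eLev N'' q (a + b)))))),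
      taRho O' π' ⟨_, hG⟩ =
        -(qExpand k (q ^ (a - b)) (t4vTheta (taRhoFun O π (f : LaurentSeries L))))
          ^ Nat.totient (q ^ b) := by
  set μ := Nat.totient (q ^ b) with hμ
  have hG1 := t4eru_gauss_th_f O π hπ O' π' (a := a) Cy hf
  obtain ⟨U, hU, hqU, hπU⟩ := Cy.exists_wilson' hq.out hπ
  obtain ⟨v, hv⟩ := hU.exists_right_inv
  have hπv : π' v = -1 := by
    have h1 := congrArg π' hv
    rw [map_mul, hπU, map_one, neg_one_mul, neg_eq_iff_eq_neg] at h1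
    exact h1
  have hUv : ((U : ↥O') : L') * ((v : ↥O') : L') = 1 := congrArg Subtype.val hv
  have hCU : (HahnSeries.C ((U : ↥O') : L') : LaurentSeries L') *
      HahnSeries.C ((v : ↥O') : L') = 1 := by
    rw [← map_mul, hUv, map_one]
  have hCU0 : (HahnSeries.C ((U : ↥O') : L') : LaurentSeries L') ≠ 0 :=
    left_ne_zero_of_mul_eq_one hCU
  have hlam0 := t4eru_C_lam_ne_zero O π O' π' Cy
  set D := qExpand L' (q ^ (a - b))
    (-t4vDel Cy.ζ (coeffMap (algebraMap L L') (f : LaurentSeries L))) with hD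
  have hιq : M.ι ((q : ℕ) : ↥(TaF L (t4eLev N'' q (a + b))))
      = HahnSeries.C ((Cy.lam : ↥O') : L') ^ μ * HahnSeries.C ((U : ↥O') : L') := by
    rw [map_natCast, ← map_pow, ← map_mul, ← hqU, map_natCast]
  have hι : M.ι ((t4eDeg L N'' q (a + b) (a + b) f - t4eDeg L N'' q (a + b) (a - b) f) ^ μ /
      ((q : ℕ) : ↥(TaF L (t4eLev N'' q (a + b))))) = D ^ μ * HahnSeries.C ((v : ↥O') : L') := by
    rw [map_div₀, map_pow, t4eru_ι_pi_f O π O' π' Cy M hb f, hιq, mul_pow,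
      div_eq_iff (mul_ne_zero (pow_ne_zero _ hlam0) hCU0)]
    calc HahnSeries.C ((Cy.lam : ↥O') : L') ^ μ * D ^ μ
        = D ^ μ * (HahnSeries.C ((U : ↥O') : L') * HahnSeries.C ((v : ↥O') : L')) *
            HahnSeries.C ((Cy.lam : ↥O') : L') ^ μ := by rw [hCU]; ring
      _ = _ := by ring
  have hGv := t4eru_gauss_C O' π' v
  have hmemG : TaGauss O' π' (D ^ μ * HahnSeries.C ((v : ↥O') : L')) :=
    (taGaussSubring O' π').mul_mem ((taGaussSubring O' π').pow_mem hG1 _) hGv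
  have hmem : TaGauss O' π'
      (M.ι ((t4eDeg L N'' q (a + b) (a + b) f - t4eDeg L N'' q (a + b) (a - b) f) ^ μ /
        ((q : ℕ) : ↥(TaF L (t4eLev N'' q (a + b)))))) := by
    rw [hι]
    exact hmemG
  refine ⟨hmem, ?_⟩
  have h1 : (⟨_, hmem⟩ : ↥(taGaussSubring O' π')) = ⟨_, hG1⟩ ^ μ * ⟨_, hGv⟩ := Subtype.ext hι
  rw [h1, map_mul, map_pow]
  have h2 : taRho O' π' ⟨_, hG1⟩ =
      -qExpand k (q ^ (a - b)) (t4vTheta (taRhoFun O π (f : LaurentSeries L))) :=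
    t4eru_taRhoFun_th_f O π hπ O' π' Cy hf
  have h3 : taRho O' π' ⟨_, hGv⟩ = HahnSeries.C (-1 : k) := by
    show taRhoFun O' π' _ = _
    rw [t4eru_taRhoFun_C, hπv]
  rw [h2, h3, neg_pow, map_neg, map_one, mul_neg_one]
  have h4 : (-1 : LaurentSeries k) ^ μ = 1 := by
    rw [← map_one (HahnSeries.C : k →+* LaurentSeries k), ← map_neg, ← map_pow,
      t4eru_neg_one_pow k q hb]
  rw [h4, one_mul]

include hπ in
/-- `ι (a_n e)` is Gauss-integral with reduction `ē(𝔮^{q^n})`, `n ≤ a` -/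
theorem t4eru_low {n : ℕ} (hn : n ≤ a) {e : ↥(TaF L N'')}
    (he : TaGauss O π (e : LaurentSeries L)) :
    ∃ hG : TaGauss O' π' (M.ι (t4eDeg L N'' q (a + b) n e)),
      taRho O' π' ⟨_, hG⟩ = qExpand k (q ^ n) (taRhoFun O π (e : LaurentSeries L)) := by
  haveI : NeZero (q ^ n) := ⟨pow_ne_zero _ hq.out.ne_zero⟩
  have h1 := M.ι_low n hn e
  have hGq : TaGauss O π (qExpand L (q ^ n) (e : LaurentSeries L)) :=
    t2i_taGauss_qExpand O π (q ^ n) he
  have hmem : TaGauss O' π' (M.ι (t4eDeg L N'' q (a + b) n e)) := by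
    rw [h1]
    exact t4v_taGauss_coeffMap O O' π π' Cy.map_mem Cy.π_map hGq
  refine ⟨hmem, ?_⟩
  show taRhoFun O' π' (M.ι (t4eDeg L N'' q (a + b) n e)) = _
  rw [h1, t4v_taRhoFun_coeffMap O O' π π' Cy.map_mem Cy.π_map hGq,
    t2i_taRhoFun_qExpand O π (q ^ n) he]

include hπ in
/-- **the local equation of the component `(a, b)`**: `ϖ_f ^ μ / q + a_{a-b} e` is Gauss-integral with
reduction `0` under `ι_(a,b)` as soon as `ē = (θ f̄) ^ μ`, `μ = φ(q^b)` -/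
theorem t4eru_local_eq (hb : 1 ≤ b) {f e : ↥(TaF L N'')}
    (hf : TaGauss O π (f : LaurentSeries L)) (he : TaGauss O π (e : LaurentSeries L))
    (hfe : taRhoFun O π (e : LaurentSeries L) =
      (t4vTheta (taRhoFun O π (f : LaurentSeries L))) ^ Nat.totient (q ^ b)) :
    ∃ hG : TaGauss O' π'
      (M.ι ((t4eDeg L N'' q (a + b) (a + b) f - t4eDeg L N'' q (a + b) (a - b) f)
        ^ Nat.totient (q ^ b) / ((q : ℕ) : ↥(TaF L (t4eLev N'' q (a + b))))
          + t4eDeg L N'' q (a + b) (a - b) e)),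
      taRho O' π' ⟨_, hG⟩ = 0 := by
  obtain ⟨h1, r1⟩ := t4eru_pi_f_pow O π hπ O' π' Cy M hb hf
  obtain ⟨h2, r2⟩ := t4eru_low O π hπ O' π' Cy M (Nat.sub_le a b) he
  have hmem : TaGauss O' π'
      (M.ι ((t4eDeg L N'' q (a + b) (a + b) f - t4eDeg L N'' q (a + b) (a - b) f)
        ^ Nat.totient (q ^ b) / ((q : ℕ) : ↥(TaF L (t4eLev N'' q (a + b))))
          + t4eDeg L N'' q (a + b) (a - b) e)) := by
    rw [map_add]
    exact (taGaussSubring O' π').add_mem h1 h2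
  refine ⟨hmem, ?_⟩
  have h3 : (⟨_, hmem⟩ : ↥(taGaussSubring O' π')) = ⟨_, h1⟩ + ⟨_, h2⟩ :=
    Subtype.ext (map_add M.ι _ _)
  rw [h3, map_add, r1, r2, hfe, map_pow, neg_add_cancel]

/-! ### The mirror component `(b, a)` (through the Atkin–Lehner involution) -/

include hπ in
/-- **the mirror component**: for the component `(b, a)` (label `b`, `c = b`), whose embedding is
`ι_(a,b) ∘ w_{q^{a+b}}`, the element `(a_{2b} f - a_0 f) ^ μ / q` is Gauss-integral with reduction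
`-(θ f̄)^μ (𝔮^{q^{a-b}})` -/
theorem t4eru_pi_f_pow_flip (W : T4eAL L N'' q (a + b)) (hb : 1 ≤ b) (hba : b ≤ a)
    {f : ↥(TaF L N'')} (hf : TaGauss O π (f : LaurentSeries L)) :
    ∃ hG : TaGauss O' π'
      (M.ι (W.w ((t4eDeg L N'' q (a + b) (2 * b) f - t4eDeg L N'' q (a + b) 0 f)
        ^ Nat.totient (q ^ b) / ((q : ℕ) : ↥(TaF L (t4eLev N'' q (a + b))))))),
      taRho O' π' ⟨_, hG⟩ =
        -(qExpand k (q ^ (a - b)) (t4vTheta (taRhoFun O π (f : LaurentSeries L))))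
          ^ Nat.totient (q ^ b) := by
  set μ := Nat.totient (q ^ b) with hμ
  obtain ⟨hG1, r1⟩ := t4eru_pi_f_pow O π hπ O' π' Cy M hb hf
  have hw1 : W.w (t4eDeg L N'' q (a + b) (2 * b) f) = t4eDeg L N'' q (a + b) (a - b) f := by
    rw [W.w_a (2 * b) (by omega) f]
    have h : a + b - 2 * b = a - b := by omega
    rw [h]
  have hw2 : W.w (t4eDeg L N'' q (a + b) 0 f) = t4eDeg L N'' q (a + b) (a + b) f := by
    rw [W.w_a 0 (Nat.zero_le _) f]
    rfl
  have hwx : W.w ((t4eDeg L N'' q (a + b) (2 * b) f - t4eDeg L N'' q (a + b) 0 f) ^ μ /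
      ((q : ℕ) : ↥(TaF L (t4eLev N'' q (a + b)))))
      = algebraMap L ↥(TaF L (t4eLev N'' q (a + b))) ((-1 : L) ^ μ) *
        ((t4eDeg L N'' q (a + b) (a + b) f - t4eDeg L N'' q (a + b) (a - b) f) ^ μ /
          ((q : ℕ) : ↥(TaF L (t4eLev N'' q (a + b))))) := by
    rw [map_div₀, map_pow, map_sub, hw1, hw2, map_natCast, map_pow, map_neg, map_one,
      ← neg_sub (t4eDeg L N'' q (a + b) (a + b) f), neg_pow]
    ring
  have hιc : M.ι (algebraMap L ↥(TaF L (t4eLev N'' q (a + b))) ((-1 : L) ^ μ))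
      = HahnSeries.C ((((-1 : ↥O') ^ μ : ↥O') : ↥O') : L') := by
    have h1 : algebraMap L ↥(TaF L (t4eLev N'' q (a + b))) ((-1 : L) ^ μ)
        = t4eDeg L N'' q (a + b) 0 (algebraMap L ↥(TaF L N'') ((-1 : L) ^ μ)) :=
      ((t4eDeg L N'' q (a + b) 0).commutes _).symm
    rw [h1, M.ι_low 0 (Nat.zero_le a)]
    have h2 : ((algebraMap L ↥(TaF L N'') ((-1 : L) ^ μ) : ↥(TaF L N'')) : LaurentSeries L)
        = HahnSeries.single 0 ((-1 : L) ^ μ) := algebraMap_laurentSeries_eq_single L _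
    rw [h2, qExpand_single, mul_zero, coeffMap_single]
    show HahnSeries.single 0 (algebraMap L L' ((-1 : L) ^ μ)) = _
    rw [map_pow, map_neg, map_one]
    simp [HahnSeries.C_apply]
  have hGc := t4eru_gauss_C O' π' ((-1 : ↥O') ^ μ)
  have hι : M.ι (W.w ((t4eDeg L N'' q (a + b) (2 * b) f - t4eDeg L N'' q (a + b) 0 f) ^ μ /
      ((q : ℕ) : ↥(TaF L (t4eLev N'' q (a + b))))))
      = HahnSeries.C ((((-1 : ↥O') ^ μ : ↥O') : ↥O') : L') *
        M.ι ((t4eDeg L N'' q (a + b) (a + b) f - t4eDeg L N'' q (a + b) (a - b) f) ^ μ /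
          ((q : ℕ) : ↥(TaF L (t4eLev N'' q (a + b))))) := by
    rw [hwx, map_mul, hιc]
  have hmem : TaGauss O' π'
      (M.ι (W.w ((t4eDeg L N'' q (a + b) (2 * b) f - t4eDeg L N'' q (a + b) 0 f) ^ μ /
        ((q : ℕ) : ↥(TaF L (t4eLev N'' q (a + b))))))) := by
    rw [hι]
    exact (taGaussSubring O' π').mul_mem hGc hG1
  refine ⟨hmem, ?_⟩
  have h3 : (⟨_, hmem⟩ : ↥(taGaussSubring O' π')) = ⟨_, hGc⟩ * ⟨_, hG1⟩ := Subtype.ext hι
  rw [h3, map_mul, r1]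
  have h4 : taRho O' π' ⟨_, hGc⟩ = 1 := by
    show taRhoFun O' π' _ = 1
    rw [t4eru_taRhoFun_C, map_pow, map_neg, map_one, t4eru_neg_one_pow k q hb, map_one]
  rw [h4, one_mul]

end Unit

end Fermat.Agent.T4
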