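/-
T4E, package P7b (helper8): **the characteristic-zero integrality inputs `hT`, `hT'` of
`t4erc_regAt_cusp` at every level of the tower**, from the level-one statements.

`J n = a_n j ∈ F_i`.  For `n < i`:
* `T_n = J (n+1) / (J n)^q` is integral over `L[1 / J n]`;
* `T'_n = J n / (J (n+1))^q` is integral over `L[1 / J (n+1)]`.

Both follow by induction on the level `i` from the case `(i, n) = (1, 0)` (T2's cusp package
`t2cp_isIntegral_Y_div` and its Atkin–Lehner mirror), transported along `α` (`a_n ↦ a_n`) and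
`β` (`a_n ↦ a_{n+1}`).

* `t4erc_isIntegral_algHom` : an algebra homomorphism transports integrality over `K[x]`;
* `t4erc_hT_all`, `t4erc_hT'_all` : the two statements at all levels;
* `t4erc_hT'_one_of_AL` : the level-one statement `T'` from `T` and the Atkin–Lehner involution.
-/
import Fermat.Agent.Lib.T4E.Tower.Emb

set_option autoImplicit false
set_option linter.unusedSectionVars false
set_option linter.unusedVariables false
set_option linter.style.haveILetI false
set_option synthInstance.maxHeartbeats 400000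

open HahnSeries ModularCurve Fermat.Agent.T1 Fermat.Agent.T2

noncomputable section

namespace Fermat.Agent.T4

/-- an algebra homomorphism transports integrality over `K[x]` to integrality over `K[φ x]` -/
theorem t4erc_isIntegral_algHom {K F F' : Type*} [Field K] [CommRing F] [CommRing F'] [Algebra K F]
    [Algebra K F'] (φ : F →ₐ[K] F') {x f : F} (hf : IsIntegral ↥(Algebra.adjoin K {x}) f) :
    IsIntegral ↥(Algebra.adjoin K {φ x}) (φ f) := by
  have hmap : ∀ a : F, a ∈ Algebra.adjoin K {x} → φ a ∈ Algebra.adjoin K {φ x} := by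
    intro a ha
    have h1 : (Algebra.adjoin K {x}).map φ = Algebra.adjoin K {φ x} := by
      rw [AlgHom.map_adjoin, Set.image_singleton]
    rw [← h1]
    exact ⟨a, ha, rfl⟩
  let ψ : ↥(Algebra.adjoin K {x}) →+* ↥(Algebra.adjoin K {φ x}) :=
    { toFun := fun a => ⟨φ a, hmap a a.2⟩
      map_one' := Subtype.ext (map_one φ)
      map_mul' := fun a b => Subtype.ext (map_mul φ _ _)
      map_zero' := Subtype.ext (map_zero φ)
      map_add' := fun a b => Subtype.ext (map_add φ _ _) }
  exact IsIntegral.map_of_comp_eq ψ (φ : F →+* F') (by ext a; rfl) hf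

section Tower

variable (L : Type) [Field L] [Algebra ℚ L] (N'' q : ℕ) [NeZero N''] [NeZero q]

/-- **`T_n = a_{n+1} j · (a_n j)^{-q}` is integral over `L[1 / a_n j]`** at every level `i > n`, as
soon as it is at level one -/
theorem t4erc_hT_all
    (hT1 : IsIntegral ↥(Algebra.adjoin L {(t4eDeg L N'' q 1 0 (taJ N''))⁻¹})
      (t4eDeg L N'' q 1 1 (taJ N'') * (t4eDeg L N'' q 1 0 (taJ N''))⁻¹ ^ q)) :
    ∀ (i n : ℕ), n < i →
      IsIntegral ↥(Algebra.adjoin L {(t4eDeg L N'' q i n (taJ N''))⁻¹})
        (t4eDeg L N'' q i (n + 1) (taJ N'') * (t4eDeg L N'' q i n (taJ N''))⁻¹ ^ q)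
  | 0, n, hn => absurd hn (Nat.not_lt_zero n)
  | 1, n, hn => by
    obtain rfl : n = 0 := by omega
    exact hT1
  | i + 2, n, hn => by
    rcases Nat.lt_or_ge n (i + 1) with h | h
    · -- transport along `α`
      have h1 := t4erc_isIntegral_algHom (heckeAlphaBar L (t4eLev N'' q (i + 1)) q)
        (t4erc_hT_all hT1 (i + 1) n h)
      rw [map_mul, map_pow, map_inv₀, t4e_alpha_deg L N'' q (i := i + 1) (n := n) (by omega),
        t4e_alpha_deg L N'' q (i := i + 1) (n := n + 1) (by omega)] at h1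
      exact h1
    · -- transport along `β`
      obtain rfl : n = i + 1 := by omega
      have h1 := t4erc_isIntegral_algHom (heckeBetaBar L (t4eLev N'' q (i + 1)) q)
        (t4erc_hT_all hT1 (i + 1) i (by omega))
      rw [map_mul, map_pow, map_inv₀, t4e_beta_deg L N'' q (i := i + 1) (n := i) (by omega),
        t4e_beta_deg L N'' q (i := i + 1) (n := i + 1) (by omega)] at h1
      exact h1

/-- **`T'_n = a_n j · (a_{n+1} j)^{-q}` is integral over `L[1 / a_{n+1} j]`** at every level
`i > n`, as soon as it is at level one -/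
theorem t4erc_hT'_all
    (hT1' : IsIntegral ↥(Algebra.adjoin L {(t4eDeg L N'' q 1 1 (taJ N''))⁻¹})
      (t4eDeg L N'' q 1 0 (taJ N'') * (t4eDeg L N'' q 1 1 (taJ N''))⁻¹ ^ q)) :
    ∀ (i n : ℕ), n < i →
      IsIntegral ↥(Algebra.adjoin L {(t4eDeg L N'' q i (n + 1) (taJ N''))⁻¹})
        (t4eDeg L N'' q i n (taJ N'') * (t4eDeg L N'' q i (n + 1) (taJ N''))⁻¹ ^ q)
  | 0, n, hn => absurd hn (Nat.not_lt_zero n)
  | 1, n, hn => by
    obtain rfl : n = 0 := by omega
    exact hT1'
  | i + 2, n, hn => by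
    rcases Nat.lt_or_ge n (i + 1) with h | h
    · have h1 := t4erc_isIntegral_algHom (heckeAlphaBar L (t4eLev N'' q (i + 1)) q)
        (t4erc_hT'_all hT1' (i + 1) n h)
      rw [map_mul, map_pow, map_inv₀, t4e_alpha_deg L N'' q (i := i + 1) (n := n) (by omega),
        t4e_alpha_deg L N'' q (i := i + 1) (n := n + 1) (by omega)] at h1
      exact h1
    · obtain rfl : n = i + 1 := by omega
      have h1 := t4erc_isIntegral_algHom (heckeBetaBar L (t4eLev N'' q (i + 1)) q)
        (t4erc_hT'_all hT1' (i + 1) i (by omega))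
      rw [map_mul, map_pow, map_inv₀, t4e_beta_deg L N'' q (i := i + 1) (n := i) (by omega),
        t4e_beta_deg L N'' q (i := i + 1) (n := i + 1) (by omega)] at h1
      exact h1

/-- the level-one statement for `T'` from the one for `T`, by the Atkin–Lehner involution -/
theorem t4erc_hT'_one_of_AL (W : T4eAL L N'' q 1)
    (hT1 : IsIntegral ↥(Algebra.adjoin L {(t4eDeg L N'' q 1 0 (taJ N''))⁻¹})
      (t4eDeg L N'' q 1 1 (taJ N'') * (t4eDeg L N'' q 1 0 (taJ N''))⁻¹ ^ q)) :
    IsIntegral ↥(Algebra.adjoin L {(t4eDeg L N'' q 1 1 (taJ N''))⁻¹})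
      (t4eDeg L N'' q 1 0 (taJ N'') * (t4eDeg L N'' q 1 1 (taJ N''))⁻¹ ^ q) := by
  have key : ∀ x f x' f' : ↥(TaF L (t4eLev N'' q 1)), W.w x = x' → W.w f = f' →
      IsIntegral ↥(Algebra.adjoin L {x}) f → IsIntegral ↥(Algebra.adjoin L {x'}) f' := by
    rintro x f _ _ rfl rfl h
    exact t4erc_isIntegral_algHom W.w.toAlgHom h
  refine key _ _ _ _ ?_ ?_ hT1
  · rw [map_inv₀, W.w_a 0 (by omega)]
  · rw [map_mul, map_pow, map_inv₀, W.w_a 0 (by omega), W.w_a 1 le_rfl]

end Tower

end Fermat.Agent.T4
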