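/-
T4E, package P7b (helper8): **cusps on a middle component, abstract part** (generalises helper1's
`t4rc_ratio_unit` / `T4Pres.cusp_ratio` of `Lib/T4/Reg/{CuspAbs,CuspLoc}.lean` from the component
`(1, 1)` of level `q²` to the component `(w, i - w)` of level `q^i`).

`R` a local subring of a field `F`, integrally closed in `F` (`R = B_𝔫`, the local ring of the chart
`X⁻¹` at a cuspidal point `𝔫` of the component `w`), `J n = a_n j = j(𝔮^{q^n})`, `n ≤ i`.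

* `t4erc_isIntegral_of_rel` : a root of a monic polynomial with coefficients in `K[b]`, `b ∈ R`, is
  integral over `R`;
* `t4erc_chain` : from the modular relations `Φ(J n; J (n+1)) = 0` (`Φ` monic) and
  `1 / J 0 ∈ 𝔪_R`, all `1 / J n` are non-units of `R` (helper1's Lemma A `t4rc_inv_mem`);
* `t4erc_pow_chain_up`, `t4erc_pow_chain_down` : `u_{m+d} = unit · u_m ^ (q^d)` on the Frobenius side
  (`T_n = J (n+1) / (J n)^q` units), `u_m = unit · u_{m+d} ^ (q^d)` on the Verschiebung side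
  (`T'_n = J n / (J (n+1))^q` units);
* **`T4Pres.t4erc_ratio`** : `G = J (w + c) / J (w - c)` is a unit of `B_𝔫`
  (`G ^ (q^c) = unit`, `B_𝔫` integrally closed).
-/
import Fermat.Agent.Lib.T4.Reg.CuspLoc

set_option autoImplicit false
set_option linter.unusedSectionVars false
set_option linter.unusedVariables false
set_option linter.style.haveILetI false

namespace Fermat.Agent.T4

open Polynomial

section Abs

variable {F : Type*} [Field F]

/-- a root of a monic polynomial with coefficients in `K[b]`, `b ∈ R`, is integral over `R` -/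
theorem t4erc_isIntegral_of_rel (R : Subring F) {K : Type*} [CommRing K] (ρ : K →+* F)
    (hρ : ∀ c, ρ c ∈ R) (P : Polynomial (Polynomial K)) (hP : P.Monic) {a b : F} (hb : b ∈ R)
    (hPab : P.eval₂ (Polynomial.eval₂RingHom ρ b) a = 0) : IsIntegral ↥R a := by
  let ρR : K →+* ↥R := ρ.codRestrict R hρ
  let φ : Polynomial K →+* ↥R := Polynomial.eval₂RingHom ρR ⟨b, hb⟩
  refine ⟨P.map φ, hP.map φ, ?_⟩
  rw [Polynomial.eval₂_map]
  have hcomp : (algebraMap ↥R F).comp φ = Polynomial.eval₂RingHom ρ b := by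
    apply Polynomial.ringHom_ext
    · intro c
      simp only [RingHom.comp_apply, φ, Polynomial.coe_eval₂RingHom, Polynomial.eval₂_C]
      rfl
    · simp only [RingHom.comp_apply, φ, Polynomial.coe_eval₂RingHom, Polynomial.eval₂_X]
      rfl
  rw [hcomp]
  exact hPab

/-- **the chain of non-units**: from the modular relations `Φ(J n; J (n+1)) = 0` and
`1 / J 0 ∈ 𝔪_R`, all `1 / J n`, `n ≤ i`, are non-units of `R` -/
theorem t4erc_chain (R : Subring F) [IsLocalRing ↥R] (hic : ∀ x : F, IsIntegral ↥R x → x ∈ R)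
    {K : Type*} [CommRing K] (ρ : K →+* F) (hρ : ∀ c, ρ c ∈ R)
    (P : Polynomial (Polynomial K)) (hP : P.Monic) (J : ℕ → F) (i : ℕ)
    (hJ : ∀ n ≤ i, J n ≠ 0)
    (hrel : ∀ n < i, P.eval₂ (Polynomial.eval₂RingHom ρ (J (n + 1))) (J n) = 0)
    (hu : (J 0)⁻¹ ∈ R) (hnu : ¬ IsUnit (⟨(J 0)⁻¹, hu⟩ : ↥R)) :
    ∀ n ≤ i, ∃ h : (J n)⁻¹ ∈ R, ¬ IsUnit (⟨(J n)⁻¹, h⟩ : ↥R) := by
  intro n
  induction n with
  | zero => exact fun _ => ⟨hu, hnu⟩
  | succ n ih =>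
    intro hn
    obtain ⟨hun, hnun⟩ := ih (by omega)
    have hmem : (J (n + 1))⁻¹ ∈ R :=
      t4rc_inv_mem R hic ρ hρ P hP (hJ n (by omega)) (hJ (n + 1) hn) (hrel n (by omega)) hun hnun
    refine ⟨hmem, fun hunit => ?_⟩
    rw [t4rc_isUnit_iff, inv_inv] at hunit
    -- then `J (n+1) ∈ R`, hence `J n ∈ R` and `1 / J n` is a unit
    have hJn : J n ∈ R :=
      hic _ (t4erc_isIntegral_of_rel R ρ hρ P hP hunit.2 (hrel n (by omega)))
    apply hnun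
    rw [t4rc_isUnit_iff, inv_inv]
    exact ⟨inv_ne_zero (hJ n (by omega)), hJn⟩

/-- **the Frobenius side**: if `T_n = J (n+1) / (J n)^q` is a unit of `R` for `m ≤ n < m + d`, then
`1 / J (m + d) = unit · (1 / J m) ^ (q^d)` -/
theorem t4erc_pow_chain_up (R : Subring F) (J : ℕ → F) (q m : ℕ) :
    ∀ d : ℕ, (∀ n, m ≤ n → n < m + d → J n ≠ 0 ∧ J (n + 1) ≠ 0 ∧
        J (n + 1) * (J n)⁻¹ ^ q ∈ R ∧ (J (n + 1) * (J n)⁻¹ ^ q)⁻¹ ∈ R) →
      ∃ U : F, U ∈ R ∧ U⁻¹ ∈ R ∧ (J (m + d))⁻¹ = U * ((J m)⁻¹) ^ (q ^ d) := by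
  intro d
  induction d with
  | zero =>
    intro _
    refine ⟨1, R.one_mem, by rw [inv_one]; exact R.one_mem, ?_⟩
    rw [pow_zero, pow_one, one_mul, Nat.add_zero]
  | succ d ih =>
    intro h
    obtain ⟨U, hU, hUi, e⟩ := ih (fun n hn hn' => h n hn (by omega))
    obtain ⟨h0, h1, hT, hTi⟩ := h (m + d) (by omega) (by omega)
    refine ⟨(J (m + d + 1) * (J (m + d))⁻¹ ^ q)⁻¹ * U ^ q, R.mul_mem hTi (R.pow_mem hU q), ?_, ?_⟩
    · rw [mul_inv, inv_inv, ← inv_pow]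
      exact R.mul_mem hT (R.pow_mem hUi q)
    · have e1 : (J (m + (d + 1)))⁻¹ =
          (J (m + d + 1) * (J (m + d))⁻¹ ^ q)⁻¹ * ((J (m + d))⁻¹) ^ q := by
        rw [mul_inv, ← inv_pow, inv_inv, inv_pow, ← add_assoc]
        field_simp
      rw [e1, e, mul_pow, ← pow_mul, pow_succ]
      ring

/-- **the Verschiebung side**: if `T'_n = J n / (J (n+1))^q` is a unit of `R` for `m ≤ n < m + d`,
then `1 / J m = unit · (1 / J (m + d)) ^ (q^d)` -/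
theorem t4erc_pow_chain_down (R : Subring F) (J : ℕ → F) (q m : ℕ) :
    ∀ d : ℕ, (∀ n, m ≤ n → n < m + d → J n ≠ 0 ∧ J (n + 1) ≠ 0 ∧
        J n * (J (n + 1))⁻¹ ^ q ∈ R ∧ (J n * (J (n + 1))⁻¹ ^ q)⁻¹ ∈ R) →
      ∃ U : F, U ∈ R ∧ U⁻¹ ∈ R ∧ (J m)⁻¹ = U * ((J (m + d))⁻¹) ^ (q ^ d) := by
  intro d
  induction d with
  | zero =>
    intro _
    refine ⟨1, R.one_mem, by rw [inv_one]; exact R.one_mem, ?_⟩
    rw [pow_zero, pow_one, one_mul, Nat.add_zero]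
  | succ d ih =>
    intro h
    obtain ⟨U, hU, hUi, e⟩ := ih (fun n hn hn' => h n hn (by omega))
    obtain ⟨h0, h1, hT, hTi⟩ := h (m + d) (by omega) (by omega)
    refine ⟨U * ((J (m + d) * (J (m + d + 1))⁻¹ ^ q)⁻¹) ^ (q ^ d),
      R.mul_mem hU (R.pow_mem hTi _), ?_, ?_⟩
    · rw [mul_inv, ← inv_pow, inv_inv]
      exact R.mul_mem hUi (R.pow_mem hT _)
    · have e1 : (J (m + d))⁻¹ =
          (J (m + d) * (J (m + d + 1))⁻¹ ^ q)⁻¹ * ((J (m + (d + 1)))⁻¹) ^ q := by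
        rw [mul_inv, ← inv_pow, inv_inv, inv_pow, ← add_assoc]
        field_simp
      rw [e, e1, mul_pow, ← pow_mul, pow_succ]
      ring

end Abs

namespace T4Pres

variable {F : Type*} [Field F] (P : T4Pres F)

/-- **the ratio `G = J (w + c) / J (w - c)` at a cuspidal point of the component `w`.**  All
`1 / J n` lie in `R = B_𝔫`; `T_n = J (n+1) / (J n)^q ∈ R`, `T_n ≡ 1` on the branch `V₀` for
`w - c ≤ n < w`; `T'_n = J n / (J (n+1))^q ∈ R`, `T'_n ≡ 1` on `V₀` for `w ≤ n < w + c`.  Then `G` is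
a unit of `R`. -/
theorem t4erc_ratio (𝔫 : Ideal P.B) [h𝔫 : 𝔫.IsPrime] {V₀ : ValuationSubring F}
    (hV₀ : V₀ ∈ P.through 𝔫) (J : ℕ → F) {w c q : ℕ} (hq : 0 < q) (hcw : c ≤ w)
    (hJ : ∀ n, w - c ≤ n → n ≤ w + c → J n ≠ 0)
    (hT : ∀ n, w - c ≤ n → n < w → J (n + 1) * (J n)⁻¹ ^ q ∈ P.loc 𝔫 ∧
      V₀.valuation (J (n + 1) * (J n)⁻¹ ^ q - 1) < 1)
    (hT' : ∀ n, w ≤ n → n < w + c → J n * (J (n + 1))⁻¹ ^ q ∈ P.loc 𝔫 ∧
      V₀.valuation (J n * (J (n + 1))⁻¹ ^ q - 1) < 1) :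
    J (w + c) * (J (w - c))⁻¹ ∈ P.loc 𝔫 ∧ (J (w + c) * (J (w - c))⁻¹)⁻¹ ∈ P.loc 𝔫 := by
  obtain ⟨U, hU, hUi, eU⟩ := t4erc_pow_chain_up (P.loc 𝔫) J q (w - c) c (fun n hn hn' => by
    have hnw : n < w := by omega
    obtain ⟨h1, h2⟩ := hT n hn hnw
    exact ⟨hJ n hn (by omega), hJ (n + 1) (by omega) (by omega), h1,
      P.inv_mem_loc_of_sub_one 𝔫 hV₀ h1 h2⟩)
  obtain ⟨U', hU', hUi', eU'⟩ := t4erc_pow_chain_down (P.loc 𝔫) J q w c (fun n hn hn' => by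
    obtain ⟨h1, h2⟩ := hT' n hn hn'
    exact ⟨hJ n (by omega) (by omega), hJ (n + 1) (by omega) (by omega), h1,
      P.inv_mem_loc_of_sub_one 𝔫 hV₀ h1 h2⟩)
  rw [Nat.sub_add_cancel hcw] at eU
  have hJa : J (w - c) ≠ 0 := hJ _ le_rfl (by omega)
  have hJb : J (w + c) ≠ 0 := hJ _ (by omega) le_rfl
  have hJw : J w ≠ 0 := hJ _ (by omega) (by omega)
  have hU0 : U ≠ 0 := by
    rintro rfl
    rw [zero_mul] at eU
    exact inv_ne_zero hJw eU
  have hU'0 : U' ≠ 0 := by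
    rintro rfl
    rw [zero_mul] at eU'
    exact inv_ne_zero hJw eU'
  have hqc : 0 < q ^ c := pow_pos hq c
  -- `G ^ (q^c) = U' / U`
  have hG : (J (w + c) * (J (w - c))⁻¹) ^ (q ^ c) = U' * U⁻¹ := by
    have h1 : U * ((J (w - c))⁻¹) ^ (q ^ c) = U' * ((J (w + c))⁻¹) ^ (q ^ c) := by
      rw [← eU, ← eU']
    have h2 : J (w - c) ^ (q ^ c) ≠ 0 := pow_ne_zero _ hJa
    have h3 : J (w + c) ^ (q ^ c) ≠ 0 := pow_ne_zero _ hJb
    rw [inv_pow, inv_pow] at h1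
    rw [mul_pow, inv_pow]
    have h4 : U * J (w + c) ^ (q ^ c) = U' * J (w - c) ^ (q ^ c) := by
      have h5 : U * (J (w - c) ^ (q ^ c))⁻¹ * (J (w - c) ^ (q ^ c) * J (w + c) ^ (q ^ c)) =
          U' * (J (w + c) ^ (q ^ c))⁻¹ * (J (w - c) ^ (q ^ c) * J (w + c) ^ (q ^ c)) := by
        rw [h1]
      have e1 : U * (J (w - c) ^ (q ^ c))⁻¹ * (J (w - c) ^ (q ^ c) * J (w + c) ^ (q ^ c)) =
          U * J (w + c) ^ (q ^ c) := by
        field_simp
      have e2 : U' * (J (w + c) ^ (q ^ c))⁻¹ * (J (w - c) ^ (q ^ c) * J (w + c) ^ (q ^ c)) =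
          U' * J (w - c) ^ (q ^ c) := by
        field_simp
      rw [e1, e2] at h5
      exact h5
    rw [eq_mul_inv_iff_mul_eq₀ hU0, mul_comm _ U, ← mul_assoc, h4, mul_assoc,
      mul_inv_cancel₀ h2, mul_one]
  refine ⟨P.loc_integrallyClosed 𝔫 (IsIntegral.of_pow hqc ?_),
    P.loc_integrallyClosed 𝔫 (IsIntegral.of_pow hqc ?_)⟩
  · rw [hG]
    exact t4rc_isIntegral_of_mem _ ((P.loc 𝔫).mul_mem hU' hUi)
  · rw [inv_pow, hG, mul_inv, inv_inv]
    exact t4rc_isIntegral_of_mem _ ((P.loc 𝔫).mul_mem hUi' hU)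

end T4Pres

end Fermat.Agent.T4
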