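/-
T4E, package P7b (helper8): **(R-ord), regularity at the closed points of the special fibre of level
`i` which lie on exactly one vertical component `V w` of multiplicity `μ = φ(q^c) > 1`**
(`c = min w (i - w) ≥ 1`), in the language of the vertical layer `Y : T4eLayer O π hπ N'' q i`.

* `T4eLayer.RhoUnit Y w` : the hypothesis (UNIT-ρ) on the layer: for `f ∈ O_v` (level `N''`),
  `ϖ_f = a_{w+c} f - a_{w-c} f`, the element `ϖ_f ^ μ / q` lies in `V w` and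
  `ρ_w (ϖ_f ^ μ / q) = -((θ f̄)(𝔮^{q^x})) ^ μ`, `x = t4eExp i w (w - c)` (delivered at the instance by
  `t4eru_pi_f_pow`, `t4eru_pi_f_pow_flip` of `Reg/Unit.lean`);
* `T4eLayer.hunif`, `T4eLayer.valuation_q` : `ϖ w` has the largest valuation `< 1` and
  `v_w q = v_w (ϖ w) ^ μ`;
* **`t4ero_local_eq`** : `v_w (ϖ_f ^ μ / q + a_{w-c} (e ^ (q^(c-1)))) < 1` as soon as
  `ē = (θ f̄) ^ (q - 1)`;
* **`t4ero_unit`** : helper6's hypothesis (UNIT_w): `∃ a ∈ B, u ∈ (B_𝔫)ˣ, v_w a < 1 ∧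
  v_w (a ^ μ / q + u) < 1`, from charts `P0` (level `N''`), `P` (level `i`) with `P` over `P0` along
  `a_{w-c}`, `a_{w+c} B₀ ⊆ B`, and the output `f, e, e'` of REG1-M at the point under `𝔫`;
* **`t4ero_regAt`** : `P.RegAt 𝔫` at such a point (via `T4Pres.regAt_of_pow_unit`);
* `t4ero_O10_not_through` : along an embedding `γ : F_1 → F_i` with `V w ∩ F_1 = O¹_inf`, the point
  of level `N'' q` under such an `𝔫` lies on `C¹_inf` only (from REG1-G);
  `t4ero_not_under_node` : hence the point of level `N''` under `𝔫` lies under no node;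
* **`t4ero_regAt_of_over`** : the assembled statement: `P.RegAt 𝔫` from (UNIT-ρ), `T4rmLow`, REG1-G
  (`T4rtRegG`), REG1-M (`T4rmRegM`) at levels `N''`, `N'' q`, `P` over `P0` along `a_{w-c}`,
  `a_{w+c} B₀ ⊆ B`, and `P` over `P1` along `γ` with `γ ∘ α = a_{w-c}`.
-/
import Fermat.Agent.Lib.T4E.Tower.Defs
import Fermat.Agent.Lib.T4.Reg.TopMid

set_option autoImplicit false
set_option linter.unusedSectionVars false
set_option linter.unusedVariables false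
set_option linter.style.haveILetI false
set_option synthInstance.maxHeartbeats 400000

open HahnSeries ModularCurve Fermat.Agent.T1 Fermat.Agent.T2

noncomputable section

namespace Fermat.Agent.T4

section Ord

variable {L : Type} [Field L] [Algebra ℚ L] {O : ValuationSubring L} {k : Type*} [Field k]
  {π : ↥O →+* k} [IsDiscreteValuationRing ↥O] {hπ : Function.Surjective π}
  {N'' q : ℕ} [NeZero N''] [hq : Fact q.Prime] {i : ℕ}

/-- **the hypothesis (UNIT-ρ)** on the layer at the component `w` (`c = min w (i - w)`,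
`μ = φ(q^c)`): for every Gauss-integral `f` of level `N''`, `ϖ_f ^ μ / q ∈ V w` and
`ρ_w (ϖ_f ^ μ / q) = -((θ f̄)(𝔮^{q^x})) ^ μ`, where `ϖ_f = a_{w+c} f - a_{w-c} f` and
`x = t4eExp i w (w - c)` -/
def T4eLayer.RhoUnit (Y : T4eLayer O π hπ N'' q i) (w : ℕ) : Prop :=
  ∀ (f : ↥(TaF L N'')) (hf : f ∈ taOv O π hπ N''),
    ∃ hx : (t4eDeg L N'' q i (w + min w (i - w)) f - t4eDeg L N'' q i (w - min w (i - w)) f)
        ^ t4eMult q i w / ((q : ℕ) : ↥(TaF L (t4eLev N'' q i))) ∈ Y.V w,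
      Y.ρ w ⟨_, hx⟩ =
        -(qExpand k (q ^ t4eExp i w (w - min w (i - w)))
          (t4vTheta (taResN O π hπ N'' ⟨f, hf⟩))) ^ t4eMult q i w

variable (Y : T4eLayer O π hπ N'' q i)

/-- `q ≠ 0` in `F_i` -/
theorem t4ero_q_ne_zero : ((q : ℕ) : ↥(TaF L (t4eLev N'' q i))) ≠ 0 := by
  haveI : CharZero L := algebraRat.charZero L
  haveI : CharZero ↥(TaF L (t4eLev N'' q i)) := charZero_of_injective_algebraMap
    (algebraMap L ↥(TaF L (t4eLev N'' q i))).injective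
  exact_mod_cast hq.out.ne_zero

/-- the multiplicity is positive -/
theorem t4ero_mult_ne_zero (w : ℕ) : t4eMult q i w ≠ 0 :=
  (Nat.totient_pos.2 (Nat.pos_of_ne_zero (pow_ne_zero _ hq.out.ne_zero))).ne'

/-- `ϖ w` has the largest valuation `< 1` -/
theorem T4eLayer.hunif {w : ℕ} (hw : w ≤ i) :
    ∀ x : ↥(TaF L (t4eLev N'' q i)), (Y.V w).valuation x < 1 →
      (Y.V w).valuation x ≤ (Y.V w).valuation (Y.ϖ w) := by
  have hlt := Y.ϖ_lt w hw
  have hmem : Y.ϖ w ∈ Y.V w := ((Y.V w).valuation_le_one_iff _).mp hlt.le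
  have hinv : (Y.ϖ w)⁻¹ ∉ Y.V w := by
    intro h
    have h1 := ((Y.V w).valuation_le_one_iff _).mpr h
    have h0 : Y.ϖ w ≠ 0 := by
      intro h0
      obtain ⟨u, hu, hqu⟩ := Y.q_eq w hw
      rw [h0, zero_pow (t4ero_mult_ne_zero w), zero_mul] at hqu
      exact t4ero_q_ne_zero hqu
    have h2 : (Y.V w).valuation (Y.ϖ w) * (Y.V w).valuation (Y.ϖ w)⁻¹ = 1 := by
      rw [← map_mul, mul_inv_cancel₀ h0, map_one]
    have h3 : (Y.V w).valuation (Y.ϖ w) * (Y.V w).valuation (Y.ϖ w)⁻¹ < 1 :=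
      calc (Y.V w).valuation (Y.ϖ w) * (Y.V w).valuation (Y.ϖ w)⁻¹
          ≤ (Y.V w).valuation (Y.ϖ w) * 1 := mul_le_mul_right h1 _
        _ = (Y.V w).valuation (Y.ϖ w) := mul_one _
        _ < 1 := hlt
    exact absurd h2 h3.ne
  refine t4rt_hunif_of_decomp (Y.V w) hmem hinv fun f hf => ?_
  obtain ⟨n, u, hu, e⟩ := Y.ϖ_unif w hw f hf
  have hu0 : u ≠ 0 := by
    rintro rfl
    rw [map_zero] at hu
    exact zero_ne_one hu
  refine ⟨n, u, ((Y.V w).valuation_le_one_iff _).mp hu.le, ?_, e⟩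
  rw [← (Y.V w).valuation_le_one_iff, map_inv₀, hu, inv_one]

/-- `v_w q = v_w (ϖ w) ^ μ` -/
theorem T4eLayer.valuation_q {w : ℕ} (hw : w ≤ i) :
    (Y.V w).valuation ((q : ℕ) : ↥(TaF L (t4eLev N'' q i))) =
      (Y.V w).valuation (Y.ϖ w) ^ t4eMult q i w := by
  obtain ⟨u, hu, hqu⟩ := Y.q_eq w hw
  rw [hqu, map_mul, map_pow, hu, mul_one]

/-- `v_w q < 1` -/
theorem T4eLayer.valuation_q_lt {w : ℕ} (hw : w ≤ i) :
    (Y.V w).valuation ((q : ℕ) : ↥(TaF L (t4eLev N'' q i))) < 1 := by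
  rw [Y.valuation_q hw]
  exact pow_lt_one₀ zero_le (Y.ϖ_lt w hw) (t4ero_mult_ne_zero w)

variable {Y}

/-- under (UNIT-ρ), `ϖ_f` is a non-unit of `V w` -/
theorem T4eLayer.RhoUnit.valuation_lt {w : ℕ} (hρ : Y.RhoUnit w) (hw : w ≤ i)
    {f : ↥(TaF L N'')} (hf : f ∈ taOv O π hπ N'') :
    (Y.V w).valuation
      (t4eDeg L N'' q i (w + min w (i - w)) f - t4eDeg L N'' q i (w - min w (i - w)) f) < 1 := by
  obtain ⟨hx, -⟩ := hρ f hf
  rw [← (Y.V w).valuation_le_one_iff, map_div₀, map_pow] at hx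
  by_contra hcon
  push Not at hcon
  have h1 : (1 : _) ≤ (Y.V w).valuation
      (t4eDeg L N'' q i (w + min w (i - w)) f - t4eDeg L N'' q i (w - min w (i - w)) f)
        ^ t4eMult q i w := one_le_pow₀ hcon
  have hq0 : (Y.V w).valuation ((q : ℕ) : ↥(TaF L (t4eLev N'' q i))) ≠ 0 :=
    (Valuation.ne_zero_iff _).mpr t4ero_q_ne_zero
  have h2 := (div_le_one₀ (zero_lt_iff.mpr hq0)).mp hx
  exact absurd (lt_of_le_of_lt (h1.trans h2) (Y.valuation_q_lt hw)) (lt_irrefl _)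

/-- **the local equation at the points of `V w` only**: `ϖ_f ^ μ / q + a_{w-c} (e ^ (q^(c-1)))` is a
non-unit of `V w` as soon as `ē = (θ f̄) ^ (q - 1)` -/
theorem t4ero_local_eq {w : ℕ} (hρ : Y.RhoUnit w) (hw : w ≤ i) (hc : 1 ≤ min w (i - w))
    {f e : ↥(TaF L N'')} (hf : f ∈ taOv O π hπ N'') (he : e ∈ taOv O π hπ N'')
    (hfe : taRhoFun O π (e : LaurentSeries L) =
      (t4vTheta (taRhoFun O π (f : LaurentSeries L))) ^ (q - 1)) :
    (Y.V w).valuation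
      ((t4eDeg L N'' q i (w + min w (i - w)) f - t4eDeg L N'' q i (w - min w (i - w)) f)
          ^ t4eMult q i w / ((q : ℕ) : ↥(TaF L (t4eLev N'' q i)))
        + t4eDeg L N'' q i (w - min w (i - w)) (e ^ (q ^ (min w (i - w) - 1)))) < 1 := by
  obtain ⟨hx, r1⟩ := hρ f hf
  have hn : w - min w (i - w) ≤ i := by omega
  have he' : e ^ (q ^ (min w (i - w) - 1)) ∈ taOv O π hπ N'' := pow_mem he _
  have hx2 := Y.a_mem w hw _ hn _ he'
  have r2 := Y.ρ_a w hw _ hn _ he'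
  have hsum : (⟨_, (Y.V w).add_mem _ _ hx hx2⟩ : ↥(Y.V w)) = ⟨_, hx⟩ + ⟨_, hx2⟩ := rfl
  rw [← Y.ρ_eq_zero w hw ⟨_, (Y.V w).add_mem _ _ hx hx2⟩, hsum, map_add, r1, r2]
  have h1 : taResN O π hπ N'' ⟨e ^ (q ^ (min w (i - w) - 1)), he'⟩ =
      (t4vTheta (taResN O π hπ N'' ⟨f, hf⟩)) ^ t4eMult q i w := by
    have h2 : (⟨e ^ (q ^ (min w (i - w) - 1)), he'⟩ : ↥(taOv O π hπ N'')) =
        ⟨e, he⟩ ^ (q ^ (min w (i - w) - 1)) := rfl
    have h3 : taResN O π hπ N'' ⟨e, he⟩ = taRhoFun O π (e : LaurentSeries L) := rfl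
    have h4 : taResN O π hπ N'' ⟨f, hf⟩ = taRhoFun O π (f : LaurentSeries L) := rfl
    rw [h2, map_pow, h3, h4, hfe, ← pow_mul, t4eMult, Nat.totient_prime_pow hq.out (by omega),
      mul_comm]
  rw [h1, map_pow, neg_add_cancel]

/-- **(UNIT_w)**: at a closed point `𝔫` of the chart `P` (level `i`) through which `V w` passes
(`c = min w (i - w) ≥ 1`), from the output `f, e, e'` of REG1-M at the point of the chart `P0`
(level `N''`) under `𝔫` along `a_{w-c}`: `a = ϖ_f ∈ B` and the unit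
`u = a_{w-c} (e ^ (q^(c-1)))` of `B_𝔫` satisfy `v_w a < 1`, `v_w (a ^ μ / q + u) < 1` -/
theorem t4ero_unit {w : ℕ} (hρ : Y.RhoUnit w) (hw : w ≤ i) (hc : 1 ≤ min w (i - w))
    {P0 : T4Pres ↥(TaF L N'')} {P : T4Pres ↥(TaF L (t4eLev N'' q i))}
    (A : Algebra ↥(TaF L N'') ↥(TaF L (t4eLev N'' q i)))
    (hA : ∀ f, @algebraMap _ _ _ _ A f = t4eDeg L N'' q i (w - min w (i - w)) f)
    (hlo : @T4PresOver _ _ _ _ A P0 P)
    (hhi : ∀ b ∈ P0.B, t4eDeg L N'' q i (w + min w (i - w)) b ∈ P.B)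
    (hP0 : taOv O π hπ N'' ∈ P0.vals)
    (𝔫 : Ideal P.B) [h𝔫 : 𝔫.IsMaximal] (hV : Y.V w ∈ P.through 𝔫)
    {f e e' : ↥(TaF L N'')} (hf : f ∈ P0.B)
    (he : e ∈ P0.loc (@T4PresOver.under _ _ _ _ A _ _ hlo 𝔫))
    (he' : e' ∈ P0.loc (@T4PresOver.under _ _ _ _ A _ _ hlo 𝔫)) (hee' : e * e' = 1)
    (hfe : taRhoFun O π (e : LaurentSeries L) =
      (t4vTheta (taRhoFun O π (f : LaurentSeries L))) ^ (q - 1)) :
    ∃ a u : ↥(TaF L (t4eLev N'' q i)), a ∈ P.B ∧ u ∈ P.loc 𝔫 ∧ u⁻¹ ∈ P.loc 𝔫 ∧ u ≠ 0 ∧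
      (Y.V w).valuation a < 1 ∧
      (Y.V w).valuation (a ^ t4eMult q i w / ((q : ℕ) : ↥(TaF L (t4eLev N'' q i))) + u) < 1 := by
  letI := A
  have hn : w - min w (i - w) ≤ i := by omega
  -- the Gauss valuation ring of level `N''` passes through the point under `𝔫`
  have hV0 : taOv O π hπ N'' ∈ P0.through (hlo.under 𝔫) := by
    have h1 : (Y.V w).comap (algebraMap ↥(TaF L N'') ↥(TaF L (t4eLev N'' q i))) =
        taOv O π hπ N'' := by
      rw [← Y.lies_over w hw _ hn]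
      congr 1
      exact RingHom.ext hA
    have := hlo.comap_mem_through hV (by rw [h1]; exact hP0)
    rwa [h1] at this
  have hfG : f ∈ taOv O π hπ N'' := P0.B_le hP0 hf
  have heG : e ∈ taOv O π hπ N'' := he _ hV0
  have he0 : e ≠ 0 := left_ne_zero_of_mul_eq_one hee'
  have hloc : ∀ b ∈ P0.loc (hlo.under 𝔫),
      t4eDeg L N'' q i (w - min w (i - w)) b ∈ P.loc 𝔫 := fun b hb => by
    rw [← hA]
    exact hlo.map_mem_loc 𝔫 hb
  have hinv : (t4eDeg L N'' q i (w - min w (i - w)) (e ^ (q ^ (min w (i - w) - 1))))⁻¹ =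
      t4eDeg L N'' q i (w - min w (i - w)) (e' ^ (q ^ (min w (i - w) - 1))) := by
    rw [← map_inv₀]
    congr 1
    refine inv_eq_of_mul_eq_one_right ?_
    rw [← mul_pow, hee', one_pow]
  refine ⟨t4eDeg L N'' q i (w + min w (i - w)) f - t4eDeg L N'' q i (w - min w (i - w)) f,
    t4eDeg L N'' q i (w - min w (i - w)) (e ^ (q ^ (min w (i - w) - 1))), ?_, ?_, ?_, ?_,
    hρ.valuation_lt hw hfG, t4ero_local_eq hρ hw hc hfG heG hfe⟩
  · refine sub_mem (hhi f hf) ?_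
    rw [← hA]
    exact hlo.map_mem f hf
  · exact hloc _ (pow_mem he _)
  · rw [hinv]
    exact hloc _ (pow_mem he' _)
  · exact (map_ne_zero _).mpr (pow_ne_zero _ he0)

/-- **(R-ord), `μ > 1`**: regularity of the chart `P` at a closed point `𝔫` through which `V w` is
the only vertical valuation ring (`c = min w (i - w) ≥ 1`), from the output of REG1-M at the point
under `𝔫` along `a_{w-c}` -/
theorem t4ero_regAt {w : ℕ} (hρ : Y.RhoUnit w) (hw : w ≤ i) (hc : 1 ≤ min w (i - w))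
    {P0 : T4Pres ↥(TaF L N'')} {P : T4Pres ↥(TaF L (t4eLev N'' q i))}
    (A : Algebra ↥(TaF L N'') ↥(TaF L (t4eLev N'' q i)))
    (hA : ∀ f, @algebraMap _ _ _ _ A f = t4eDeg L N'' q i (w - min w (i - w)) f)
    (hlo : @T4PresOver _ _ _ _ A P0 P)
    (hhi : ∀ b ∈ P0.B, t4eDeg L N'' q i (w + min w (i - w)) b ∈ P.B)
    (hP0 : taOv O π hπ N'' ∈ P0.vals)
    (hqB : ((q : ℕ) : ↥(TaF L (t4eLev N'' q i))) ∈ P.B)
    (𝔫 : Ideal P.B) [h𝔫 : 𝔫.IsMaximal] (hV : Y.V w ∈ P.through 𝔫)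
    (honly : ∀ V ∈ P.through 𝔫, V ∈ P.vert ((q : ℕ) : ↥(TaF L (t4eLev N'' q i))) → V = Y.V w)
    {f e e' : ↥(TaF L N'')} (hf : f ∈ P0.B)
    (he : e ∈ P0.loc (@T4PresOver.under _ _ _ _ A _ _ hlo 𝔫))
    (he' : e' ∈ P0.loc (@T4PresOver.under _ _ _ _ A _ _ hlo 𝔫)) (hee' : e * e' = 1)
    (hfe : taRhoFun O π (e : LaurentSeries L) =
      (t4vTheta (taRhoFun O π (f : LaurentSeries L))) ^ (q - 1))
    (hsm : P.SmoothAt 𝔫 _ hV) : P.RegAt 𝔫 := by
  obtain ⟨a, u, ha, hu, hui, hu0, haV, hau⟩ :=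
    t4ero_unit hρ hw hc A hA hlo hhi hP0 𝔫 hV hf he he' hee' hfe
  exact P.regAt_of_pow_unit hqB t4ero_q_ne_zero hV ha (t4ero_mult_ne_zero w) (Y.hunif hw)
    (Y.valuation_q hw) haV hu hui hu0 hau honly hsm

end Ord


/-! ### The point under `𝔫` lies under no node -/

section Node

variable {L : Type} [Field L] [Algebra ℚ L] {O : ValuationSubring L} {k : Type*} [Field k]
  {π : ↥O →+* k} [IsDiscreteValuationRing ↥O] {hπ : Function.Surjective π} [IsAlgClosed k]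
  {N'' q : ℕ} [NeZero N''] [hq : Fact q.Prime] [CharP k q] {i : ℕ}
  {W1 : T2iAL L N'' q} (hqO : Irreducible ((q : ℕ) : ↥O))
  {Y : T4eLayer O π hπ N'' q i}

include hqO in
/-- `q` is a non-unit of `O¹_0` -/
theorem t4ero_O10_valuation_q :
    (t4rtO10 O π hπ W1).valuation ((q : ℕ) : ↥(TaF L (N'' * q))) < 1 := by
  rw [t4vr_valuation_lt_one_iff_of_comap
    (W1.w : ↥(TaF L (N'' * q)) →+* ↥(TaF L (N'' * q))) (V := taOv O π hπ (N'' * q)) rfl,
    map_natCast]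
  exact t4rt_O1inf_valuation_q O π hπ hqO

include hqO in
/-- **the point of level `N'' q` under a point of level `i` through which `V w` is the only vertical
valuation ring, along an embedding `γ : F_1 → F_i` with `V w ∩ F_1 = O¹_inf`, lies on `C¹_inf`
only** (REG1-G gives a local equation of `C¹_0` at a node; its image would be a non-unit of `B_𝔫`
which is a unit at every valuation ring through `𝔫`) -/
theorem t4ero_O10_not_through {w : ℕ}
    {x1 : ↥(TaF L (N'' * q))} {P1 : T4Pres ↥(TaF L (N'' * q))}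
    {P : T4Pres ↥(TaF L (t4eLev N'' q i))}
    (A1 : Algebra ↥(TaF L (N'' * q)) ↥(TaF L (t4eLev N'' q i)))
    (hγ : @T4PresOver _ _ _ _ A1 P1 P)
    (hcomap : ∀ V ∈ P.vals, V.comap (@algebraMap _ _ _ _ A1) ∈ P1.vals)
    (hVγ : (Y.V w).comap (@algebraMap _ _ _ _ A1) = taOv O π hπ (N'' * q))
    (vals1 : P1.vals = t4vpHor L x1 ∪ t4rtVer1 O π hπ W1)
    (hG : T4rtRegG O π hπ W1 P1)
    (𝔫 : Ideal P.B) [h𝔫 : 𝔫.IsMaximal] (hV : Y.V w ∈ P.through 𝔫)
    (honly : ∀ V ∈ P.through 𝔫, V ∈ P.vert ((q : ℕ) : ↥(TaF L (t4eLev N'' q i))) → V = Y.V w) :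
    taOv O π hπ (N'' * q) ∈ P1.through (@T4PresOver.under _ _ _ _ A1 _ _ hγ 𝔫) ∧
      t4rtO10 O π hπ W1 ∉ P1.through (@T4PresOver.under _ _ _ _ A1 _ _ hγ 𝔫) := by
  letI := A1
  haveI h𝔫1 : (hγ.under 𝔫).IsMaximal := hγ.under_isMaximal 𝔫
  have h1inf : taOv O π hπ (N'' * q) ∈ P1.through (hγ.under 𝔫) := by
    have := hγ.comap_mem_through hV (hcomap _ hV.1)
    rwa [hVγ] at this
  refine ⟨h1inf, fun h10 => ?_⟩
  obtain ⟨a, b, ha, hb, hab, hainf, ha0, hbinf, hb0⟩ := hG _ h𝔫1 h1inf h10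
  have hb_ne : b ≠ 0 := by
    rintro rfl
    rw [map_zero] at hbinf
    exact zero_ne_one hbinf
  have hnu := T4PresOver.not_isUnit_of_valuation_lt h10 hb
    (by rw [hb0]; exact t4ero_O10_valuation_q hqO)
  apply hγ.not_isUnit_locMap 𝔫 hnu
  rw [P.isUnit_loc_iff]
  refine ⟨?_, fun V hV' => ?_⟩
  · rw [T4PresOver.coe_locMap]
    exact (map_ne_zero _).mpr hb_ne
  · rw [T4PresOver.coe_locMap]
    show V.valuation (algebraMap ↥(TaF L (N'' * q)) ↥(TaF L (t4eLev N'' q i)) b) = 1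
    rw [← t4l_valuation_comap_eq_one]
    have hV1 := hγ.comap_mem_through hV' (hcomap _ hV'.1)
    have hmem := hV1.1
    rw [vals1] at hmem
    rcases hmem with hh | hv
    · have hq1 := t4vp_valuation_const hh (c := ((q : ℕ) : L)) t4rt_natCast_ne_zero
      rw [map_natCast] at hq1
      have hab1 := hab _ hV1
      rw [hq1] at hab1
      exact (t4rt_valuation_eq_one_of_mul _ (P1.B_le hV1.1 ha) (hb _ hV1) hab1).2
    · rcases hv with hv | hv
      · rw [hv]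
        exact hbinf
      · rw [Set.mem_singleton_iff] at hv
        -- then `V` is vertical, hence `V = V w`
        have hVq : V ∈ P.vert ((q : ℕ) : ↥(TaF L (t4eLev N'' q i))) := by
          refine ⟨hV'.1, ?_⟩
          have h1 : (V.comap (algebraMap ↥(TaF L (N'' * q)) ↥(TaF L (t4eLev N'' q i)))).valuation
              ((q : ℕ) : ↥(TaF L (N'' * q))) < 1 := by
            rw [hv]
            exact t4ero_O10_valuation_q hqO
          rw [t4l_valuation_comap_lt_one, map_natCast] at h1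
          exact h1
        rw [honly V hV' hVq, hVγ]
        exact hbinf

/-- **a point of level `N'' q` which lies on `C¹_inf` only lies over no point under a node** (two
points over the same point of level `N''` with the common branch `O¹_inf` coincide) -/
theorem t4ero_not_under_node {x' : ↥(TaF L N'')} {P0 : T4Pres ↥(TaF L N'')}
    {P1 : T4Pres ↥(TaF L (N'' * q))} (T' : T4rmLow O π hπ x' P0 P1)
    (𝔫1 : Ideal P1.B) [h𝔫1 : 𝔫1.IsMaximal]
    (h1inf : taOv O π hπ (N'' * q) ∈ P1.through 𝔫1)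
    (h10n : t4rtO10 O π hπ W1 ∉ P1.through 𝔫1) :
    ¬ ∃ 𝔫1' : Ideal P1.B, 𝔫1'.IsMaximal ∧ taOv O π hπ (N'' * q) ∈ P1.through 𝔫1' ∧
      t4rtO10 O π hπ W1 ∈ P1.through 𝔫1' ∧
      (@T4PresOver.under _ _ _ _ (t2iAlgebra L N'' q) _ _ T'.overA' 𝔫1') =
        (@T4PresOver.under _ _ _ _ (t2iAlgebra L N'' q) _ _ T'.overA' 𝔫1) := by
  letI := t2iAlgebra L N'' q
  rintro ⟨𝔫1', h𝔫1', hi1, h01, hov⟩
  haveI := h𝔫1'
  have heq : 𝔫1' = 𝔫1 :=
    T'.overA'.eq_of_branch hov hi1 h1inf one_ne_zero (fun y hy => by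
      obtain ⟨a, ha, hlt⟩ := T'.apx y hy
      exact ⟨a, ha, by rw [pow_one]; exact hlt⟩)
  rw [heq] at h01
  exact h10n h01

/-- the two ways of going down from level `i` to level `N''` agree on points -/
theorem t4ero_under_under
    {P0 : T4Pres ↥(TaF L N'')} {P1 : T4Pres ↥(TaF L (N'' * q))}
    {P : T4Pres ↥(TaF L (t4eLev N'' q i))} {n : ℕ}
    (hov : @T4PresOver _ _ _ _ (t2iAlgebra L N'' q) P0 P1)
    (A : Algebra ↥(TaF L N'') ↥(TaF L (t4eLev N'' q i)))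
    (hA : ∀ f, @algebraMap _ _ _ _ A f = t4eDeg L N'' q i n f)
    (hlo : @T4PresOver _ _ _ _ A P0 P)
    (A1 : Algebra ↥(TaF L (N'' * q)) ↥(TaF L (t4eLev N'' q i)))
    (hA1 : ∀ f : ↥(TaF L N''), @algebraMap _ _ _ _ A1 (heckeAlphaBar L N'' q f) =
      t4eDeg L N'' q i n f)
    (hγ : @T4PresOver _ _ _ _ A1 P1 P) (𝔫 : Ideal P.B) :
    (@T4PresOver.under _ _ _ _ (t2iAlgebra L N'' q) _ _ hov
      (@T4PresOver.under _ _ _ _ A1 _ _ hγ 𝔫)) = @T4PresOver.under _ _ _ _ A _ _ hlo 𝔫 := by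
  letI := A
  letI := A1
  letI := t2iAlgebra L N'' q
  ext b
  rw [T4PresOver.mem_under, T4PresOver.mem_under, T4PresOver.mem_under]
  have h1 : hγ.incl (hov.incl b) = hlo.incl b := by
    apply Subtype.ext
    rw [T4PresOver.coe_incl, T4PresOver.coe_incl, T4PresOver.coe_incl, hA]
    exact hA1 _
  rw [h1]

include hqO in
/-- **(R-ord), `μ > 1`, assembled**: regularity of the chart `P` (level `i`) at a closed point `𝔫`
through which `V w` is the only vertical valuation ring (`c = min w (i - w) ≥ 1`), from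
* (UNIT-ρ) on the layer;
* the charts `P0` (level `N''`), `P1` (level `N'' q`) with `T4rmLow`, REG1-G and REG1-M;
* `P` over `P0` along `a_{w-c}`, `a_{w+c} B₀ ⊆ B`;
* `P` over `P1` along an embedding `γ : F_1 → F_i` with `γ ∘ α = a_{w-c}` and `V w ∩ F_1 = O¹_inf`
  (e.g. `γ (a_0 f) = a_{w-c} f`, `γ (a_1 f) = a_{w-c+1} f`) -/
theorem t4ero_regAt_of_over {w : ℕ} (hρ : Y.RhoUnit w) (hw : w ≤ i) (hc : 1 ≤ min w (i - w))
    {x' : ↥(TaF L N'')} {x1 : ↥(TaF L (N'' * q))}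
    {P0 : T4Pres ↥(TaF L N'')} {P1 : T4Pres ↥(TaF L (N'' * q))}
    {P : T4Pres ↥(TaF L (t4eLev N'' q i))}
    (T' : T4rmLow O π hπ x' P0 P1) (vals1 : P1.vals = t4vpHor L x1 ∪ t4rtVer1 O π hπ W1)
    (hG : T4rtRegG O π hπ W1 P1) (hM : T4rmRegM O π hπ W1 P0 P1 T'.overA')
    (A : Algebra ↥(TaF L N'') ↥(TaF L (t4eLev N'' q i)))
    (hA : ∀ f, @algebraMap _ _ _ _ A f = t4eDeg L N'' q i (w - min w (i - w)) f)
    (hlo : @T4PresOver _ _ _ _ A P0 P)
    (hhi : ∀ b ∈ P0.B, t4eDeg L N'' q i (w + min w (i - w)) b ∈ P.B)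
    (A1 : Algebra ↥(TaF L (N'' * q)) ↥(TaF L (t4eLev N'' q i)))
    (hA1 : ∀ f : ↥(TaF L N''), @algebraMap _ _ _ _ A1 (heckeAlphaBar L N'' q f) =
      t4eDeg L N'' q i (w - min w (i - w)) f)
    (hγ : @T4PresOver _ _ _ _ A1 P1 P)
    (hcomap : ∀ V ∈ P.vals, V.comap (@algebraMap _ _ _ _ A1) ∈ P1.vals)
    (hVγ : (Y.V w).comap (@algebraMap _ _ _ _ A1) = taOv O π hπ (N'' * q))
    (hqB : ((q : ℕ) : ↥(TaF L (t4eLev N'' q i))) ∈ P.B)
    (𝔫 : Ideal P.B) [h𝔫 : 𝔫.IsMaximal] (hV : Y.V w ∈ P.through 𝔫)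
    (honly : ∀ V ∈ P.through 𝔫, V ∈ P.vert ((q : ℕ) : ↥(TaF L (t4eLev N'' q i))) → V = Y.V w)
    (hsm : P.SmoothAt 𝔫 _ hV) : P.RegAt 𝔫 := by
  have hP0 : taOv O π hπ N'' ∈ P0.vals := by
    rw [T'.vals']
    exact Or.inr rfl
  obtain ⟨h1inf, h10n⟩ := t4ero_O10_not_through hqO A1 hγ hcomap hVγ vals1 hG 𝔫 hV honly
  haveI h𝔫1 : (@T4PresOver.under _ _ _ _ A1 _ _ hγ 𝔫).IsMaximal :=
    @T4PresOver.under_isMaximal _ _ _ _ A1 _ _ hγ 𝔫 _
  have hng := t4ero_not_under_node T' _ h1inf h10n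
  have hunder := t4ero_under_under T'.overA' A hA hlo A1 hA1 hγ 𝔫
  rw [hunder] at hng
  letI := A
  haveI h𝔫0 : (hlo.under 𝔫).IsMaximal := hlo.under_isMaximal 𝔫
  -- `q` lies in the point under `𝔫`
  have hq' : ((q : ℕ) : ↥P0.B) ∈ hlo.under 𝔫 := by
    rw [T4PresOver.mem_under, map_natCast]
    refine hV.2 _ ?_
    rw [Subring.coe_natCast]
    exact Y.valuation_q_lt hw
  obtain ⟨f, e, e', hf, he, he', hee', hfe⟩ := hM _ h𝔫0 hq' hng
  exact t4ero_regAt hρ hw hc A hA hlo hhi hP0 hqB 𝔫 hV honly hf he he' hee' hfe hsm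

end Node

end Fermat.Agent.T4
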