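/-
T4E, package P7b (helper8): **regularity at the cuspidal points of a middle component `V w`**
(`c = min w (i - w) ≥ 1`, `μ = φ(q^c)`) of the vertical layer `Y : T4eLayer O π hπ N'' q i`, on any
chart presentation `P` whose valuation rings are horizontal (contain `L`) or among the `Y.V w'`
(generalises helper1's `t4rc_regAt_cusp`, `Lib/T4/Reg/CuspInst.lean`, which is `(i, w) = (2, 1)`).

`J n = a_n j`, `u_n = 1 / J n`; the point `𝔫` is cuspidal: `u_0` is a non-unit of `R = B_𝔫`, and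
`V w` is the only vertical valuation ring through `𝔫`.

* `t4erc_modular_relation` : `Φ_q(J n; J (n+1)) = 0` in `F_i`;
* `T4eLayer.rho_J`, `T4eLayer.rho_Jinv` : `ρ_w (J n) = j̄(𝔮^{q^x})`, `ρ_w (u_n) = (1/j̄)(𝔮^{q^x})`,
  `x = t4eExp i w n`; `t4erc_T_lt`, `t4erc_T'_lt` : `T_n = J (n+1) u_n^q ≡ 1` on `V w` for `n < w`,
  `T'_n = J n u_{n+1}^q ≡ 1` on `V w` for `w ≤ n < i`;
* `t4erc_exists_PQ` : a series of order `0` in `k(j̄)` is `P̄(ū) / Q̄(ū)`, `ū = 1 / j̄`,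
  `P̄(0), Q̄(0) ≠ 0`; `t4ercGs k q c = -((θ j̄) / j̄) ^ φ(q^c)` lies in `k(j̄)` as soon as helper1's
  `t4rcGs k q` does;
* **`t4erc_regAt_cusp`** : `P.RegAt 𝔫`, with local equation `a = J (w+c) / J (w-c) - 1`,
  `a ^ μ = q ε`, `ε` a unit of `B_𝔫` with `ρ_w ε = -((θ j̄)/j̄)^μ (𝔮^{q^x})`.  Inputs: (UNIT-ρ) on
  the layer, the characteristic-zero integrality of `T_n` over `L[u_n]` (`n < w`) and of `T'_n` over
  `L[u_{n+1}]` (`w ≤ n < i`) [T2's cusp package `t2cp_isIntegral_Y_div` + transport along the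
  degeneracy maps], and `t4rcGs k q ∈ k(j̄)` (`t4rcG_mem` / `t4rcGs_mem_fix`).
-/
import Fermat.Agent.Lib.T4E.Reg.Ord
import Fermat.Agent.Lib.T4E.Reg.CuspAbs
import Fermat.Agent.Lib.T4.Reg.CuspSeries
import Fermat.Agent.Lib.T4.Reg.CuspMod0
import Fermat.Agent.Lib.T4.Reg.CuspGen

set_option autoImplicit false
set_option linter.unusedSectionVars false
set_option linter.unusedVariables false
set_option linter.style.haveILetI false
set_option synthInstance.maxHeartbeats 400000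

open HahnSeries ModularCurve Fermat.Agent.T1 Fermat.Agent.T2

noncomputable section

namespace Fermat.Agent.T4

/-! ### The modular relation in the tower -/

section Mod

/-- `Φ_q(j(𝔮^{q^n}); j(𝔮^{q^(n+1)})) = 0` in `K((𝔮))` -/
theorem t4erc_modPhi_series (K : Type*) [CommRing K] (q : ℕ) [NeZero q] (hq : q.Prime) (n : ℕ) :
    (Igusa.modPhi q hq).eval₂
      (Polynomial.eval₂RingHom (Int.castRingHom (LaurentSeries K))
        (qExpand K (q ^ (n + 1)) (jqModC K)))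
      (qExpand K (q ^ n) (jqModC K)) = 0 := by
  have h := t4rc_modPhi_series0 K q hq
  have h2 := congrArg (qExpand K (q ^ n)) h
  rw [map_zero, Polynomial.hom_eval₂] at h2
  have hcomp : (qExpand K (q ^ n) : LaurentSeries K →+* LaurentSeries K).comp
      (Polynomial.eval₂RingHom (Int.castRingHom (LaurentSeries K)) (qExpand K q (jqModC K))) =
      Polynomial.eval₂RingHom (Int.castRingHom (LaurentSeries K))
        (qExpand K (q ^ (n + 1)) (jqModC K)) := by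
    apply Polynomial.ringHom_ext
    · intro a
      have h1 : (Polynomial.C a : Polynomial ℤ) = ((a : ℤ) : Polynomial ℤ) := by
        rw [eq_intCast]
      rw [h1, map_intCast, map_intCast]
    · simp only [RingHom.comp_apply, Polynomial.coe_eval₂RingHom, Polynomial.eval₂_X]
      rw [qExpand_qExpand]
      exact qExpand_congr (pow_succ q n).symm _
  rw [hcomp] at h2
  exact h2

/-- **the modular equation `Φ_q(a_n j; a_{n+1} j) = 0`** in `F_i` -/
theorem t4erc_modular_relation (L : Type*) [Field L] [Algebra ℚ L] (N'' q : ℕ) [NeZero N'']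
    [NeZero q] (hq : q.Prime) {i n : ℕ} (hn : n < i) :
    (Igusa.modPhi q hq).eval₂
      (Polynomial.eval₂RingHom (Int.castRingHom ↥(TaF L (t4eLev N'' q i)))
        (t4eDeg L N'' q i (n + 1) (taJ N'')))
      (t4eDeg L N'' q i n (taJ N'')) = 0 := by
  apply Subtype.ext
  have h := Polynomial.hom_eval₂ (Igusa.modPhi q hq)
    (Polynomial.eval₂RingHom (Int.castRingHom ↥(TaF L (t4eLev N'' q i)))
      (t4eDeg L N'' q i (n + 1) (taJ N'')))
    ((TaF L (t4eLev N'' q i)).val : ↥(TaF L (t4eLev N'' q i)) →+* LaurentSeries L)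
    (t4eDeg L N'' q i n (taJ N''))
  have hcomp : ((TaF L (t4eLev N'' q i)).val : ↥(TaF L (t4eLev N'' q i)) →+* LaurentSeries L).comp
      (Polynomial.eval₂RingHom (Int.castRingHom ↥(TaF L (t4eLev N'' q i)))
        (t4eDeg L N'' q i (n + 1) (taJ N''))) =
      Polynomial.eval₂RingHom (Int.castRingHom (LaurentSeries L))
        (qExpand L (q ^ (n + 1)) (jqModC L)) := by
    apply Polynomial.ringHom_ext
    · intro a
      have h1 : (Polynomial.C a : Polynomial ℤ) = ((a : ℤ) : Polynomial ℤ) := by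
        rw [eq_intCast]
      rw [h1, map_intCast, map_intCast]
    · simp only [RingHom.comp_apply, Polynomial.coe_eval₂RingHom, Polynomial.eval₂_X]
      show ((t4eDeg L N'' q i (n + 1) (taJ N'') : ↥(TaF L (t4eLev N'' q i))) : LaurentSeries L) = _
      rw [coe_t4eDeg L N'' q i (n + 1) (by omega), coe_taJ]
  rw [hcomp] at h
  have h1 : (((TaF L (t4eLev N'' q i)).val : ↥(TaF L (t4eLev N'' q i)) →+* LaurentSeries L)
      (t4eDeg L N'' q i n (taJ N''))) = qExpand L (q ^ n) (jqModC L) := by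
    show ((t4eDeg L N'' q i n (taJ N'') : ↥(TaF L (t4eLev N'' q i))) : LaurentSeries L) = _
    rw [coe_t4eDeg L N'' q i n (by omega), coe_taJ]
  rw [h1, t4erc_modPhi_series L q hq n] at h
  exact h

end Mod

/-! ### Residues of `J n`, `u_n`, `T_n`, `T'_n` on the component `w` -/

section Res

variable {L : Type} [Field L] [Algebra ℚ L] {O : ValuationSubring L} {k : Type*} [Field k]
  {π : ↥O →+* k} [IsDiscreteValuationRing ↥O] {hπ : Function.Surjective π}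
  {N'' q : ℕ} [NeZero N''] [hq : Fact q.Prime] {i : ℕ} (Y : T4eLayer O π hπ N'' q i)

/-- `a_n j ≠ 0` -/
theorem t4erc_J_ne_zero (n : ℕ) : t4eDeg L N'' q i n (taJ N'') ≠ 0 := by
  refine (map_ne_zero _).mpr fun h => ?_
  have h1 := congrArg (fun x : ↥(TaF L N'') => (x : LaurentSeries L)) h
  simp only [coe_taJ, ZeroMemClass.coe_zero] at h1
  exact jqModC_ne_zero_of_nontrivial L h1

/-- `ρ_w (a_n j) = j̄(𝔮^{q^x})`, `x = t4eExp i w n` -/
theorem T4eLayer.rho_J {w n : ℕ} (hw : w ≤ i) (hn : n ≤ i) :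
    ∃ h : t4eDeg L N'' q i n (taJ N'') ∈ Y.V w,
      Y.ρ w ⟨_, h⟩ = qExpand k (q ^ t4eExp i w n) (jqModC k) := by
  refine ⟨Y.a_mem w hw n hn _ (taJ_mem_taOv O π hπ N''), ?_⟩
  rw [Y.ρ_a w hw n hn _ (taJ_mem_taOv O π hπ N''), taResN_taJ]

/-- `ρ_w (1 / a_n j) = (1 / j̄)(𝔮^{q^x})`, `x = t4eExp i w n` -/
theorem T4eLayer.rho_Jinv {w n : ℕ} (hw : w ≤ i) (hn : n ≤ i) :
    ∃ h : (t4eDeg L N'' q i n (taJ N''))⁻¹ ∈ Y.V w,
      Y.ρ w ⟨_, h⟩ = qExpand k (q ^ t4eExp i w n) (jqModC k)⁻¹ := by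
  have h1 := Y.a_mem w hw n hn _ (taJ_inv_mem_taOv O π hπ N'')
  have h2 := Y.ρ_a w hw n hn _ (taJ_inv_mem_taOv O π hπ N'')
  rw [taResN_taJ_inv] at h2
  have e : t4eDeg L N'' q i n (taJ N'')⁻¹ = (t4eDeg L N'' q i n (taJ N''))⁻¹ := map_inv₀ _ _
  refine ⟨e ▸ h1, ?_⟩
  rw [← h2]
  congr 1
  exact Subtype.ext e.symm

variable [CharP k q]

/-- `j̄(𝔮^{q^(x+1)}) = j̄(𝔮^{q^x}) ^ q` in characteristic `q` -/
theorem t4erc_qExpand_j_succ (x : ℕ) :
    qExpand k (q ^ (x + 1)) (jqModC k) = (qExpand k (q ^ x) (jqModC k)) ^ q := by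
  rw [← map_pow, t2i_jq_pow k q, qExpand_qExpand]
  exact qExpand_congr (pow_succ q x) _

/-- the exponents of the residue table increase by one on the Frobenius side -/
theorem t4erc_exp_succ {w n : ℕ} (hn : n < w) : t4eExp i w (n + 1) = t4eExp i w n + 1 := by
  unfold t4eExp
  (split_ifs; all_goals omega)

/-- the exponents of the residue table decrease by one on the Verschiebung side -/
theorem t4erc_exp_pred {w n : ℕ} (hw : w ≤ n) (hn : n < i) :
    t4eExp i w n = t4eExp i w (n + 1) + 1 := by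
  unfold t4eExp
  (split_ifs; all_goals omega)

/-- **`T_n = a_{n+1} j · u_n ^ q ≡ 1` on `V w`** for `n < w` -/
theorem t4erc_T_lt {w n : ℕ} (hw : w ≤ i) (hn : n < w) :
    t4eDeg L N'' q i (n + 1) (taJ N'') * (t4eDeg L N'' q i n (taJ N''))⁻¹ ^ q ∈ Y.V w ∧
      (Y.V w).valuation (t4eDeg L N'' q i (n + 1) (taJ N'') *
        (t4eDeg L N'' q i n (taJ N''))⁻¹ ^ q - 1) < 1 := by
  obtain ⟨h1, r1⟩ := Y.rho_J hw (show n + 1 ≤ i by omega)
  obtain ⟨h2, r2⟩ := Y.rho_Jinv hw (show n ≤ i by omega)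
  have hmem := (Y.V w).mul_mem _ _ h1 (pow_mem h2 q)
  refine ⟨hmem, ?_⟩
  have hsub : t4eDeg L N'' q i (n + 1) (taJ N'') * (t4eDeg L N'' q i n (taJ N''))⁻¹ ^ q - 1 ∈
      Y.V w := sub_mem hmem (Y.V w).one_mem
  rw [← Y.ρ_eq_zero w hw ⟨_, hsub⟩]
  have e : (⟨_, hsub⟩ : ↥(Y.V w)) = ⟨_, h1⟩ * ⟨_, h2⟩ ^ q - 1 := rfl
  rw [e, map_sub, map_mul, map_pow, map_one, r1, r2, t4erc_exp_succ hn, t4erc_qExpand_j_succ,
    map_inv₀, ← mul_pow, mul_inv_cancel₀, one_pow, sub_self]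
  exact fun h0 => jqModC_ne_zero_of_nontrivial k
    ((map_eq_zero_iff _ (qExpand_injective (R := k) (N := q ^ t4eExp i w n))).mp h0)

/-- **`T'_n = a_n j · u_{n+1} ^ q ≡ 1` on `V w`** for `w ≤ n < i` -/
theorem t4erc_T'_lt {w n : ℕ} (hw : w ≤ i) (hwn : w ≤ n) (hn : n < i) :
    t4eDeg L N'' q i n (taJ N'') * (t4eDeg L N'' q i (n + 1) (taJ N''))⁻¹ ^ q ∈ Y.V w ∧
      (Y.V w).valuation (t4eDeg L N'' q i n (taJ N'') *
        (t4eDeg L N'' q i (n + 1) (taJ N''))⁻¹ ^ q - 1) < 1 := by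
  obtain ⟨h1, r1⟩ := Y.rho_J hw (show n ≤ i by omega)
  obtain ⟨h2, r2⟩ := Y.rho_Jinv hw (show n + 1 ≤ i by omega)
  have hmem := (Y.V w).mul_mem _ _ h1 (pow_mem h2 q)
  refine ⟨hmem, ?_⟩
  have hsub : t4eDeg L N'' q i n (taJ N'') * (t4eDeg L N'' q i (n + 1) (taJ N''))⁻¹ ^ q - 1 ∈
      Y.V w := sub_mem hmem (Y.V w).one_mem
  rw [← Y.ρ_eq_zero w hw ⟨_, hsub⟩]
  have e : (⟨_, hsub⟩ : ↥(Y.V w)) = ⟨_, h1⟩ * ⟨_, h2⟩ ^ q - 1 := rfl
  rw [e, map_sub, map_mul, map_pow, map_one, r1, r2, t4erc_exp_pred hwn hn, t4erc_qExpand_j_succ,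
    map_inv₀, ← mul_pow, mul_inv_cancel₀, one_pow, sub_self]
  exact fun h0 => jqModC_ne_zero_of_nontrivial k
    ((map_eq_zero_iff _ (qExpand_injective (R := k) (N := q ^ t4eExp i w (n + 1)))).mp h0)

end Res

/-! ### The series `-((θ j̄) / j̄) ^ φ(q^c)` -/

section Series

variable {k : Type*} [Field k]

/-- **a series of order `0` in `k(j̄)` is `P̄(ū) / Q̄(ū)` with `P̄(0), Q̄(0) ≠ 0`**, `ū = 1 / j̄` -/
theorem t4erc_exists_PQ {g : LaurentSeries k} (hg0 : g ≠ 0) (hord : g.order = 0)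
    (hg : g ∈ IntermediateField.adjoin k {jqModC k}) :
    ∃ Pb Qb : Polynomial k, Pb.coeff 0 ≠ 0 ∧ Qb.coeff 0 ≠ 0 ∧
      Polynomial.aeval (jqModC k)⁻¹ Qb * g = Polynomial.aeval (jqModC k)⁻¹ Pb := by
  obtain ⟨w, hw⟩ := Igusa.jqModC_mul_single_ofPowerSeries_inv k
  obtain ⟨gp, hgp, hgp0⟩ := t4rc_exists_powerSeries hg0 hord
  refine t4rc_exists_rational (PowerSeries.X * w) gp ?_ ?_ hgp hgp0 hg
  · rw [map_mul, HahnSeries.ofPowerSeries_X, mul_comm]
    exact hw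
  · rw [map_mul, PowerSeries.constantCoeff_X, zero_mul]

/-- the series `-((θ j̄) / j̄) ^ φ(q^c)` -/
def t4ercGs (k : Type*) [Field k] (q c : ℕ) : LaurentSeries k :=
  -(t4vTheta (jqModC k) * (jqModC k)⁻¹) ^ Nat.totient (q ^ c)

theorem t4ercGs_ne_zero (q c : ℕ) : t4ercGs k q c ≠ 0 := by
  rw [t4ercGs, neg_ne_zero]
  exact pow_ne_zero _ (mul_ne_zero t4rc_theta_j_ne_zero
    (inv_ne_zero (jqModC_ne_zero_of_nontrivial k)))

theorem t4ercGs_order (q c : ℕ) : (t4ercGs k q c).order = 0 := by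
  have h1 : (t4vTheta (jqModC k) * (jqModC k)⁻¹).order = 0 := by
    rw [HahnSeries.order_mul t4rc_theta_j_ne_zero
      (inv_ne_zero (jqModC_ne_zero_of_nontrivial k)), t4rc_theta_j_order, t4rc_jinv_order]
    norm_num
  rw [t4ercGs, HahnSeries.order_neg, HahnSeries.order_pow, h1, smul_zero]

/-- `-((θ j̄)/j̄)^φ(q^c) ∈ k(j̄)` as soon as `-((-θ j̄)/j̄)^(q-1) ∈ k(j̄)` -/
theorem t4ercGs_mem (q : ℕ) [hq : Fact q.Prime] [CharP k q] {c : ℕ} (hc : 1 ≤ c)
    (hG : t4rcGs k q ∈ IntermediateField.adjoin k {jqModC k}) :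
    t4ercGs k q c ∈ IntermediateField.adjoin k {jqModC k} := by
  have h3 : (-1 : LaurentSeries k) ^ (q - 1) = 1 := by
    rw [← map_one (HahnSeries.C : k →+* LaurentSeries k), ← map_neg, ← map_pow,
      t4rm_neg_one_pow k q]
  have h1 : (t4vTheta (jqModC k) * (jqModC k)⁻¹) ^ (q - 1) = -t4rcGs k q := by
    rw [t4rcGs, neg_neg, neg_mul, neg_pow, h3, one_mul]
  have h2 : t4ercGs k q c = -(-t4rcGs k q) ^ (q ^ (c - 1)) := by
    rw [t4ercGs, Nat.totient_prime_pow hq.out (by omega), Nat.mul_comm, pow_mul, h1]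
  rw [h2]
  exact neg_mem (pow_mem (neg_mem hG) _)

end Series

/-! ### Regularity at the cuspidal points of a middle component -/

section Main

variable {L : Type} [Field L] [Algebra ℚ L] {O : ValuationSubring L} {k : Type*} [Field k]
  {π : ↥O →+* k} [IsDiscreteValuationRing ↥O] {hπ : Function.Surjective π}
  {N'' q : ℕ} [NeZero N''] [hq : Fact q.Prime] [CharP k q] {i : ℕ}
  {Y : T4eLayer O π hπ N'' q i}

/-- `ρ_w (ε)`, `ε = (J (w+c) / J (w-c) - 1) ^ μ / q`, on the component `w` -/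
theorem t4erc_rho_eps {w : ℕ} (hρ : Y.RhoUnit w) (hw : w ≤ i) :
    ∃ h : (t4eDeg L N'' q i (w + min w (i - w)) (taJ N'') *
        (t4eDeg L N'' q i (w - min w (i - w)) (taJ N''))⁻¹ - 1) ^ t4eMult q i w /
        ((q : ℕ) : ↥(TaF L (t4eLev N'' q i))) ∈ Y.V w,
      Y.ρ w ⟨_, h⟩ = qExpand k (q ^ t4eExp i w (w - min w (i - w)))
        (t4ercGs k q (min w (i - w))) := by
  obtain ⟨h1, r1⟩ := hρ (taJ N'') (taJ_mem_taOv O π hπ N'')
  obtain ⟨h2, r2⟩ := Y.rho_Jinv hw (show w - min w (i - w) ≤ i by omega)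
  rw [taResN_taJ] at r1
  have hJ := t4erc_J_ne_zero (L := L) (N'' := N'') (q := q) (i := i) (w - min w (i - w))
  have e : (t4eDeg L N'' q i (w + min w (i - w)) (taJ N'') *
      (t4eDeg L N'' q i (w - min w (i - w)) (taJ N''))⁻¹ - 1) ^ t4eMult q i w /
      ((q : ℕ) : ↥(TaF L (t4eLev N'' q i))) =
      (t4eDeg L N'' q i (w + min w (i - w)) (taJ N'') -
        t4eDeg L N'' q i (w - min w (i - w)) (taJ N'')) ^ t4eMult q i w /
        ((q : ℕ) : ↥(TaF L (t4eLev N'' q i))) *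
        ((t4eDeg L N'' q i (w - min w (i - w)) (taJ N''))⁻¹) ^ t4eMult q i w := by
    have e1 : t4eDeg L N'' q i (w + min w (i - w)) (taJ N'') *
        (t4eDeg L N'' q i (w - min w (i - w)) (taJ N''))⁻¹ - 1 =
        (t4eDeg L N'' q i (w + min w (i - w)) (taJ N'') -
          t4eDeg L N'' q i (w - min w (i - w)) (taJ N'')) *
          (t4eDeg L N'' q i (w - min w (i - w)) (taJ N''))⁻¹ := by
      rw [sub_mul, mul_inv_cancel₀ hJ]
    rw [e1, mul_pow]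
    ring
  have hmem := (Y.V w).mul_mem _ _ h1 (pow_mem h2 (t4eMult q i w))
  refine ⟨e ▸ hmem, ?_⟩
  have e' : (⟨_, e ▸ hmem⟩ : ↥(Y.V w)) = ⟨_, h1⟩ * ⟨_, h2⟩ ^ t4eMult q i w :=
    Subtype.ext e
  rw [e', map_mul, map_pow, r1, r2, t4ercGs, map_neg, map_pow, map_mul, neg_mul, ← mul_pow]
  rfl

/-- **regularity at the cuspidal points of the middle component `w`** (`c = min w (i - w) ≥ 1`) -/
theorem t4erc_regAt_cusp {w : ℕ} (hρ : Y.RhoUnit w) (hw : w ≤ i) (hc : 1 ≤ min w (i - w))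
    (P : T4Pres ↥(TaF L (t4eLev N'' q i)))
    (hvals : ∀ V ∈ P.vals, (∀ c : L, algebraMap L ↥(TaF L (t4eLev N'' q i)) c ∈ V) ∨
      ∃ w' ≤ i, V = Y.V w')
    (𝔫 : Ideal P.B) [h𝔫 : 𝔫.IsPrime] (hV : Y.V w ∈ P.through 𝔫)
    (honly : ∀ V ∈ P.through 𝔫, V ∈ P.vert ((q : ℕ) : ↥(TaF L (t4eLev N'' q i))) → V = Y.V w)
    (hsm : P.SmoothAt 𝔫 _ hV)
    (hu0 : (t4eDeg L N'' q i 0 (taJ N''))⁻¹ ∈ P.loc 𝔫)
    (hu0nu : ¬ IsUnit (⟨_, hu0⟩ : ↥(P.loc 𝔫)))
    (hT : ∀ n, n < w → IsIntegral ↥(Algebra.adjoin L {(t4eDeg L N'' q i n (taJ N''))⁻¹})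
      (t4eDeg L N'' q i (n + 1) (taJ N'') * (t4eDeg L N'' q i n (taJ N''))⁻¹ ^ q))
    (hT' : ∀ n, w ≤ n → n < i →
      IsIntegral ↥(Algebra.adjoin L {(t4eDeg L N'' q i (n + 1) (taJ N''))⁻¹})
        (t4eDeg L N'' q i n (taJ N'') * (t4eDeg L N'' q i (n + 1) (taJ N''))⁻¹ ^ q))
    (hG : t4rcGs k q ∈ IntermediateField.adjoin k {jqModC k}) : P.RegAt 𝔫 := by
  classical
  letI := P.isLocalRing_loc 𝔫
  have hJ0 : ∀ n, t4eDeg L N'' q i n (taJ N'') ≠ 0 := fun n => t4erc_J_ne_zero n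
  -- the valuation rings through `𝔫`
  have hcases : ∀ V ∈ P.through 𝔫, V = Y.V w ∨
      ∀ c : L, algebraMap L ↥(TaF L (t4eLev N'' q i)) c ∈ V := by
    intro V hV'
    rcases hvals V hV'.1 with h | ⟨w', hw', rfl⟩
    · exact Or.inr h
    · exact Or.inl (honly _ hV' ⟨hV'.1, Y.valuation_q_lt hw'⟩)
  -- the chain of non-units `u_n`
  have hchain := t4erc_chain (P.loc 𝔫) (fun x hx => P.loc_integrallyClosed 𝔫 hx)
    (Int.castRingHom ↥(TaF L (t4eLev N'' q i))) (fun c => by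
      rw [eq_intCast]
      exact intCast_mem _ c) (Igusa.modPhi q hq.out) (Igusa.modPhi_monic q hq.out)
    (fun n => t4eDeg L N'' q i n (taJ N'')) i (fun n _ => hJ0 n)
    (fun n hn => t4erc_modular_relation L N'' q hq.out hn) hu0 hu0nu
  -- `T_n`, `T'_n ∈ R`
  have hTloc : ∀ n, n < w → t4eDeg L N'' q i (n + 1) (taJ N'') *
      (t4eDeg L N'' q i n (taJ N''))⁻¹ ^ q ∈ P.loc 𝔫 := by
    intro n hn V hV'
    rcases hcases V hV' with rfl | hL
    · exact (t4erc_T_lt Y hw hn).1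
    · obtain ⟨hun, -⟩ := hchain n (by omega)
      exact t4rc_mem_of_isIntegral V hL (hun V hV') (hT n hn)
  have hT'loc : ∀ n, w ≤ n → n < i → t4eDeg L N'' q i n (taJ N'') *
      (t4eDeg L N'' q i (n + 1) (taJ N''))⁻¹ ^ q ∈ P.loc 𝔫 := by
    intro n hwn hn V hV'
    rcases hcases V hV' with rfl | hL
    · exact (t4erc_T'_lt Y hw hwn hn).1
    · obtain ⟨hun, -⟩ := hchain (n + 1) (by omega)
      exact t4rc_mem_of_isIntegral V hL (hun V hV') (hT' n hwn hn)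
  -- the ratio `G`
  obtain ⟨hGm, hGi⟩ := P.t4erc_ratio 𝔫 hV (fun n => t4eDeg L N'' q i n (taJ N'')) hq.out.pos
    (w := w) (c := min w (i - w)) (min_le_left _ _) (fun n _ _ => hJ0 n)
    (fun n _ h2 => ⟨hTloc n h2, (t4erc_T_lt Y hw h2).2⟩)
    (fun n h1 h2 => ⟨hT'loc n h1 (by omega), (t4erc_T'_lt Y hw h1 (by omega)).2⟩)
  -- `a = G - 1 ∈ R`
  have ha : t4eDeg L N'' q i (w + min w (i - w)) (taJ N'') *
      (t4eDeg L N'' q i (w - min w (i - w)) (taJ N''))⁻¹ - 1 ∈ P.loc 𝔫 :=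
    sub_mem hGm (one_mem _)
  -- `ε ∈ R`
  obtain ⟨hεw, rε⟩ := t4erc_rho_eps hρ hw
  have hqL : ((q : ℕ) : ↥(TaF L (t4eLev N'' q i)))⁻¹ =
      algebraMap L ↥(TaF L (t4eLev N'' q i)) (((q : ℕ) : L)⁻¹) := by
    rw [map_inv₀, map_natCast]
  have hε : (t4eDeg L N'' q i (w + min w (i - w)) (taJ N'') *
      (t4eDeg L N'' q i (w - min w (i - w)) (taJ N''))⁻¹ - 1) ^ t4eMult q i w /
      ((q : ℕ) : ↥(TaF L (t4eLev N'' q i))) ∈ P.loc 𝔫 := by
    intro V hV'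
    rcases hcases V hV' with rfl | hL
    · exact hεw
    · rw [div_eq_mul_inv, hqL]
      exact V.mul_mem _ _ (pow_mem (ha V hV') _) (hL _)
  -- the constants of `O` in `R`
  have hconst : ∀ c : ↥O, algebraMap L ↥(TaF L (t4eLev N'' q i)) (c : L) ∈ P.loc 𝔫 := by
    intro c
    refine P.B_le_loc 𝔫 ((P.mem_iff _).mpr fun V hV' => ?_)
    rcases hvals V hV' with h | ⟨w', hw', rfl⟩
    · exact h _
    · exact Y.const_mem w' hw' c
  have hle : P.loc 𝔫 ≤ (Y.V w).toSubring := fun f hf => hf _ hV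
  let ρ' : ↥O →+* ↥(P.loc 𝔫) :=
    ((algebraMap L ↥(TaF L (t4eLev N'' q i))).comp O.subtype).codRestrict (P.loc 𝔫) hconst
  let res : ↥(P.loc 𝔫) →+* LaurentSeries k := (Y.ρ w).comp (Subring.inclusion hle)
  have hker : RingHom.ker π = IsLocalRing.maximalIdeal ↥O :=
    IsLocalRing.eq_maximalIdeal (RingHom.ker_isMaximal_of_surjective π hπ)
  have hunit : ∀ c : ↥O, π c ≠ 0 → IsUnit (ρ' c) := by
    intro c hc'
    have h1 : IsUnit c := by
      rw [← IsLocalRing.notMem_maximalIdeal, ← hker]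
      exact hc'
    exact h1.map ρ'
  have hres : ∀ f : ↥(P.loc 𝔫), res f = 0 → ¬ IsUnit f := by
    intro f hf
    refine P.not_isUnit_of_valuation_lt hV f ?_
    exact (Y.ρ_eq_zero w hw ⟨_, hle f.2⟩).mp hf
  have hC : ∀ t : k, algebraMap k (LaurentSeries k) t = HahnSeries.C t := by
    intro t
    have h3 : algebraMap k (PowerSeries k) t = PowerSeries.C t := by simp
    rw [HahnSeries.algebraMap_apply', h3, HahnSeries.ofPowerSeries_C]
  have hresρ : ∀ c : ↥O, res (ρ' c) = algebraMap k (LaurentSeries k) (π c) := by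
    intro c
    rw [hC]
    exact Y.ρ_const w hw c
  -- the non-unit `u = u_{w-c}` and its residue
  obtain ⟨hul, hunu⟩ := hchain (w - min w (i - w)) (by omega)
  obtain ⟨hu2, ru⟩ := Y.rho_Jinv hw (show w - min w (i - w) ≤ i by omega)
  have hresu : res ⟨_, hul⟩ = qExpand k (q ^ t4eExp i w (w - min w (i - w))) (jqModC k)⁻¹ := ru
  have hresε : res ⟨_, hε⟩ = qExpand k (q ^ t4eExp i w (w - min w (i - w)))
      (t4ercGs k q (min w (i - w))) := rε
  obtain ⟨Pb, Qb, hP0, hQ0, hPQ⟩ := t4erc_exists_PQ (t4ercGs_ne_zero (k := k) q (min w (i - w)))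
    (t4ercGs_order (k := k) q (min w (i - w))) (t4ercGs_mem q hc hG)
  have hεu : IsUnit (⟨_, hε⟩ : ↥(P.loc 𝔫)) := by
    refine t4rc_unit_of_rational ρ' π hπ hunit res hres hresρ hunu Pb Qb hP0 hQ0 ?_
    rw [hresu, hresε]
    have h1 := congrArg (qExpand k (q ^ t4eExp i w (w - min w (i - w)))) hPQ
    have hcomp : (qExpand k (q ^ t4eExp i w (w - min w (i - w))) :
        LaurentSeries k →+* LaurentSeries k).comp (algebraMap k (LaurentSeries k)) =
        algebraMap k (LaurentSeries k) := by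
      ext1 t
      rw [RingHom.comp_apply, hC, qExpand_C]
    rw [map_mul, Polynomial.aeval_def, Polynomial.aeval_def, Polynomial.hom_eval₂,
      Polynomial.hom_eval₂, hcomp] at h1
    exact h1
  obtain ⟨hε0, hεi⟩ := (t4rc_isUnit_iff (P.loc 𝔫) hε).mp hεu
  -- `q ∈ B`
  have hqB : ((q : ℕ) : ↥(TaF L (t4eLev N'' q i))) ∈ P.B := by
    refine (P.mem_iff _).mpr fun V hV' => ?_
    rcases hvals V hV' with h | ⟨w', hw', rfl⟩
    · have := h ((q : ℕ) : L)
      rwa [map_natCast] at this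
    · exact ((Y.V w').valuation_le_one_iff _).mp (Y.valuation_q_lt hw').le
  refine P.regAt_of_pow_eq_loc 𝔫 hqB hV (Y.valuation_q_lt hw)
    (t4ero_mult_ne_zero (q := q) (i := i) w) ?_ honly
    ha hε hεi hε0 ?_ hsm
  · intro x hx
    rw [Y.valuation_q hw]
    exact pow_le_pow_left₀ zero_le (Y.hunif hw x hx) _
  · rw [mul_div_cancel₀ _ t4ero_q_ne_zero]

end Main

end Fermat.Agent.T4
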