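/-
T4E, package P7b (helper8): **regularity at the cuspidal points of a middle component in the chart
`y = 1 / X_i`, `X_i = j^Q - j`** of level `i` (generalises helper1's `t4rc_regAt_cusp_chart`,
`Lib/T4/Reg/CuspChart.lean`).

* `t4erc_regAt_cusp_chart` : any presentation `P` with `P.vals = t4vpHor L y ∪ Y.ver`,
  `B = IntCl(L[y]) ∩ 𝒪_i`, `y = X_i⁻¹`; the point `𝔫` is cuspidal: `y ∈ 𝔫`.  The characteristic-zero
  inputs are the two LEVEL-ONE integrality statements `hT1`, `hT1'` (`Reg/CuspInt.lean`) and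
  `t4rcGs k q ∈ k(j̄)`;
* `t4erc_regAt_cusp_t4ecPres` : the same for helper2's `t4ecPres hqO Hy hcrt`.
-/
import Fermat.Agent.Lib.T4E.Reg.CuspTower
import Fermat.Agent.Lib.T4E.Reg.CuspInt
import Fermat.Agent.Lib.T4E.Chart.Coord

set_option autoImplicit false
set_option linter.unusedSectionVars false
set_option linter.unusedVariables false
set_option linter.style.haveILetI false
set_option synthInstance.maxHeartbeats 400000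

open HahnSeries ModularCurve Fermat.Agent.T1 Fermat.Agent.T2 IntermediateField

noncomputable section

namespace Fermat.Agent.T4

section Chart

variable {L : Type} [Field L] [Algebra ℚ L] {O : ValuationSubring L} {k : Type*} [Field k]
  {π : ↥O →+* k} [IsDiscreteValuationRing ↥O] {hπ : Function.Surjective π} [IsAlgClosed k]
  {N'' q : ℕ} [NeZero N''] [hq : Fact q.Prime] [CharP k q] {i : ℕ}
  {Y : T4eLayer O π hπ N'' q i} {Q : ℕ} (hQ : 2 ≤ Q)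

include hQ in
/-- **regularity at the cuspidal points of the middle component `w`**, chart `y = 1 / (j^Q - j)` -/
theorem t4erc_regAt_cusp_chart {w : ℕ} (hρ : Y.RhoUnit w) (hw : w ≤ i) (hc : 1 ≤ min w (i - w))
    (P : T4Pres ↥(TaF L (t4eLev N'' q i))) {y : ↥(TaF L (t4eLev N'' q i))}
    (hvals : P.vals = t4vpHor L y ∪ Y.ver)
    (hB : ∀ f : ↥(TaF L (t4eLev N'' q i)), f ∈ P.B ↔ f ∈ t2Int (K := L) y ∧ f ∈ Y.Ov)
    (hy : y = (t4ecX L N'' q i Q)⁻¹)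
    (𝔫 : Ideal P.B) [h𝔫 : 𝔫.IsPrime] (hV : Y.V w ∈ P.through 𝔫)
    (honly : ∀ V ∈ P.through 𝔫, V ∈ P.vert ((q : ℕ) : ↥(TaF L (t4eLev N'' q i))) → V = Y.V w)
    (hsm : P.SmoothAt 𝔫 _ hV)
    (hy𝔫 : ∀ hyB : y ∈ P.B, (⟨y, hyB⟩ : P.B) ∈ 𝔫)
    (hT1 : IsIntegral ↥(Algebra.adjoin L {(t4eDeg L N'' q 1 0 (taJ N''))⁻¹})
      (t4eDeg L N'' q 1 1 (taJ N'') * (t4eDeg L N'' q 1 0 (taJ N''))⁻¹ ^ q))
    (hT1' : IsIntegral ↥(Algebra.adjoin L {(t4eDeg L N'' q 1 1 (taJ N''))⁻¹})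
      (t4eDeg L N'' q 1 0 (taJ N'') * (t4eDeg L N'' q 1 1 (taJ N''))⁻¹ ^ q))
    (hG : t4rcGs k q ∈ IntermediateField.adjoin k {jqModC k}) : P.RegAt 𝔫 := by
  have hJ0 : t4eDeg L N'' q i 0 (taJ N'') ≠ 0 := t4erc_J_ne_zero 0
  have hX0 : t4eDeg L N'' q i 0 (taJ N'') ^ Q - t4eDeg L N'' q i 0 (taJ N'') ≠ 0 := by
    have h := t4ecX_ne_zero (L := L) (N'' := N'') (q := q) (i := i) hQ
    rwa [t4ecX, ← t4eDeg_zero_taJ] at h
  have hyX : y = (t4eDeg L N'' q i 0 (taJ N'') ^ Q - t4eDeg L N'' q i 0 (taJ N''))⁻¹ := by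
    rw [hy, t4ecX, ← t4eDeg_zero_taJ]
  have hyu : IsIntegral ↥(Algebra.adjoin L {y}) (t4eDeg L N'' q i 0 (taJ N''))⁻¹ := by
    rw [hyX]
    exact t4rc_isIntegral_jinv hQ hJ0 hX0
  have hyB : y ∈ P.B := by
    refine (hB _).mpr ⟨t2Int_self y, ?_⟩
    rw [hy]
    exact t4ecX_inv_mem_Ov Y hQ
  have huOv : (t4eDeg L N'' q i 0 (taJ N''))⁻¹ ∈ Y.Ov := fun w' hw' =>
    (Y.rho_Jinv hw' (Nat.zero_le i)).1
  have huB : (t4eDeg L N'' q i 0 (taJ N''))⁻¹ ∈ P.B := (hB _).mpr ⟨hyu, huOv⟩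
  have hul : (t4eDeg L N'' q i 0 (taJ N''))⁻¹ ∈ P.loc 𝔫 := P.B_le_loc 𝔫 huB
  -- `u^Q = y (1 - u^(Q-1)) ∈ 𝔫`
  have hu𝔫 : (⟨(t4eDeg L N'' q i 0 (taJ N''))⁻¹, huB⟩ : P.B) ∈ 𝔫 := by
    have h1 : (⟨(t4eDeg L N'' q i 0 (taJ N''))⁻¹, huB⟩ : P.B) ^ Q =
        ⟨y, hyB⟩ * (1 - ⟨(t4eDeg L N'' q i 0 (taJ N''))⁻¹, huB⟩ ^ (Q - 1)) := by
      apply Subtype.ext
      show (t4eDeg L N'' q i 0 (taJ N''))⁻¹ ^ Q =
        y * (1 - (t4eDeg L N'' q i 0 (taJ N''))⁻¹ ^ (Q - 1))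
      rw [hyX]
      exact t4rc_jinv_pow_eq (by omega) hJ0 hX0
    have h2 : (⟨(t4eDeg L N'' q i 0 (taJ N''))⁻¹, huB⟩ : P.B) ^ Q ∈ 𝔫 := by
      rw [h1]
      exact 𝔫.mul_mem_right _ (hy𝔫 hyB)
    exact h𝔫.mem_of_pow_mem Q h2
  have hunu : ¬ IsUnit (⟨_, hul⟩ : ↥(P.loc 𝔫)) := P.not_isUnit_of_mem 𝔫 huB hu𝔫 hul
  refine t4erc_regAt_cusp hρ hw hc P ?_ 𝔫 hV honly hsm hul hunu
    (fun n hn => t4erc_hT_all L N'' q hT1 i n (by omega))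
    (fun n _ hn => t4erc_hT'_all L N'' q hT1' i n hn) hG
  intro V hV'
  rw [hvals] at hV'
  rcases hV' with h | h
  · exact Or.inl fun c => t4vp_algebraMap_mem_hor h c
  · exact Or.inr h

end Chart

section Pres

variable {L : Type} [Field L] [Algebra ℚ L] {O : ValuationSubring L} {k : Type*} [Field k]
  {π : ↥O →+* k} [IsDiscreteValuationRing ↥O] {hπ : Function.Surjective π} [IsAlgClosed k]
  {N'' q : ℕ} [NeZero N''] [hq : Fact q.Prime] [CharP k q] {i : ℕ}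
  {Y : T4eLayer O π hπ N'' q i} {Q : ℕ} (hQ : 2 ≤ Q) (hqO : Irreducible ((q : ℕ) : ↥O))

include hQ in
/-- **regularity at the cuspidal points of the middle component `w`** for helper2's chart
presentation `t4ecPres hqO Hy hcrt`, `y = 1 / (j^Q - j)` -/
theorem t4erc_regAt_cusp_t4ecPres {w : ℕ} (hρ : Y.RhoUnit w) (hw : w ≤ i)
    (hc : 1 ≤ min w (i - w)) {y : ↥(TaF L (t4eLev N'' q i))} (Hy : T4ecHyp Y y)
    (hcrt : T4ecCrt Y) (hy : y = (t4ecX L N'' q i Q)⁻¹)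
    (𝔫 : Ideal (t4ecPres hqO Hy hcrt).B) [h𝔫 : 𝔫.IsPrime]
    (hV : Y.V w ∈ (t4ecPres hqO Hy hcrt).through 𝔫)
    (honly : ∀ V ∈ (t4ecPres hqO Hy hcrt).through 𝔫,
      V ∈ (t4ecPres hqO Hy hcrt).vert ((q : ℕ) : ↥(TaF L (t4eLev N'' q i))) → V = Y.V w)
    (hsm : (t4ecPres hqO Hy hcrt).SmoothAt 𝔫 _ hV)
    (hy𝔫 : ∀ hyB : y ∈ (t4ecPres hqO Hy hcrt).B, (⟨y, hyB⟩ : (t4ecPres hqO Hy hcrt).B) ∈ 𝔫)
    (hT1 : IsIntegral ↥(Algebra.adjoin L {(t4eDeg L N'' q 1 0 (taJ N''))⁻¹})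
      (t4eDeg L N'' q 1 1 (taJ N'') * (t4eDeg L N'' q 1 0 (taJ N''))⁻¹ ^ q))
    (hT1' : IsIntegral ↥(Algebra.adjoin L {(t4eDeg L N'' q 1 1 (taJ N''))⁻¹})
      (t4eDeg L N'' q 1 0 (taJ N'') * (t4eDeg L N'' q 1 1 (taJ N''))⁻¹ ^ q))
    (hG : t4rcGs k q ∈ IntermediateField.adjoin k {jqModC k}) :
    (t4ecPres hqO Hy hcrt).RegAt 𝔫 :=
  t4erc_regAt_cusp_chart hQ hρ hw hc (t4ecPres hqO Hy hcrt) (t4ecPres_vals hqO Hy hcrt)
    (mem_t4ecPres_B hqO Hy hcrt) hy 𝔫 hV honly hsm hy𝔫 hT1 hT1' hG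

end Pres

end Fermat.Agent.T4
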