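/-
T4E, package P7b (helper8): **`hreg` on chart 2 of level `i`** (`P₂`, chart `X_i⁻¹`,
`X_i = j^Q - j`), from the chart-1 theorem by transfer at the non-cuspidal points (generalises
`T4rtTop.hreg_chart2`, `Lib/T4/Reg/TopChart2.lean`).

* `t4erc_const_mem_B` : the constants of `O` lie in the ring of every chart presentation;
* `t4erc_vert` : the vertical valuation rings of a chart presentation are among the `Y.V w`;
* `t4erc_hk_of_res` : the residue-field hypothesis `hk` of `t4rt_exists_chart1` from "the residue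
  field of `𝔫₂ ∋ q` is `k`" (helper3's `t4ecr_resField`);
* **`t4erc_hreg_chart2`** : `RegAt` at every closed point `𝔫₂ ∋ q` of chart 2, given: `hreg` on
  chart 1 (helper6's `t4er_hreg`), at most one vertical branch through `𝔫₂` (`hone`, lead's
  `t4es2_hone`), smoothness of the vertical branches (`hsm`, helper3), the residue field of `𝔫₂`
  (`hres`), (UNIT-ρ) for the middle components and the cusp inputs `hT1`, `hT1'`, `hG`.
  At a cuspidal point: a middle component is `t4erc_regAt_cusp_chart`, a reduced component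
  (`w ∈ {0, i}`) is `T4Pres.regAt_of_single`.
-/
import Fermat.Agent.Lib.T4E.Reg.CuspCh
import Fermat.Agent.Lib.T4.Reg.TopChart2

set_option autoImplicit false
set_option linter.unusedSectionVars false
set_option linter.unusedVariables false
set_option linter.style.haveILetI false
set_option synthInstance.maxHeartbeats 400000

open HahnSeries ModularCurve Fermat.Agent.T1 Fermat.Agent.T2 IntermediateField

noncomputable section

namespace Fermat.Agent.T4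

section Chart2

variable {L : Type} [Field L] [Algebra ℚ L] {O : ValuationSubring L} {k : Type*} [Field k]
  {π : ↥O →+* k} [IsDiscreteValuationRing ↥O] {hπ : Function.Surjective π} [IsAlgClosed k]
  {N'' q : ℕ} [NeZero N''] [hq : Fact q.Prime] [CharP k q] {i : ℕ}
  {Y : T4eLayer O π hπ N'' q i}

/-- the constants of `O` lie in the ring of every chart presentation -/
theorem t4erc_const_mem_B {P : T4Pres ↥(TaF L (t4eLev N'' q i))}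
    {y : ↥(TaF L (t4eLev N'' q i))} (hvals : P.vals = t4vpHor L y ∪ Y.ver) (c : ↥O) :
    algebraMap L ↥(TaF L (t4eLev N'' q i)) (c : L) ∈ P.B := by
  rw [P.mem_iff]
  intro V hV
  rw [hvals] at hV
  rcases hV with hV | ⟨w, hw, rfl⟩
  · exact t4vp_algebraMap_mem_hor hV _
  · exact Y.const_mem w hw c

/-- the vertical valuation rings of a chart presentation are among the `Y.V w` -/
theorem t4erc_vert {P : T4Pres ↥(TaF L (t4eLev N'' q i))}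
    {y : ↥(TaF L (t4eLev N'' q i))} (hvals : P.vals = t4vpHor L y ∪ Y.ver)
    {U : ValuationSubring ↥(TaF L (t4eLev N'' q i))}
    (hU : U ∈ P.vert ((q : ℕ) : ↥(TaF L (t4eLev N'' q i)))) : ∃ w ≤ i, U = Y.V w := by
  have hU1 := hU.1
  rw [hvals] at hU1
  rcases hU1 with h | h
  · exfalso
    have hq0 : ((q : ℕ) : L) ≠ 0 := by
      haveI : CharZero L := algebraRat.charZero L
      exact_mod_cast hq.out.ne_zero
    have h1 : ((q : ℕ) : ↥(TaF L (t4eLev N'' q i))) =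
        algebraMap L ↥(TaF L (t4eLev N'' q i)) ((q : ℕ) : L) := (map_natCast _ q).symm
    have h2 : U.valuation ((q : ℕ) : ↥(TaF L (t4eLev N'' q i))) = 1 := by
      refine t4vs_valuation_unit U t4ero_q_ne_zero ?_ ?_
      · rw [h1]
        exact t4vp_algebraMap_mem_hor h _
      · rw [h1, ← map_inv₀]
        exact t4vp_algebraMap_mem_hor h _
    exact absurd hU.2 (by rw [h2]; exact lt_irrefl _)
  · exact h

/-- `Y.V w` is a vertical valuation ring of every chart presentation -/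
theorem t4erc_V_mem_vert {P : T4Pres ↥(TaF L (t4eLev N'' q i))}
    {y : ↥(TaF L (t4eLev N'' q i))} (hvals : P.vals = t4vpHor L y ∪ Y.ver) {w : ℕ} (hw : w ≤ i) :
    Y.V w ∈ P.vert ((q : ℕ) : ↥(TaF L (t4eLev N'' q i))) := by
  refine ⟨?_, Y.valuation_q_lt hw⟩
  rw [hvals]
  exact Or.inr ⟨w, hw, rfl⟩

variable (hqO : Irreducible ((q : ℕ) : ↥O))

include hqO in
/-- `hk` of `t4rt_exists_chart1` when the residue field of `𝔫₂ ∋ q` is `k` (generated by the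
constants of `O`) -/
theorem t4erc_hk_of_res {P P₂ : T4Pres ↥(TaF L (t4eLev N'' q i))}
    {x : ↥(TaF L (t4eLev N'' q i))} (hvals₁ : P.vals = t4vpHor L x ∪ Y.ver)
    (hvals₂ : P₂.vals = t4vpHor L x⁻¹ ∪ Y.ver) (𝔫₂ : Ideal P₂.B)
    (hqB : ((q : ℕ) : ↥(TaF L (t4eLev N'' q i))) ∈ P₂.B)
    (hq𝔫 : (⟨((q : ℕ) : ↥(TaF L (t4eLev N'' q i))), hqB⟩ : P₂.B) ∈ 𝔫₂)
    (hres : ∀ b : P₂.B, ∃ c : ↥O, ∀ hc : algebraMap L ↥(TaF L (t4eLev N'' q i)) (c : L) ∈ P₂.B,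
      b - (⟨algebraMap L ↥(TaF L (t4eLev N'' q i)) (c : L), hc⟩ : P₂.B) ∈ 𝔫₂) :
    ∀ b : P₂.B, b ∉ 𝔫₂ → ∃ c : ↥(TaF L (t4eLev N'' q i)), c ∈ P.B ∧ c⁻¹ ∈ P.B ∧
      ∃ hc : c ∈ P₂.B, b - ⟨c, hc⟩ ∈ 𝔫₂ := by
  intro b hb
  obtain ⟨c, hc⟩ := hres b
  have hcB := t4erc_const_mem_B (Y := Y) hvals₂ c
  have hcu : IsUnit c := by
    by_contra hnu
    have h1 : c ∈ IsLocalRing.maximalIdeal ↥O := (IsLocalRing.mem_maximalIdeal _).mpr hnu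
    rw [hqO.maximalIdeal_eq, Ideal.mem_span_singleton'] at h1
    obtain ⟨c', hc'⟩ := h1
    apply hb
    have h2 : (⟨algebraMap L ↥(TaF L (t4eLev N'' q i)) (c : L), hcB⟩ : P₂.B) =
        ⟨_, t4erc_const_mem_B (Y := Y) hvals₂ c'⟩ *
          ⟨((q : ℕ) : ↥(TaF L (t4eLev N'' q i))), hqB⟩ := by
      apply Subtype.ext
      show algebraMap L ↥(TaF L (t4eLev N'' q i)) (c : L) =
        algebraMap L ↥(TaF L (t4eLev N'' q i)) (c' : L) *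
          ((q : ℕ) : ↥(TaF L (t4eLev N'' q i)))
      rw [← hc', ← map_natCast (algebraMap L ↥(TaF L (t4eLev N'' q i))) q, ← map_mul]
      congr 1
    have h3 : (⟨algebraMap L ↥(TaF L (t4eLev N'' q i)) (c : L), hcB⟩ : P₂.B) ∈ 𝔫₂ := by
      rw [h2]
      exact 𝔫₂.mul_mem_left _ hq𝔫
    have h4 := 𝔫₂.add_mem (hc hcB) h3
    rwa [sub_add_cancel] at h4
  obtain ⟨u, hu⟩ := hcu
  refine ⟨algebraMap L ↥(TaF L (t4eLev N'' q i)) (c : L),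
    t4erc_const_mem_B (Y := Y) hvals₁ c, ?_, hcB, hc hcB⟩
  have h5 : (algebraMap L ↥(TaF L (t4eLev N'' q i)) (c : L))⁻¹ =
      algebraMap L ↥(TaF L (t4eLev N'' q i)) (((u⁻¹ : (↥O)ˣ) : ↥O) : L) := by
    rw [← map_inv₀]
    congr 1
    refine inv_eq_of_mul_eq_one_left ?_
    rw [← hu]
    exact_mod_cast congrArg (fun z : ↥O => (z : L)) (Units.inv_mul u)
  rw [h5]
  exact t4erc_const_mem_B (Y := Y) hvals₁ _

variable {Q : ℕ} (hQ : 2 ≤ Q)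

include hqO hQ in
/-- **`hreg` on chart 2 of level `i`** (`P₂`, chart `X_i⁻¹`) -/
theorem t4erc_hreg_chart2 {P P₂ : T4Pres ↥(TaF L (t4eLev N'' q i))}
    (hvals₁ : P.vals = t4vpHor L (t4ecX L N'' q i Q) ∪ Y.ver)
    (hvals₂ : P₂.vals = t4vpHor L (t4ecX L N'' q i Q)⁻¹ ∪ Y.ver)
    (hB₂ : ∀ f : ↥(TaF L (t4eLev N'' q i)), f ∈ P₂.B ↔
      f ∈ t2Int (K := L) (t4ecX L N'' q i Q)⁻¹ ∧ f ∈ Y.Ov)
    (hρ : ∀ w, w ≤ i → 1 ≤ min w (i - w) → Y.RhoUnit w)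
    (hqB₁ : ((q : ℕ) : ↥(TaF L (t4eLev N'' q i))) ∈ P.B)
    (hreg₁ : ∀ 𝔫₁ : Ideal P.B, 𝔫₁.IsMaximal →
      (⟨((q : ℕ) : ↥(TaF L (t4eLev N'' q i))), hqB₁⟩ : P.B) ∈ 𝔫₁ →
      (∀ (U : ValuationSubring ↥(TaF L (t4eLev N'' q i))) (hU : U ∈ P.through 𝔫₁),
        U ∈ P.vert ((q : ℕ) : ↥(TaF L (t4eLev N'' q i))) → P.SmoothAt 𝔫₁ U hU) → P.RegAt 𝔫₁)
    (hqB : ((q : ℕ) : ↥(TaF L (t4eLev N'' q i))) ∈ P₂.B)
    (𝔫₂ : Ideal P₂.B) [h𝔫₂ : 𝔫₂.IsMaximal]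
    (hq𝔫 : (⟨((q : ℕ) : ↥(TaF L (t4eLev N'' q i))), hqB⟩ : P₂.B) ∈ 𝔫₂)
    (hone : ∀ V ∈ P₂.through 𝔫₂, V ∈ P₂.vert ((q : ℕ) : ↥(TaF L (t4eLev N'' q i))) →
      ∀ V' ∈ P₂.through 𝔫₂, V' ∈ P₂.vert ((q : ℕ) : ↥(TaF L (t4eLev N'' q i))) → V = V')
    (hsm : ∀ (U : ValuationSubring ↥(TaF L (t4eLev N'' q i))) (hU : U ∈ P₂.through 𝔫₂),
      U ∈ P₂.vert ((q : ℕ) : ↥(TaF L (t4eLev N'' q i))) → P₂.SmoothAt 𝔫₂ U hU)
    (hres : ∀ b : P₂.B, ∃ c : ↥O, ∀ hc : algebraMap L ↥(TaF L (t4eLev N'' q i)) (c : L) ∈ P₂.B,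
      b - (⟨algebraMap L ↥(TaF L (t4eLev N'' q i)) (c : L), hc⟩ : P₂.B) ∈ 𝔫₂)
    (hT1 : IsIntegral ↥(Algebra.adjoin L {(t4eDeg L N'' q 1 0 (taJ N''))⁻¹})
      (t4eDeg L N'' q 1 1 (taJ N'') * (t4eDeg L N'' q 1 0 (taJ N''))⁻¹ ^ q))
    (hT1' : IsIntegral ↥(Algebra.adjoin L {(t4eDeg L N'' q 1 1 (taJ N''))⁻¹})
      (t4eDeg L N'' q 1 0 (taJ N'') * (t4eDeg L N'' q 1 1 (taJ N''))⁻¹ ^ q))
    (hG : t4rcGs k q ∈ IntermediateField.adjoin k {jqModC k}) : P₂.RegAt 𝔫₂ := by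
  classical
  haveI := h𝔫₂.isPrime
  -- the vertical valuation ring through `𝔫₂`
  obtain ⟨V, hV, hlt⟩ := P₂.exists_through_of_mem 𝔫₂ hq𝔫 t4ero_q_ne_zero
  have hVq : V ∈ P₂.vert ((q : ℕ) : ↥(TaF L (t4eLev N'' q i))) := ⟨hV.1, hlt⟩
  obtain ⟨w, hw, rfl⟩ := t4erc_vert hvals₂ hVq
  have honly : ∀ U ∈ P₂.through 𝔫₂, U ∈ P₂.vert ((q : ℕ) : ↥(TaF L (t4eLev N'' q i))) →
      U = Y.V w := fun U hU hUq => hone U hU hUq _ hV hVq
  by_cases hc : ∃ hx2 : (t4ecX L N'' q i Q)⁻¹ ∈ P₂.B,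
      (⟨(t4ecX L N'' q i Q)⁻¹, hx2⟩ : P₂.B) ∈ 𝔫₂
  · -- a cuspidal point
    obtain ⟨hx2, hx𝔫⟩ := hc
    by_cases hm : 1 ≤ min w (i - w)
    · exact t4erc_regAt_cusp_chart hQ (hρ w hw hm) hw hm P₂ hvals₂ hB₂ rfl 𝔫₂ hV honly
        (hsm _ hV hVq) (fun _ => hx𝔫) hT1 hT1' hG
    · have hμ : t4eMult q i w = 1 := by
        have h0 : min w (i - w) = 0 := by omega
        rw [t4eMult, h0, pow_zero, Nat.totient_one]
      refine P₂.regAt_of_single hqB hV hlt (fun x hx => ?_) honly (hsm _ hV hVq)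
      refine (Y.hunif hw x hx).trans_eq ?_
      rw [Y.valuation_q hw, hμ, pow_one]
  · -- a non-cuspidal point: transfer to chart 1
    have hnc : ∀ hx2 : (t4ecX L N'' q i Q)⁻¹ ∈ P₂.B,
        (⟨(t4ecX L N'' q i Q)⁻¹, hx2⟩ : P₂.B) ∉ 𝔫₂ := fun hx2 h => hc ⟨hx2, h⟩
    have hxver : ∀ U ∈ Y.ver, t4ecX L N'' q i Q ∈ U ∧ (t4ecX L N'' q i Q)⁻¹ ∈ U := by
      rintro U ⟨w', hw', rfl⟩
      exact ⟨t4ecX_mem Y hw', t4ecX_inv_mem Y hQ hw'⟩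
    obtain ⟨𝔫₁, h𝔫₁, hthr⟩ :=
      t4rt_exists_chart1 (K := L) (t4ecX_ne_zero hQ) hvals₁ hvals₂ hxver 𝔫₂ hnc
        (t4erc_hk_of_res hqO hvals₁ hvals₂ 𝔫₂ hqB hq𝔫 hres)
    haveI := h𝔫₁
    have hV₁ : Y.V w ∈ P.through 𝔫₁ := by rw [hthr]; exact hV
    have hq𝔫₁ : (⟨((q : ℕ) : ↥(TaF L (t4eLev N'' q i))), hqB₁⟩ : P.B) ∈ 𝔫₁ :=
      hV₁.2 _ hlt
    have hsm₁ : ∀ (U : ValuationSubring ↥(TaF L (t4eLev N'' q i))) (hU : U ∈ P.through 𝔫₁),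
        U ∈ P.vert ((q : ℕ) : ↥(TaF L (t4eLev N'' q i))) → P.SmoothAt 𝔫₁ U hU := by
      intro U hU hUq
      have hU₂ : U ∈ P₂.through 𝔫₂ := by rw [← hthr]; exact hU
      obtain ⟨w', hw', rfl⟩ := t4erc_vert hvals₁ hUq
      exact T4Pres.smoothAt_of_through_eq hthr.symm hU₂ hU
        (hsm _ hU₂ (t4erc_V_mem_vert hvals₂ hw'))
    exact T4Pres.regAt_of_through_eq hthr (hreg₁ 𝔫₁ h𝔫₁ hq𝔫₁ hsm₁)

end Chart2

end Fermat.Agent.T4
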