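/-
T4E, package P7b (helper8): **the level-one integrality statements `hT1`, `hT1'` at the levels
`L = tbFix 𝔓 H`** (inputs of `t4erc_regAt_cusp_chart`, `Reg/CuspCh.lean`), from T2's cusp package
over `ℚ̄` (`t2cp_isIntegral_Y_div`, `t2cp_isIntegral_J_div_of_Y`) and the descent
`t2d_isIntegral_tbPhiF_iff`.
-/
import Fermat.Agent.Lib.T4E.Tower.Defs
import Fermat.Agent.Lib.T2.Inst.CuspAL
import Fermat.Agent.Lib.T2.Desc.LevelMod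
import Fermat.Agent.Lib.T2.Inst.LevelH

set_option autoImplicit false
set_option linter.unusedSectionVars false
set_option linter.unusedVariables false
set_option linter.style.haveILetI false
set_option synthInstance.maxHeartbeats 400000

open HahnSeries ModularCurve Fermat.Agent.T1 Fermat.Agent.T2 Fermat.Agent.TW Fermat.Agent.S05Lib

noncomputable section

namespace Fermat.Agent.T4

local notation "Qb" => AlgebraicClosure ℚ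

attribute [local instance] t2i_fact

variable (𝔓 : FFPlace) (N'' : ℕ) [NeZero N''] (h : ¬ 𝔓.p ∣ N'')

theorem t4erc_tbPhiF_a0j (H : Subgroup 𝔓.I) :
    tbPhiF 𝔓 (t4eLev N'' 𝔓.p 1) H (t4eDeg ↥(tbFix 𝔓 H) N'' 𝔓.p 1 0 (taJ N'')) =
      t2cpJ N'' 𝔓.p := by
  apply Subtype.ext
  rw [coe_tbPhiF, coe_t4eDeg _ _ _ 1 0 (by omega), coe_taJ,
    qExpand_congr (pow_zero 𝔓.p) (jqModC _), qExpand_one_apply]
  exact coeffMap_jqModC _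

theorem t4erc_tbPhiF_a1j (H : Subgroup 𝔓.I) :
    tbPhiF 𝔓 (t4eLev N'' 𝔓.p 1) H (t4eDeg ↥(tbFix 𝔓 H) N'' 𝔓.p 1 1 (taJ N'')) =
      t2cpYw N'' 𝔓.p := by
  rw [t2cpYw_eq]
  apply Subtype.ext
  rw [coe_tbPhiF, coe_t4eDeg _ _ _ 1 1 le_rfl, coe_taJ, coe_t2cpYq, coeffMap_qExpand,
    coeffMap_jqModC]
  exact qExpand_congr (pow_one 𝔓.p) _

/-- **`T = a_1 j · (a_0 j)^{-p}` is integral over `L[1 / a_0 j]`** at level one, `L = tbFix 𝔓 H` -/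
theorem t4erc_hT1_fix (H : Subgroup 𝔓.I) :
    IsIntegral ↥(Algebra.adjoin ↥(tbFix 𝔓 H) {(t4eDeg ↥(tbFix 𝔓 H) N'' 𝔓.p 1 0 (taJ N''))⁻¹})
      (t4eDeg ↥(tbFix 𝔓 H) N'' 𝔓.p 1 1 (taJ N'') *
        (t4eDeg ↥(tbFix 𝔓 H) N'' 𝔓.p 1 0 (taJ N''))⁻¹ ^ 𝔓.p) := by
  refine (t2d_isIntegral_tbPhiF_iff 𝔓 (t4eLev N'' 𝔓.p 1) H _ _).mpr ?_
  rw [map_mul, map_pow, map_inv₀, t4erc_tbPhiF_a0j, t4erc_tbPhiF_a1j]
  exact t2cp_isIntegral_Yw_div N'' 𝔓.p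

include h in
/-- **`T' = a_0 j · (a_1 j)^{-p}` is integral over `L[1 / a_1 j]`** at level one, `L = tbFix 𝔓 H` -/
theorem t4erc_hT1'_fix (H : Subgroup 𝔓.I) :
    IsIntegral ↥(Algebra.adjoin ↥(tbFix 𝔓 H) {(t4eDeg ↥(tbFix 𝔓 H) N'' 𝔓.p 1 1 (taJ N''))⁻¹})
      (t4eDeg ↥(tbFix 𝔓 H) N'' 𝔓.p 1 0 (taJ N'') *
        (t4eDeg ↥(tbFix 𝔓 H) N'' 𝔓.p 1 1 (taJ N''))⁻¹ ^ 𝔓.p) := by
  refine (t2d_isIntegral_tbPhiF_iff 𝔓 (t4eLev N'' 𝔓.p 1) H _ _).mpr ?_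
  rw [map_mul, map_pow, map_inv₀, t4erc_tbPhiF_a0j, t4erc_tbPhiF_a1j]
  exact t2cp_isIntegral_J_div_of_Y N'' 𝔓.p h

end Fermat.Agent.T4
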