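/-
T4E-R (helper6), part 5: **the chain of chart presentations along the general degeneracy embeddings**.

`Pm m` a chart presentation of level `m` (all `m`), with `Pm (m + 1)` over `Pm m` along `α` and along
`β` for every `m ≥ j` (`T4erStep`, the shape delivered by helper2's `Chart/Over.lean`).  Then
`Pm i` lies over `Pm j` along helper1's `t4eGamTo L (h : j + s ≤ i)` (`x ↦ x(𝔮^{q^s})`), and the
restrictions of the valuation rings of `Pm i` are valuation rings of `Pm j` (`t4er_chain`).
-/
import Fermat.Agent.Lib.T4E.Reg.Comp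
import Fermat.Agent.Lib.T4E.Tower.Gam

set_option autoImplicit false
set_option linter.unusedSectionVars false
set_option linter.unusedVariables false
set_option linter.style.haveILetI false

open HahnSeries ModularCurve Fermat.Agent.T1 Fermat.Agent.T2

noncomputable section

namespace Fermat.Agent.T4

section Chain

variable {L : Type} [Field L] [Algebra ℚ L] {N'' q : ℕ} [NeZero N''] [NeZero q]

/-- one step of the tower of chart presentations: `Pm (m + 1)` over `Pm m` along `α` and `β` -/
structure T4erStep (Pm : ∀ m : ℕ, T4Pres ↥(TaF L (t4eLev N'' q m))) (m : ℕ) : Prop where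
  presA : @T4PresOver _ _ _ _ (heckeAlphaBar L (t4eLev N'' q m) q).toRingHom.toAlgebra
    (Pm m) (Pm (m + 1))
  presB : @T4PresOver _ _ _ _ (heckeBetaBar L (t4eLev N'' q m) q).toRingHom.toAlgebra
    (Pm m) (Pm (m + 1))
  valsA : ∀ V ∈ (Pm (m + 1)).vals,
    V.comap (heckeAlphaBar L (t4eLev N'' q m) q).toRingHom ∈ (Pm m).vals
  valsB : ∀ V ∈ (Pm (m + 1)).vals,
    V.comap (heckeBetaBar L (t4eLev N'' q m) q).toRingHom ∈ (Pm m).vals

/-- `Pm i` over `Pm j` along `t4eGamTo L h`, with the restriction of the valuation rings -/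
def T4erOver (Pm : ∀ m : ℕ, T4Pres ↥(TaF L (t4eLev N'' q m))) {j s i : ℕ} (h : j + s ≤ i) : Prop :=
  @T4PresOver _ _ _ _ (t4eGamTo L (N'' := N'') (q := q) h).toRingHom.toAlgebra (Pm j) (Pm i) ∧
    ∀ V ∈ (Pm i).vals, V.comap (t4eGamTo L (N'' := N'') (q := q) h).toRingHom ∈ (Pm j).vals

variable {Pm : ∀ m : ℕ, T4Pres ↥(TaF L (t4eLev N'' q m))}

/-- the trivial step -/
theorem t4er_over_refl (i : ℕ) : T4erOver Pm (show i + 0 ≤ i by omega) := by
  constructor
  · refine T4PresOver.t4er_of_ringHom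
      (t4eGamTo L (N'' := N'') (q := q) (show i + 0 ≤ i by omega)).toRingHom ?_ ?_
    · intro b hb
      show t4eGamTo L (show i + 0 ≤ i by omega) b ∈ (Pm i).B
      rw [t4eGamTo_refl]
      exact hb
    · intro b hb
      refine ⟨Polynomial.X - Polynomial.C ⟨b, hb⟩, Polynomial.monic_X_sub_C _, ?_⟩
      rw [Polynomial.eval₂_sub, Polynomial.eval₂_X, Polynomial.eval₂_C]
      show b - t4eGamTo L (show i + 0 ≤ i by omega) b = 0
      rw [t4eGamTo_refl, sub_self]
  · intro V hV
    have h1 : V.comap (t4eGamTo L (N'' := N'') (q := q) (show i + 0 ≤ i by omega)).toRingHom = V := by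
      ext x
      rw [ValuationSubring.mem_comap]
      show t4eGamTo L _ x ∈ V ↔ x ∈ V
      rw [t4eGamTo_refl]
    rw [h1]
    exact hV

/-- one more `α` -/
theorem T4erOver.step_alpha {j s i : ℕ} {h : j + s ≤ i} (H : T4erOver Pm h) (S : T4erStep Pm i) :
    T4erOver Pm (show j + s ≤ i + 1 by omega) := by
  have hcomp : ∀ x, t4eGamTo L (N'' := N'') (q := q) (show j + s ≤ i + 1 by omega) x =
      heckeAlphaBar L (t4eLev N'' q i) q (t4eGamTo L h x) := by
    intro x
    rw [← t4eGamTo_alpha i (t4eGamTo L h x), t4eGamTo_comp h (show i + 0 ≤ i + 1 by omega) x]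
  exact ⟨T4PresOver.t4er_trans (t4eGamTo L (N'' := N'') (q := q) h).toRingHom.toAlgebra
      (heckeAlphaBar L (t4eLev N'' q i) q).toRingHom.toAlgebra
      (t4eGamTo L (N'' := N'') (q := q) (show j + s ≤ i + 1 by omega)).toRingHom.toAlgebra
      hcomp H.1 S.presA,
    t4er_comap_vals_trans (t4eGamTo L (N'' := N'') (q := q) h).toRingHom
      (heckeAlphaBar L (t4eLev N'' q i) q).toRingHom
      (t4eGamTo L (N'' := N'') (q := q) (show j + s ≤ i + 1 by omega)).toRingHom
      hcomp H.2 S.valsA⟩

/-- one more `β` -/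
theorem T4erOver.step_beta {j s i : ℕ} {h : j + s ≤ i} (H : T4erOver Pm h) (S : T4erStep Pm i) :
    T4erOver Pm (show j + (s + 1) ≤ i + 1 by omega) := by
  have hcomp : ∀ x, t4eGamTo L (N'' := N'') (q := q) (show j + (s + 1) ≤ i + 1 by omega) x =
      heckeBetaBar L (t4eLev N'' q i) q (t4eGamTo L h x) := by
    intro x
    rw [← t4eGamTo_beta i (t4eGamTo L h x), t4eGamTo_comp h (le_refl (i + 1)) x]
  exact ⟨T4PresOver.t4er_trans (t4eGamTo L (N'' := N'') (q := q) h).toRingHom.toAlgebra
      (heckeBetaBar L (t4eLev N'' q i) q).toRingHom.toAlgebra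
      (t4eGamTo L (N'' := N'') (q := q) (show j + (s + 1) ≤ i + 1 by omega)).toRingHom.toAlgebra
      hcomp H.1 S.presB,
    t4er_comap_vals_trans (t4eGamTo L (N'' := N'') (q := q) h).toRingHom
      (heckeBetaBar L (t4eLev N'' q i) q).toRingHom
      (t4eGamTo L (N'' := N'') (q := q) (show j + (s + 1) ≤ i + 1 by omega)).toRingHom
      hcomp H.2 S.valsB⟩

/-- **the chain**: `Pm i` over `Pm j` along every `t4eGamTo L (h : j + s ≤ i)` -/
theorem t4er_chain (j : ℕ) (hstep : ∀ m, j ≤ m → T4erStep Pm m) :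
    ∀ (i s : ℕ) (h : j + s ≤ i), T4erOver Pm h := by
  intro i
  induction i with
  | zero =>
    intro s h
    obtain rfl : j = 0 := by omega
    obtain rfl : s = 0 := by omega
    exact t4er_over_refl 0
  | succ i ih =>
    intro s h
    by_cases h1 : j + s ≤ i
    · exact (ih s h1).step_alpha (hstep i (by omega))
    · rcases Nat.eq_zero_or_pos s with rfl | hs
      · obtain rfl : j = i + 1 := by omega
        exact t4er_over_refl (i + 1)
      · obtain ⟨s', rfl⟩ : ∃ s', s = s' + 1 := ⟨s - 1, by omega⟩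
        exact (ih s' (by omega)).step_beta (hstep i (by omega))

end Chain

end Fermat.Agent.T4
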