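/-
T4E-R (helper6), part 3: **composition of `T4PresOver`** (explicit algebra instances).

* `T4PresOver.t4er_trans` : `P₂` over `P₁` along `A12`, `P₃` over `P₂` along `A23`, and
  `algebraMap A13 = algebraMap A23 ∘ algebraMap A12` pointwise ⟹ `P₃` over `P₁` along `A13`;
* `T4PresOver.t4er_congr` : change of the algebra instance along a pointwise equality of the maps;
* `t4er_comap_vals_trans` : the "restrictions of valuation rings are valuation rings" hypothesis
  composes;
* `T4PresOver.t4er_of_ringHom`, `…_iff` : the statement for `φ.toAlgebra` in terms of `φ`.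
-/
import Fermat.Agent.Lib.T4.Local.Norm

set_option autoImplicit false
set_option linter.unusedSectionVars false
set_option linter.unusedVariables false
set_option linter.style.haveILetI false

namespace Fermat.Agent.T4

namespace T4PresOver

section RingHom

variable {F1 F : Type*} [Field F1] [Field F]

/-- `T4PresOver` along the algebra structure of a ring homomorphism, unfolded -/
theorem t4er_of_ringHom (φ : F1 →+* F) {P1 : T4Pres F1} {P : T4Pres F}
    (hmap : ∀ b ∈ P1.B, φ b ∈ P.B)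
    (hint : ∀ b ∈ P.B, (φ.comp P1.B.subtype).IsIntegralElem b) :
    @T4PresOver F1 F _ _ φ.toAlgebra P1 P := by
  letI : Algebra F1 F := φ.toAlgebra
  exact ⟨hmap, hint⟩

/-- the integrality field of `T4PresOver`, in terms of the underlying ring homomorphism -/
theorem t4er_isIntegralElem (A : Algebra F1 F) {P1 : T4Pres F1} {P : T4Pres F}
    (h : @T4PresOver F1 F _ _ A P1 P) {b : F} (hb : b ∈ P.B) :
    (((@algebraMap F1 F _ _ A : F1 →+* F)).comp P1.B.subtype).IsIntegralElem b := by
  letI : Algebra F1 F := A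
  exact h.integral b hb

/-- change of the algebra instance along a pointwise equality of the structure maps -/
theorem t4er_congr (A A' : Algebra F1 F)
    (hA : ∀ x, @algebraMap F1 F _ _ A' x = @algebraMap F1 F _ _ A x)
    {P1 : T4Pres F1} {P : T4Pres F} (h : @T4PresOver F1 F _ _ A P1 P) :
    @T4PresOver F1 F _ _ A' P1 P := by
  have hAA : (@algebraMap F1 F _ _ A' : F1 →+* F) = @algebraMap F1 F _ _ A := RingHom.ext hA
  refine @T4PresOver.mk F1 F _ _ A' P1 P ?_ ?_
  · intro b hb
    rw [hA]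
    exact @T4PresOver.map_mem F1 F _ _ A P1 P h b hb
  · intro b hb
    have h1 := t4er_isIntegralElem A h hb
    show ((@algebraMap F1 F _ _ A' : F1 →+* F).comp P1.B.subtype).IsIntegralElem b
    rw [hAA]
    exact h1

end RingHom

section Trans

variable {F1 F2 F3 : Type*} [Field F1] [Field F2] [Field F3]

/-- **transitivity of `T4PresOver`** -/
theorem t4er_trans (A12 : Algebra F1 F2) (A23 : Algebra F2 F3) (A13 : Algebra F1 F3)
    (hA : ∀ x, @algebraMap F1 F3 _ _ A13 x =
      @algebraMap F2 F3 _ _ A23 (@algebraMap F1 F2 _ _ A12 x))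
    {P1 : T4Pres F1} {P2 : T4Pres F2} {P3 : T4Pres F3}
    (h12 : @T4PresOver F1 F2 _ _ A12 P1 P2) (h23 : @T4PresOver F2 F3 _ _ A23 P2 P3) :
    @T4PresOver F1 F3 _ _ A13 P1 P3 := by
  refine @T4PresOver.mk F1 F3 _ _ A13 P1 P3 ?_ ?_
  · intro b hb
    rw [hA]
    exact @T4PresOver.map_mem F2 F3 _ _ A23 P2 P3 h23 _
      (@T4PresOver.map_mem F1 F2 _ _ A12 P1 P2 h12 b hb)
  · intro b hb
    have i12 := @T4PresOver.incl_isIntegral F1 F2 _ _ A12 P1 P2 h12
    have i23 := @T4PresOver.incl_isIntegral F2 F3 _ _ A23 P2 P3 h23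
    have i13 := RingHom.IsIntegral.trans _ _ i12 i23
    obtain ⟨p, hp, hpb⟩ := i13 ⟨b, hb⟩
    have h1 := Polynomial.hom_eval₂ p
      ((@T4PresOver.incl F2 F3 _ _ A23 P2 P3 h23).comp (@T4PresOver.incl F1 F2 _ _ A12 P1 P2 h12))
      P3.B.subtype ⟨b, hb⟩
    rw [hpb, map_zero] at h1
    letI : Algebra F1 F3 := A13
    have h2 : (P3.B.subtype.comp ((@T4PresOver.incl F2 F3 _ _ A23 P2 P3 h23).comp
        (@T4PresOver.incl F1 F2 _ _ A12 P1 P2 h12))) = algebraMap ↥P1.B F3 := by
      refine RingHom.ext fun x => ?_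
      show @algebraMap F2 F3 _ _ A23 (@algebraMap F1 F2 _ _ A12 (x : F1)) = _
      rw [← hA]
      rfl
    rw [h2] at h1
    exact ⟨p, hp, h1.symm⟩

end Trans

end T4PresOver

/-- the restriction hypothesis composes -/
theorem t4er_comap_vals_trans {F1 F2 F3 : Type*} [Field F1] [Field F2] [Field F3]
    (φ12 : F1 →+* F2) (φ23 : F2 →+* F3) (φ13 : F1 →+* F3) (hφ : ∀ x, φ13 x = φ23 (φ12 x))
    {P1 : T4Pres F1} {P2 : T4Pres F2} {P3 : T4Pres F3}
    (h12 : ∀ U ∈ P2.vals, U.comap φ12 ∈ P1.vals) (h23 : ∀ U ∈ P3.vals, U.comap φ23 ∈ P2.vals) :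
    ∀ U ∈ P3.vals, U.comap φ13 ∈ P1.vals := by
  intro U hU
  have h1 := h12 _ (h23 U hU)
  have h2 : (U.comap φ23).comap φ12 = U.comap φ13 := by
    ext x
    rw [ValuationSubring.mem_comap, ValuationSubring.mem_comap, ValuationSubring.mem_comap, hφ]
  rwa [h2] at h1

end Fermat.Agent.T4
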