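/-
T4E-R (helper6), part 1: **the abstract regularity assembly (REG_e)** in the language of T4-L.

`P1` a presentation of level `1` (field `F1`), `P` a presentation of level `i` (field `F`), `P` over
`P1` along an embedding `F1 → F` (in the application `β^{i-1}`, `a_n f ↦ a_{n+i-1} f`).  The vertical
valuation rings of `P` are `V w`, `w ≤ i`; `V i` restricts to `Vinf1`, all the others to `V01`.

* `T4PresOver.t4er_regAt_glued` : **(R-ss)** a closed point through which `V i` and `V 0` pass is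
  regular: the local equation is the image of the local equation `a` of the level-one node
  `a * b ∼ q` (REG1-G), which cuts out `V i` and is a unit at the other vertical valuation rings;
* `T4Pres.t4er_regAt_single`, `T4Pres.t4er_regAt_pow` : **(R-ord)** closed points on exactly one
  vertical valuation ring `V w` (multiplicity one, resp. multiplicity `μ` with the unit criterion
  `a ^ μ / q ≡ -u`), with the uniformiser given through decompositions `f = ϖ ^ n * u`;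
* `T4PresOver.t4er_regAt` : **`hreg`** from all-or-one, (R-ss) and (R-ord).
-/
import Fermat.Agent.Lib.T4.Reg.TopReg

set_option autoImplicit false
set_option linter.unusedSectionVars false
set_option linter.unusedVariables false
set_option linter.style.haveILetI false

namespace Fermat.Agent.T4

/-! ### (R-ord): points on exactly one vertical valuation ring -/

section Unif

variable {F : Type*} [Field F]

/-- a uniformiser in the sense of decompositions has valuation `< 1` -/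
theorem t4er_unif_lt_one (V : ValuationSubring F) {ϖ : F} (hϖ : V.valuation ϖ < 1) :
    ϖ ∈ V ∧ (ϖ ≠ 0 → ϖ⁻¹ ∉ V) := by
  refine ⟨(V.valuation_le_one_iff _).mp hϖ.le, fun h0 hinv => ?_⟩
  have h1 : V.valuation ϖ⁻¹ ≤ 1 := (V.valuation_le_one_iff _).mpr hinv
  rw [map_inv₀] at h1
  have hpos : 0 < V.valuation ϖ := zero_lt_iff.mpr ((Valuation.ne_zero_iff _).mpr h0)
  exact absurd hϖ (not_lt.mpr ((inv_le_one₀ hpos).mp h1))

/-- the largest valuation `< 1` from decompositions `f = ϖ ^ n * u` -/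
theorem t4er_hunif (V : ValuationSubring F) {ϖ : F} (hϖ : V.valuation ϖ < 1)
    (h : ∀ f : F, f ≠ 0 → ∃ (n : ℤ) (u : F), V.valuation u = 1 ∧ f = ϖ ^ n * u) :
    ∀ x : F, V.valuation x < 1 → V.valuation x ≤ V.valuation ϖ := by
  intro x hx
  rcases eq_or_ne x 0 with rfl | hx0
  · rw [map_zero]; exact zero_le
  obtain ⟨n, u, hu, e⟩ := h x hx0
  have hϖ0 : ϖ ≠ 0 := by
    rintro rfl
    rcases eq_or_ne n 0 with rfl | hn
    · rw [zpow_zero, one_mul] at e
      rw [e, hu] at hx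
      exact lt_irrefl _ hx
    · rw [zero_zpow n hn, zero_mul] at e
      exact hx0 e
  have hv0 : 0 < V.valuation ϖ := zero_lt_iff.mpr ((Valuation.ne_zero_iff _).mpr hϖ0)
  have h1 : V.valuation x = V.valuation ϖ ^ n := by
    rw [e, map_mul, map_zpow₀, hu, mul_one]
  rw [h1] at hx ⊢
  have hn : 1 ≤ n := by
    by_contra hn
    have hn' : n ≤ 0 := by omega
    have : 1 ≤ V.valuation ϖ ^ n := by
      obtain ⟨m, rfl⟩ : ∃ m : ℕ, n = -(m : ℤ) := ⟨(-n).toNat, by omega⟩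
      rw [zpow_neg, zpow_natCast]
      exact (one_le_inv₀ (pow_pos hv0 m)).mpr (pow_le_one₀ zero_le hϖ.le)
    exact absurd hx (not_lt.mpr this)
  obtain ⟨m, rfl⟩ : ∃ m : ℕ, n = (m : ℤ) + 1 := ⟨(n - 1).toNat, by omega⟩
  rw [zpow_add₀ hv0.ne', zpow_natCast, zpow_one]
  calc V.valuation ϖ ^ m * V.valuation ϖ ≤ 1 * V.valuation ϖ :=
        mul_le_mul_left (pow_le_one₀ zero_le hϖ.le) _
    _ = V.valuation ϖ := one_mul _

end Unif

namespace T4Pres

variable {F : Type*} [Field F] (P : T4Pres F)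

/-- **(R-ord), multiplicity one**: `q` is a uniformiser of the only vertical valuation ring through
`𝔫` -/
theorem t4er_regAt_single {𝔫 : Ideal P.B} {q : F} (hq : q ∈ P.B) {V₀ : ValuationSubring F}
    (hV₀ : V₀ ∈ P.through 𝔫) (hqV₀ : V₀.valuation q < 1)
    (hdec : ∀ f : F, f ≠ 0 → ∃ (n : ℤ) (u : F), V₀.valuation u = 1 ∧ f = q ^ n * u)
    (honly : ∀ V ∈ P.through 𝔫, V ∈ P.vert q → V = V₀)
    (hsm : P.SmoothAt 𝔫 V₀ hV₀) : P.RegAt 𝔫 :=
  P.regAt_of_single hq hV₀ hqV₀ (t4er_hunif V₀ hqV₀ hdec) honly hsm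

/-- **(R-ord), multiplicity `μ`**: `q = ϖ ^ μ · unit` on the only vertical valuation ring `V₀` through
`𝔫`, `a ∈ B` vanishes on `V₀` and `a ^ μ / q ≡ -u` on `V₀` for a unit `u` of `B_𝔫` -/
theorem t4er_regAt_pow {𝔫 : Ideal P.B} [h𝔫 : 𝔫.IsMaximal] {q : F} (hq : q ∈ P.B) (hq0 : q ≠ 0)
    {V₀ : ValuationSubring F} (hV₀ : V₀ ∈ P.through 𝔫) {ϖ : F} (hϖ : V₀.valuation ϖ < 1)
    (hdec : ∀ f : F, f ≠ 0 → ∃ (n : ℤ) (u : F), V₀.valuation u = 1 ∧ f = ϖ ^ n * u)
    {μ : ℕ} (hμ : μ ≠ 0) (hqϖ : ∃ u : F, V₀.valuation u = 1 ∧ q = ϖ ^ μ * u)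
    {a : F} (ha : a ∈ P.B) (haV₀ : V₀.valuation a < 1)
    {u : F} (hu : u ∈ P.loc 𝔫) (hui : u⁻¹ ∈ P.loc 𝔫) (hu0 : u ≠ 0)
    (hau : V₀.valuation (a ^ μ / q + u) < 1)
    (honly : ∀ V ∈ P.through 𝔫, V ∈ P.vert q → V = V₀)
    (hsm : P.SmoothAt 𝔫 V₀ hV₀) : P.RegAt 𝔫 := by
  obtain ⟨v, hv, hqv⟩ := hqϖ
  refine P.regAt_of_pow_unit hq hq0 hV₀ ha hμ (t4er_hunif V₀ hϖ hdec) ?_ haV₀ hu hui hu0 hau
    honly hsm
  rw [hqv, map_mul, map_pow, hv, mul_one]

end T4Pres

/-! ### (R-ss) and `hreg` -/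

namespace T4PresOver

variable {F1 F : Type*} [Field F1] [Field F] [Algebra F1 F]
variable {P1 : T4Pres F1} {P : T4Pres F}

/-- **REG1-G**, abstract form: a closed point of the lower level through which both vertical
valuation rings `Vinf1`, `V01` pass is a node `a * b ∼ q₁` -/
def T4erNode (P1 : T4Pres F1) (q1 : F1) (Vinf1 V01 : ValuationSubring F1) : Prop :=
  ∀ 𝔫1 : Ideal P1.B, 𝔫1.IsMaximal → Vinf1 ∈ P1.through 𝔫1 → V01 ∈ P1.through 𝔫1 →
    ∃ a b : F1, a ∈ P1.B ∧ b ∈ P1.loc 𝔫1 ∧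
      (∀ U ∈ P1.through 𝔫1, U.valuation (a * b) = U.valuation q1) ∧
      Vinf1.valuation a = Vinf1.valuation q1 ∧ V01.valuation a = 1 ∧
      Vinf1.valuation b = 1 ∧ V01.valuation b = V01.valuation q1

/-- **(R-ss)**: regularity at a closed point through which the top vertical valuation ring `V i` and
another one (`V 0`) pass -/
theorem t4er_regAt_glued (h : T4PresOver P1 P) (hres : ∀ U ∈ P.vals, U.comap (algebraMap F1 F) ∈ P1.vals)
    {q : F} (hq : q ∈ P.B) {q1 : F1} (hq1 : algebraMap F1 F q1 = q)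
    (i : ℕ) (V : ℕ → ValuationSubring F)
    (hvert : ∀ U, U ∈ P.vert q → ∃ w ≤ i, U = V w)
    {Vinf1 V01 : ValuationSubring F1}
    (hcomap_top : (V i).comap (algebraMap F1 F) = Vinf1)
    (hcomap_low : ∀ w < i, (V w).comap (algebraMap F1 F) = V01)
    (hG : T4erNode P1 q1 Vinf1 V01)
    (hqtop : (V i).valuation q < 1)
    (hunif_top : ∀ x : F, (V i).valuation x < 1 → (V i).valuation x ≤ (V i).valuation q)
    (𝔫 : Ideal P.B) [h𝔫 : 𝔫.IsMaximal] (hi : 0 < i)
    (htop : V i ∈ P.through 𝔫) (hzero : V 0 ∈ P.through 𝔫)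
    (hsm : P.SmoothAt 𝔫 (V i) htop) : P.RegAt 𝔫 := by
  have h1inf : Vinf1 ∈ P1.through (h.under 𝔫) := by
    have := h.comap_mem_through htop (hres _ htop.1)
    rwa [hcomap_top] at this
  have h10 : V01 ∈ P1.through (h.under 𝔫) := by
    have := h.comap_mem_through hzero (hres _ hzero.1)
    rwa [hcomap_low 0 hi] at this
  obtain ⟨a, b, ha, hb, hab, hainf, ha0, hbinf, hb0⟩ :=
    hG _ (h.under_isMaximal 𝔫) h1inf h10
  refine h.regAt_of_glued 𝔫 hres hq hq1 htop ha hb hab hqtop hunif_top ?_ ?_ hsm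
  · rw [hcomap_top]
    exact hbinf
  · intro U hU hne hUq
    obtain ⟨w, hw, rfl⟩ := hvert U hUq
    have hwi : w < i := by
      rcases Nat.lt_or_ge w i with h' | h'
      · exact h'
      · exact absurd (by rw [le_antisymm hw h']) hne
    rw [hcomap_low w hwi]
    exact ha0

/-- **`hreg`**: regularity at every closed point of the special fibre, from all-or-one, (R-ss) and
(R-ord) -/
theorem t4er_regAt (h : T4PresOver P1 P) (hres : ∀ U ∈ P.vals, U.comap (algebraMap F1 F) ∈ P1.vals)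
    {q : F} (hq : q ∈ P.B) (hq0 : q ≠ 0) {q1 : F1} (hq1 : algebraMap F1 F q1 = q)
    (i : ℕ) (V : ℕ → ValuationSubring F)
    (hvert : ∀ U, U ∈ P.vert q → ∃ w ≤ i, U = V w)
    {Vinf1 V01 : ValuationSubring F1}
    (hcomap_top : (V i).comap (algebraMap F1 F) = Vinf1)
    (hcomap_low : ∀ w < i, (V w).comap (algebraMap F1 F) = V01)
    (hG : T4erNode P1 q1 Vinf1 V01)
    (hqtop : (V i).valuation q < 1)
    (hunif_top : ∀ x : F, (V i).valuation x < 1 → (V i).valuation x ≤ (V i).valuation q)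
    (𝔫 : Ideal P.B) [h𝔫 : 𝔫.IsMaximal] (hq𝔫 : (⟨q, hq⟩ : P.B) ∈ 𝔫)
    (hall : (∀ U ∈ P.through 𝔫, U ∈ P.vert q → ∀ U' ∈ P.through 𝔫, U' ∈ P.vert q → U = U') ∨
      (0 < i ∧ ∀ w ≤ i, V w ∈ P.through 𝔫))
    (hsm : ∀ (U : ValuationSubring F) (hU : U ∈ P.through 𝔫), U ∈ P.vert q → P.SmoothAt 𝔫 U hU)
    (hord : ∀ w ≤ i, V w ∈ P.through 𝔫 → V w ∈ P.vert q →
      (∀ U ∈ P.through 𝔫, U ∈ P.vert q → U = V w) → P.RegAt 𝔫) : P.RegAt 𝔫 := by
  haveI := h𝔫.isPrime
  rcases hall with hone | ⟨hi, hall⟩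
  · obtain ⟨U, hU, hUq⟩ := P.exists_vert_through hq hq0 hq𝔫
    obtain ⟨w, hw, rfl⟩ := hvert U hUq
    exact hord w hw hU hUq (fun U' hU' hU'q => hone U' hU' hU'q _ hU hUq)
  · have htop := hall i le_rfl
    exact h.t4er_regAt_glued hres hq hq1 i V hvert hcomap_top hcomap_low hG hqtop hunif_top 𝔫 hi
      htop (hall 0 (Nat.zero_le i)) (hsm _ htop ⟨htop.1, hqtop⟩)

end T4PresOver

end Fermat.Agent.T4
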