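/-
T4E-R (helper6), part 2: **the embedding `β^j : F_1 → F_{j+1}`** (`a_n f ↦ a_{n+j} f`) of the tower and
the restrictions of the vertical valuation rings of level `j + 1` to level `1`.

* `t4eBetaPow L N'' q j : F_1 →ₐ[L] F_{j+1}`, `coe_t4eBetaPow` (`g ↦ g(𝔮^{q^j})`),
  `t4eBetaPow_deg` (`β^j (a_n f) = a_{n+j} f`);
* `t4er_comap_betaPow` : for a chain of layers `Y` with links `K`, the valuation ring `V w` of level
  `j + 1` restricts along `β^j` to `V (w - j)` of level `1`: the top one to `V 1` (`= C¹_inf`), all the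
  others to `V 0` (`= C¹_0`);
* `T4eLayer.hunif_of_mult_one`, `T4eLayer.t4er_dec_q` : on a component of multiplicity one `q` is a
  uniformiser.
-/
import Fermat.Agent.Lib.T4E.Tower.Defs
import Fermat.Agent.Lib.T4E.Reg.Abs

set_option autoImplicit false
set_option linter.unusedSectionVars false
set_option linter.unusedVariables false
set_option linter.style.haveILetI false

open HahnSeries ModularCurve Fermat.Agent.T1 Fermat.Agent.T2

noncomputable section

namespace Fermat.Agent.T4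

section BetaPow

variable (L : Type*) [Field L] [Algebra ℚ L] (N'' q : ℕ) [NeZero N''] [NeZero q]

theorem t4e_qExpand_pow_mem : ∀ (j : ℕ) (x : LaurentSeries L), x ∈ TaF L (t4eLev N'' q 1) →
    qExpand L (q ^ j) x ∈ TaF L (t4eLev N'' q (j + 1))
  | 0, x, hx => by
    rw [qExpand_congr (pow_zero q) x, qExpand_one_apply]
    exact hx
  | j + 1, x, hx => by
    have h1 := t4e_qExpand_pow_mem j x hx
    have h2 := (heckeBetaBar L (t4eLev N'' q (j + 1)) q ⟨_, h1⟩).2
    rw [coe_heckeBetaBar, qExpand_qExpand] at h2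
    rw [qExpand_congr (show q ^ (j + 1) = q * q ^ j by rw [pow_succ, mul_comm]) x]
    exact h2

/-- the embedding `β^j : F_1 → F_{j+1}`, `g(𝔮) ↦ g(𝔮^{q^j})` (defined directly on `q`-expansions, so
that nothing has to be unfolded recursively) -/
def t4eBetaPow (j : ℕ) : ↥(TaF L (t4eLev N'' q 1)) →ₐ[L] ↥(TaF L (t4eLev N'' q (j + 1))) where
  toFun x := ⟨qExpand L (q ^ j) (x : LaurentSeries L), t4e_qExpand_pow_mem L N'' q j x x.2⟩
  map_one' := Subtype.ext (map_one (qExpand L (q ^ j)))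
  map_mul' _ _ := Subtype.ext (map_mul (qExpand L (q ^ j)) _ _)
  map_zero' := Subtype.ext (map_zero (qExpand L (q ^ j)))
  map_add' _ _ := Subtype.ext (map_add (qExpand L (q ^ j)) _ _)
  commutes' a := Subtype.ext <| by
    show qExpand L (q ^ j) (algebraMap L (LaurentSeries L) a) = algebraMap L (LaurentSeries L) a
    rw [algebraMap_laurentSeries_eq_single, qExpand_single, mul_zero]

/-- the `q`-expansion of `β^j g` is `g(𝔮^{q^j})` -/
@[simp] theorem coe_t4eBetaPow (j : ℕ) (g : ↥(TaF L (t4eLev N'' q 1))) :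
    ((t4eBetaPow L N'' q j g : ↥(TaF L (t4eLev N'' q (j + 1)))) : LaurentSeries L)
      = qExpand L (q ^ j) (g : LaurentSeries L) := rfl

theorem t4eBetaPow_zero_apply (g : ↥(TaF L (t4eLev N'' q 1))) :
    ((t4eBetaPow L N'' q 0 g : ↥(TaF L (t4eLev N'' q (0 + 1)))) : LaurentSeries L)
      = (g : LaurentSeries L) := by
  rw [coe_t4eBetaPow, qExpand_congr (pow_zero q) (g : LaurentSeries L), qExpand_one_apply]

theorem t4eBetaPow_succ_apply (j : ℕ) (g : ↥(TaF L (t4eLev N'' q 1))) :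
    t4eBetaPow L N'' q (j + 1) g =
      heckeBetaBar L (t4eLev N'' q (j + 1)) q (t4eBetaPow L N'' q j g) := by
  apply Subtype.ext
  rw [coe_heckeBetaBar, coe_t4eBetaPow, coe_t4eBetaPow, qExpand_qExpand]
  exact qExpand_congr (by rw [pow_succ, mul_comm]) _

/-- `β^j (a_n f) = a_{n+j} f` -/
theorem t4eBetaPow_deg (j n : ℕ) (hn : n ≤ 1) (f : ↥(TaF L N'')) :
    t4eBetaPow L N'' q j (t4eDeg L N'' q 1 n f) = t4eDeg L N'' q (j + 1) (n + j) f := by
  apply Subtype.ext
  rw [coe_t4eBetaPow, coe_t4eDeg L N'' q 1 n hn f, coe_t4eDeg L N'' q (j + 1) (n + j) (by omega) f,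
    qExpand_qExpand]
  exact qExpand_congr (by ring) _

end BetaPow

section Comap

variable {L : Type} [Field L] [Algebra ℚ L] {O : ValuationSubring L} {k : Type*} [Field k]
  {π : ↥O →+* k} [IsDiscreteValuationRing ↥O] {hπ : Function.Surjective π}
  {N'' q : ℕ} [NeZero N''] [NeZero q]

/-- **the restrictions along `β^j`**: the valuation ring `V w` of level `j + 1` restricts to
`V (w - j)` of level `1` -/
theorem t4er_mem_comap_betaPow_succ (j : ℕ)
    (V : ValuationSubring ↥(TaF L (t4eLev N'' q (j + 1 + 1)))) (x : ↥(TaF L (t4eLev N'' q 1))) :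
    x ∈ V.comap (t4eBetaPow L N'' q (j + 1)).toRingHom ↔
      x ∈ (V.comap (heckeBetaBar L (t4eLev N'' q (j + 1)) q).toRingHom).comap
        (t4eBetaPow L N'' q j).toRingHom := by
  refine ValuationSubring.mem_comap.trans (Iff.trans ?_
    (ValuationSubring.mem_comap.trans ValuationSubring.mem_comap).symm)
  have e' : (t4eBetaPow L N'' q (j + 1)).toRingHom x =
      (heckeBetaBar L (t4eLev N'' q (j + 1)) q).toRingHom ((t4eBetaPow L N'' q j).toRingHom x) :=
    t4eBetaPow_succ_apply L N'' q j x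
  exact Iff.of_eq (congrArg (fun y => y ∈ V) e')

theorem t4er_comap_betaPow_zero (V : ValuationSubring ↥(TaF L (t4eLev N'' q (0 + 1)))) :
    V.comap (t4eBetaPow L N'' q 0).toRingHom = V := by
  ext x
  refine ValuationSubring.mem_comap.trans ?_
  have e' : (t4eBetaPow L N'' q 0).toRingHom x = x :=
    Subtype.ext (t4eBetaPow_zero_apply L N'' q x)
  exact Iff.of_eq (congrArg (fun y => y ∈ V) e')

theorem t4er_comap_betaPow (Y : ∀ i : ℕ, T4eLayer O π hπ N'' q i)
    (K : ∀ i : ℕ, T4eLink (Y i) (Y (i + 1))) (j : ℕ) :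
    ∀ w : ℕ, w ≤ j + 1 →
      ((Y (j + 1)).V w).comap (t4eBetaPow L N'' q j).toRingHom = (Y 1).V (w - j) := by
  induction j with
  | zero =>
    intro w _
    rw [Nat.sub_zero]
    exact t4er_comap_betaPow_zero _
  | succ j ih =>
    intro w hw
    have h2 := ih (w - 1) (by omega)
    have h3 := (K (j + 1)).comap_β w hw
    have e : w - 1 - j = w - (j + 1) := by omega
    rw [← e, ← h2, ← h3]
    ext x
    exact t4er_mem_comap_betaPow_succ j _ x

theorem t4er_comap_betaPow_top (Y : ∀ i : ℕ, T4eLayer O π hπ N'' q i)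
    (K : ∀ i : ℕ, T4eLink (Y i) (Y (i + 1))) (j : ℕ) :
    ((Y (j + 1)).V (j + 1)).comap (t4eBetaPow L N'' q j).toRingHom = (Y 1).V 1 := by
  rw [t4er_comap_betaPow Y K j (j + 1) le_rfl]
  congr 1
  omega

theorem t4er_comap_betaPow_low (Y : ∀ i : ℕ, T4eLayer O π hπ N'' q i)
    (K : ∀ i : ℕ, T4eLink (Y i) (Y (i + 1))) (j w : ℕ) (hw : w < j + 1) :
    ((Y (j + 1)).V w).comap (t4eBetaPow L N'' q j).toRingHom = (Y 1).V 0 := by
  rw [t4er_comap_betaPow Y K j w hw.le]
  congr 1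
  omega

end Comap

/-! ### Components of multiplicity one -/

section Mult

variable {L : Type} [Field L] [Algebra ℚ L] {O : ValuationSubring L} {k : Type*} [Field k]
  {π : ↥O →+* k} [IsDiscreteValuationRing ↥O] {hπ : Function.Surjective π}
  {N'' q : ℕ} [NeZero N''] [NeZero q] {i : ℕ} (Y : T4eLayer O π hπ N'' q i)

theorem t4er_mult_top (q i : ℕ) : t4eMult q i i = 1 := by
  rw [t4eMult, Nat.sub_self, Nat.min_zero, pow_zero, Nat.totient_one]

theorem t4er_mult_zero (q i : ℕ) : t4eMult q i 0 = 1 := by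
  rw [t4eMult, Nat.zero_min, pow_zero, Nat.totient_one]

/-- the valuation of `q` on the component `w` -/
theorem T4eLayer.t4er_valuation_q {w : ℕ} (hw : w ≤ i) :
    (Y.V w).valuation ((q : ℕ) : ↥(TaF L (t4eLev N'' q i))) =
      (Y.V w).valuation (Y.ϖ w) ^ t4eMult q i w := by
  obtain ⟨u, hu, e⟩ := Y.q_eq w hw
  rw [e, map_mul, map_pow, hu, mul_one]

/-- on a component of multiplicity one every nonzero function is `q ^ n · unit` -/
theorem T4eLayer.t4er_dec_q {w : ℕ} (hw : w ≤ i) (hμ : t4eMult q i w = 1) :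
    ∀ f : ↥(TaF L (t4eLev N'' q i)), f ≠ 0 →
      ∃ (n : ℤ) (u : ↥(TaF L (t4eLev N'' q i))), (Y.V w).valuation u = 1 ∧
        f = ((q : ℕ) : ↥(TaF L (t4eLev N'' q i))) ^ n * u := by
  intro f hf
  obtain ⟨v, hv, e⟩ := Y.q_eq w hw
  rw [hμ, pow_one] at e
  obtain ⟨n, u, hu, ef⟩ := Y.ϖ_unif w hw f hf
  have hv0 : v ≠ 0 := by
    rintro rfl
    rw [map_zero] at hv
    exact zero_ne_one hv
  have hϖ : Y.ϖ w = ((q : ℕ) : ↥(TaF L (t4eLev N'' q i))) * v⁻¹ := by
    rw [e, mul_assoc, mul_inv_cancel₀ hv0, mul_one]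
  refine ⟨n, (v⁻¹) ^ n * u, ?_, ?_⟩
  · rw [map_mul, map_zpow₀, map_inv₀, hv, inv_one, one_zpow, one_mul, hu]
  · rw [ef, hϖ, mul_zpow, mul_assoc]

/-- on a component of multiplicity one `q` has valuation `< 1` -/
theorem T4eLayer.t4er_valuation_q_lt_one {w : ℕ} (hw : w ≤ i) :
    (Y.V w).valuation ((q : ℕ) : ↥(TaF L (t4eLev N'' q i))) < 1 := by
  rw [Y.t4er_valuation_q hw]
  have hpos : t4eMult q i w ≠ 0 := by
    rw [t4eMult]
    exact (Nat.totient_pos.mpr (pow_pos (Nat.pos_of_ne_zero (NeZero.ne q)) _)).ne'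
  exact pow_lt_one₀ zero_le (Y.ϖ_lt w hw) hpos

end Mult

end Fermat.Agent.T4
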