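/-
T4E-R (helper6), part 4: **`hreg` at level `i ≥ 2` (chart-independent, abstract layer)**.

`Y : T4eLayer O π hπ N'' q i` the vertical layer of level `i`, `P` a chart presentation of level `i`
with `P.vals = t4vpHor L y ∪ Y.ver`, `P0`, `P1` chart presentations of the levels `N''`, `N'' q` with
REG1 (`T4rmLow`, `T4rtRegG`, `T4rmRegM`), and a family of degeneracy embeddings
`γ s : F_1 → F_i`, `x ↦ x(𝔮^{q^s})` (`s + 1 ≤ i`), with `P` over `P1` along each of them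
(`T4erChain`).  Then every closed point of the special fibre of `P` is regular, given all-or-one
(helper5's `T4eAllAt`), (UNIT-ρ) (helper8's `T4eLayer.RhoUnit`) and the smoothness of the vertical
branches (R-sm).

* `T4erChain` : the hypotheses on the embeddings `γ s`;
* `T4erChain.pres_zero`, `T4erChain.deg_mem` : `P` over `P0` along `a_s`, and `a_n B₀ ⊆ B`;
* **`t4er_hreg`** : the field `hreg` of helper5's `T4eCChart`.
-/
import Fermat.Agent.Lib.T4E.Reg.Abs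
import Fermat.Agent.Lib.T4E.Reg.Tower
import Fermat.Agent.Lib.T4E.Reg.Comp
import Fermat.Agent.Lib.T4E.Reg.Ord
import Fermat.Agent.Lib.T4E.Local.Tower
import Fermat.Agent.Lib.T4E.Chart.ResK

set_option autoImplicit false
set_option linter.unusedSectionVars false
set_option linter.unusedVariables false
set_option linter.style.haveILetI false
set_option synthInstance.maxHeartbeats 400000

open HahnSeries ModularCurve Fermat.Agent.T1 Fermat.Agent.T2

noncomputable section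

namespace Fermat.Agent.T4

section Gen

variable {L : Type} [Field L] [Algebra ℚ L] {O : ValuationSubring L} {k : Type*} [Field k]
  {π : ↥O →+* k} [IsDiscreteValuationRing ↥O] {hπ : Function.Surjective π} [IsAlgClosed k]
  {N'' q : ℕ} [NeZero N''] [hq : Fact q.Prime] [CharP k q] {i : ℕ}

/-- **the chain hypotheses**: degeneracy embeddings `γ s : F_1 → F_i` (`x ↦ x(𝔮^{q^s})`,
`s + 1 ≤ i`) along which the chart presentation `P` of level `i` lies over the chart presentation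
`P1` of level one, with the restrictions of the vertical valuation rings -/
structure T4erChain (Y : T4eLayer O π hπ N'' q i) (W1 : T2iAL L N'' q)
    (P1 : T4Pres ↥(TaF L (N'' * q))) (P : T4Pres ↥(TaF L (t4eLev N'' q i)))
    (γ : ∀ s : ℕ, s + 1 ≤ i → (↥(TaF L (N'' * q)) →+* ↥(TaF L (t4eLev N'' q i)))) : Prop where
  pres : ∀ s (h : s + 1 ≤ i), @T4PresOver _ _ _ _ (γ s h).toAlgebra P1 P
  comap_vals : ∀ s (h : s + 1 ≤ i), ∀ V ∈ P.vals, V.comap (γ s h) ∈ P1.vals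
  map_alpha : ∀ s (h : s + 1 ≤ i) (f : ↥(TaF L N'')),
    γ s h (heckeAlphaBar L N'' q f) = t4eDeg L N'' q i s f
  map_beta : ∀ s (h : s + 1 ≤ i) (f : ↥(TaF L N'')),
    γ s h (heckeBetaBar L N'' q f) = t4eDeg L N'' q i (s + 1) f
  comap_hi : ∀ s (h : s + 1 ≤ i) w, w ≤ i → s < w →
    (Y.V w).comap (γ s h) = taOv O π hπ (N'' * q)
  comap_lo : ∀ s (h : s + 1 ≤ i) w, w ≤ s →
    (Y.V w).comap (γ s h) = t4rtO10 O π hπ W1

namespace T4erChain

variable {Y : T4eLayer O π hπ N'' q i} {W1 : T2iAL L N'' q}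
  {P1 : T4Pres ↥(TaF L (N'' * q))} {P : T4Pres ↥(TaF L (t4eLev N'' q i))}
  {γ : ∀ s : ℕ, s + 1 ≤ i → (↥(TaF L (N'' * q)) →+* ↥(TaF L (t4eLev N'' q i)))}
  (C : T4erChain Y W1 P1 P γ)

include C in
/-- `P` lies over `P0` along `a_s` (`s + 1 ≤ i`) -/
theorem pres_zero {P0 : T4Pres ↥(TaF L N'')}
    (hA0 : @T4PresOver _ _ _ _ (t2iAlgebra L N'' q) P0 P1) (s : ℕ) (h : s + 1 ≤ i)
    (A : Algebra ↥(TaF L N'') ↥(TaF L (t4eLev N'' q i)))
    (hA : ∀ f, @algebraMap _ _ _ _ A f = t4eDeg L N'' q i s f) :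
    @T4PresOver _ _ _ _ A P0 P :=
  T4PresOver.t4er_trans (t2iAlgebra L N'' q) (γ s h).toAlgebra A
    (fun x => by rw [hA]; exact (C.map_alpha s h x).symm) hA0 (C.pres s h)

include C in
/-- `a_n B₀ ⊆ B` for `1 ≤ n ≤ i` -/
theorem deg_mem {P0 : T4Pres ↥(TaF L N'')}
    (hB0 : ∀ b ∈ P0.B, heckeBetaBar L N'' q b ∈ P1.B) {n : ℕ} (hn1 : 1 ≤ n) (hn : n ≤ i)
    {b : ↥(TaF L N'')} (hb : b ∈ P0.B) : t4eDeg L N'' q i n b ∈ P.B := by
  obtain ⟨s, rfl⟩ : ∃ s, n = s + 1 := ⟨n - 1, by omega⟩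
  rw [← C.map_beta s hn b]
  exact @T4PresOver.map_mem _ _ _ _ (γ s hn).toAlgebra P1 P (C.pres s hn) _ (hB0 b hb)

end T4erChain

variable {W1 : T2iAL L N'' q} (hqO : Irreducible ((q : ℕ) : ↥O))
  (Y : T4eLayer O π hπ N'' q i)

include hqO in
/-- **`hreg`**: every closed point of the special fibre of a chart presentation of level `i ≥ 2` is
regular -/
theorem t4er_hreg (hi : 2 ≤ i)
    {x' : ↥(TaF L N'')} {x1 : ↥(TaF L (N'' * q))} {y : ↥(TaF L (t4eLev N'' q i))}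
    {P0 : T4Pres ↥(TaF L N'')} {P1 : T4Pres ↥(TaF L (N'' * q))}
    {P : T4Pres ↥(TaF L (t4eLev N'' q i))}
    (T' : T4rmLow O π hπ x' P0 P1) (vals1 : P1.vals = t4vpHor L x1 ∪ t4rtVer1 O π hπ W1)
    (hG : T4rtRegG O π hπ W1 P1) (hM : T4rmRegM O π hπ W1 P0 P1 T'.overA')
    (hvals : P.vals = t4vpHor L y ∪ Y.ver)
    {γ : ∀ s : ℕ, s + 1 ≤ i → (↥(TaF L (N'' * q)) →+* ↥(TaF L (t4eLev N'' q i)))}
    (C : T4erChain Y W1 P1 P γ)
    (hρ : ∀ w, w ≤ i → 1 ≤ min w (i - w) → Y.RhoUnit w)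
    (hAll : T4eAllAt P i Y.V)
    (hqB : ((q : ℕ) : ↥(TaF L (t4eLev N'' q i))) ∈ P.B)
    (𝔫 : Ideal P.B) [h𝔫 : 𝔫.IsMaximal]
    (hq𝔫 : (⟨((q : ℕ) : ↥(TaF L (t4eLev N'' q i))), hqB⟩ : P.B) ∈ 𝔫)
    (hsm : ∀ (U : ValuationSubring ↥(TaF L (t4eLev N'' q i))) (hU : U ∈ P.through 𝔫),
      U ∈ P.vert ((q : ℕ) : ↥(TaF L (t4eLev N'' q i))) → P.SmoothAt 𝔫 U hU) : P.RegAt 𝔫 := by
  have hvert : ∀ U, U ∈ P.vert ((q : ℕ) : ↥(TaF L (t4eLev N'' q i))) → ∃ w ≤ i, U = Y.V w := by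
    intro U hU
    have h1 := t4ecr_vert Y P hvals
    rw [map_natCast] at h1
    rw [h1] at hU
    exact hU
  have hi1 : i - 1 + 1 ≤ i := by omega
  letI : Algebra ↥(TaF L (N'' * q)) ↥(TaF L (t4eLev N'' q i)) := (γ (i - 1) hi1).toAlgebra
  have hqtop : (Y.V i).valuation ((q : ℕ) : ↥(TaF L (t4eLev N'' q i))) < 1 :=
    Y.t4er_valuation_q_lt_one le_rfl
  refine (C.pres (i - 1) hi1).t4er_regAt (C.comap_vals (i - 1) hi1) hqB (t4ero_q_ne_zero)
    (q1 := ((q : ℕ) : ↥(TaF L (N'' * q)))) (map_natCast _ q) i Y.V hvert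
    (C.comap_hi (i - 1) hi1 i le_rfl (by omega))
    (fun w hw => C.comap_lo (i - 1) hi1 w (by omega)) hG hqtop
    (t4er_hunif (Y.V i) hqtop (Y.t4er_dec_q le_rfl (t4er_mult_top q i))) 𝔫 hq𝔫 ?_ hsm ?_
  · by_cases h : ∃ a b, a ≤ i ∧ b ≤ i ∧ a ≠ b ∧ Y.V a ∈ P.through 𝔫 ∧ Y.V b ∈ P.through 𝔫
    · obtain ⟨a, b, ha, hb, hab, hVa, hVb⟩ := h
      exact Or.inr ⟨by omega, fun w hw => hAll.all 𝔫 h𝔫 a b ha hb hab hVa hVb w hw⟩
    · refine Or.inl fun U hU hUq U' hU' hU'q => ?_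
      obtain ⟨a, ha, rfl⟩ := hvert U hUq
      obtain ⟨b, hb, rfl⟩ := hvert U' hU'q
      by_contra hne
      exact h ⟨a, b, ha, hb, fun hab => hne (by rw [hab]), hU, hU'⟩
  · intro w hw hV hVq honly
    by_cases hc : 1 ≤ min w (i - w)
    · -- a middle component
      have hj : w - min w (i - w) + 1 ≤ i := by omega
      exact t4ero_regAt_of_over hqO (hρ w hw hc) hw hc T' vals1 hG hM
        (t4eDeg L N'' q i (w - min w (i - w))).toRingHom.toAlgebra (fun f => rfl)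
        (C.pres_zero T'.overA' _ hj _ (fun f => rfl))
        (fun b hb => C.deg_mem T'.mapB' (by omega) (by omega) hb)
        (γ (w - min w (i - w)) hj).toAlgebra (C.map_alpha _ hj) (C.pres _ hj) (C.comap_vals _ hj)
        (C.comap_hi _ hj w hw (by omega)) hqB 𝔫 hV honly (hsm _ hV hVq)
    · -- multiplicity one
      have hμ : t4eMult q i w = 1 := by
        have h0 : min w (i - w) = 0 := by omega
        rw [t4eMult, h0, pow_zero, Nat.totient_one]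
      exact P.t4er_regAt_single hqB hV (Y.t4er_valuation_q_lt_one hw) (Y.t4er_dec_q hw hμ)
        honly (hsm _ hV hVq)

end Gen

end Fermat.Agent.T4
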