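/-
T4E-R (helper6), part 6: **the chain hypotheses `T4erChain` of `Reg/Hreg.lean` from the tower of chart
presentations** (`T4erStep` at every level `m ≥ 1`, helper2's `Chart/Over.lean`) and helper1's
restriction lemmas `t4egm_comap_top`, `t4egm_comap_bot` for the layers `Yi` (level `i`), `Y1` (level
one), with the embeddings `γ s := t4eGamTo L (j := 1) (_ : 1 + s ≤ i)`.

* `t4erGam L N'' q i s h : F_1 →+* F_i`;
* **`t4er_chain_of_steps`** : `T4erChain Yi W1 (Pm 1) (Pm i) (t4erGam L N'' q i)`;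
* **`t4er_hreg_of_steps`** : `hreg` for `Pm i` (`i ≥ 2`).
-/
import Fermat.Agent.Lib.T4E.Reg.Hreg
import Fermat.Agent.Lib.T4E.Reg.Chain

set_option autoImplicit false
set_option linter.unusedSectionVars false
set_option linter.unusedVariables false
set_option linter.style.haveILetI false
set_option synthInstance.maxHeartbeats 400000

open HahnSeries ModularCurve Fermat.Agent.T1 Fermat.Agent.T2

noncomputable section

namespace Fermat.Agent.T4

section Gen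

variable {L : Type} [Field L] [Algebra ℚ L] {O : ValuationSubring L} {k : Type*} [Field k]
  {π : ↥O →+* k} [IsDiscreteValuationRing ↥O] {hπ : Function.Surjective π} [IsAlgClosed k]
  {N'' q : ℕ} [NeZero N''] [hq : Fact q.Prime] [CharP k q] {i : ℕ}

/-- the degeneracy embeddings `F_1 → F_i`, `x ↦ x(𝔮^{q^s})` -/
def t4erGam (L : Type) [Field L] [Algebra ℚ L] (N'' q i : ℕ) [NeZero N''] [NeZero q] (s : ℕ)
    (h : s + 1 ≤ i) : ↥(TaF L (N'' * q)) →+* ↥(TaF L (t4eLev N'' q i)) :=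
  (t4eGamTo L (N'' := N'') (q := q) (j := 1) (show 1 + s ≤ i by omega)).toRingHom

theorem t4erGam_apply (s : ℕ) (h : s + 1 ≤ i) (x : ↥(TaF L (N'' * q))) :
    t4erGam L N'' q i s h x =
      t4eGamTo L (N'' := N'') (q := q) (j := 1) (show 1 + s ≤ i by omega) x := rfl

/-- **the chain hypotheses from the tower of chart presentations** -/
theorem t4er_chain_of_steps (Yi : T4eLayer O π hπ N'' q i) (Y1 : T4eLayer O π hπ N'' q 1)
    {W1 : T2iAL L N'' q} (hV0 : Y1.V 0 = t4rtO10 O π hπ W1)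
    {Pm : ∀ m : ℕ, T4Pres ↥(TaF L (t4eLev N'' q m))} (hstep : ∀ m, 1 ≤ m → T4erStep Pm m) :
    T4erChain Yi W1 (Pm 1) (Pm i) (t4erGam L N'' q i) where
  pres := fun s h => (t4er_chain 1 hstep i s (by omega)).1
  comap_vals := fun s h => (t4er_chain 1 hstep i s (by omega)).2
  map_alpha := fun s h f => t4eGamTo_one_alpha (show 1 + s ≤ i by omega) f
  map_beta := fun s h f => t4eGamTo_one_beta (show 1 + s ≤ i by omega) f
  comap_hi := fun s h w hw hsw =>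
    t4egm_comap_top Yi Y1 (show 1 + s ≤ i by omega) hw (by omega)
  comap_lo := fun s h w hws =>
    (t4egm_comap_bot Yi Y1 (show 1 + s ≤ i by omega) (by omega) hws).trans hV0

variable {W1 : T2iAL L N'' q} (hqO : Irreducible ((q : ℕ) : ↥O))

include hqO in
/-- **`hreg` for the level `i ≥ 2` of a tower of chart presentations** -/
theorem t4er_hreg_of_steps (hi : 2 ≤ i) (Yi : T4eLayer O π hπ N'' q i)
    (Y1 : T4eLayer O π hπ N'' q 1) (hV0 : Y1.V 0 = t4rtO10 O π hπ W1)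
    {Pm : ∀ m : ℕ, T4Pres ↥(TaF L (t4eLev N'' q m))} (hstep : ∀ m, 1 ≤ m → T4erStep Pm m)
    {x' : ↥(TaF L N'')} {x1 : ↥(TaF L (N'' * q))} {y : ↥(TaF L (t4eLev N'' q i))}
    {P0 : T4Pres ↥(TaF L N'')}
    (T' : T4rmLow O π hπ x' P0 (Pm 1))
    (vals1 : (Pm 1).vals = t4vpHor L x1 ∪ t4rtVer1 O π hπ W1)
    (hG : T4rtRegG O π hπ W1 (Pm 1)) (hM : T4rmRegM O π hπ W1 P0 (Pm 1) T'.overA')
    (hvals : (Pm i).vals = t4vpHor L y ∪ Yi.ver)
    (hρ : ∀ w, w ≤ i → 1 ≤ min w (i - w) → Yi.RhoUnit w)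
    (hAll : T4eAllAt (Pm i) i Yi.V)
    (hqB : ((q : ℕ) : ↥(TaF L (t4eLev N'' q i))) ∈ (Pm i).B)
    (𝔫 : Ideal (Pm i).B) [h𝔫 : 𝔫.IsMaximal]
    (hq𝔫 : (⟨((q : ℕ) : ↥(TaF L (t4eLev N'' q i))), hqB⟩ : (Pm i).B) ∈ 𝔫)
    (hsm : ∀ (U : ValuationSubring ↥(TaF L (t4eLev N'' q i))) (hU : U ∈ (Pm i).through 𝔫),
      U ∈ (Pm i).vert ((q : ℕ) : ↥(TaF L (t4eLev N'' q i))) → (Pm i).SmoothAt 𝔫 U hU) :
    (Pm i).RegAt 𝔫 :=
  t4er_hreg hqO Yi hi T' vals1 hG hM hvals (t4er_chain_of_steps Yi Y1 hV0 hstep) hρ hAll hqB 𝔫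
    hq𝔫 hsm

end Gen

end Fermat.Agent.T4
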