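/-
T4E / P7 REG (lead): **the level-one dictionary** between the layer `Y1 = t4efLayer 𝔓 N'' h 1` of the
tower (`Lib/T4E/Tower/FixData.lean`) and main's level-`N'' p` objects carrying REG1-G / REG1-M
(`t4rtO10`, `t4vwVer1`, `t4rLevFixPres1`, `t4rgf_regG0`):

* `t4erl_w_eq` : the Atkin–Lehner involution `(t4efAL 𝔓 N'' h 1).w` is `(t2iALFix 𝔓 ⊤ N'' h).w`;
* `t4erl_V_one` : `Y1.V 1 = taOv … (N'' * p)`; `t4erl_V_zero` : `Y1.V 0 = t4rtO10 … W1`;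
* `t4erl_ver` : `Y1.ver = t4vwVer1 … W1` (`= t4rtVer1 … W1`);
* `t4erl_vals`, `t4erl_mem_B` : `t4rLevFixPres1` in layer language;
* **`t4erl_node`** : `T4erNode (t4rLevFixPres1 𝔓 N'' h hQ) p (Y1.V 1) (Y1.V 0)` (REG1-G).
-/
import Fermat.Agent.Lib.T4E.Tower.FixData
import Fermat.Agent.Lib.T4E.Reg.Abs
import Fermat.Agent.Lib.T4E.Chart.Coord
import Fermat.Agent.Lib.T4.Reg.LevFixOut

set_option autoImplicit false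
set_option linter.unusedSectionVars false
set_option linter.unusedVariables false
set_option linter.style.haveILetI false
set_option synthInstance.maxHeartbeats 400000

namespace Fermat.Agent.T4

open Fermat.Agent.S24Lib Fermat.Agent.T1 Fermat.Agent.T1.KMod Fermat.Agent.T2
open ModularCurve HahnSeries Fermat.Agent.TW Fermat.Agent.S05Lib

local notation "Qb" => AlgebraicClosure ℚ

noncomputable section

section Fix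

attribute [local instance] t2i_dvr t2i_isAlgClosed t2i_charP t2i_fact

variable (𝔓 : FFPlace) (N'' : ℕ) [NeZero N''] (h : ¬ 𝔓.p ∣ N'')

/-- the Atkin–Lehner involution of level one of the tower is the one of `T2` -/
theorem t4erl_w_eq :
    ((t4efAL 𝔓 N'' h 1).w : ↥(TaF ↥(tbFix 𝔓 (⊤ : Subgroup 𝔓.I)) (t4eLev N'' 𝔓.p 1)) →+*
        ↥(TaF ↥(tbFix 𝔓 (⊤ : Subgroup 𝔓.I)) (t4eLev N'' 𝔓.p 1)))
      = ((t2iALFix 𝔓 ⊤ N'' h).w : ↥(TaF ↥(tbFix 𝔓 (⊤ : Subgroup 𝔓.I)) (N'' * 𝔓.p)) →+*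
        ↥(TaF ↥(tbFix 𝔓 (⊤ : Subgroup 𝔓.I)) (N'' * 𝔓.p))) := by
  apply t4e_ringHom_ext ↥(tbFix 𝔓 (⊤ : Subgroup 𝔓.I)) N'' 𝔓.p 𝔓.hp 1
  · intro c
    show (t4efAL 𝔓 N'' h 1).w (algebraMap _ _ c) = (t2iALFix 𝔓 ⊤ N'' h).w (algebraMap _ _ c)
    rw [AlgEquiv.commutes, AlgEquiv.commutes]
    rfl
  · intro n hn f
    show (t4efAL 𝔓 N'' h 1).w (t4eDeg _ N'' 𝔓.p 1 n f) = (t2iALFix 𝔓 ⊤ N'' h).w (t4eDeg _ N'' 𝔓.p 1 n f)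
    rw [(t4efAL 𝔓 N'' h 1).w_a n hn f]
    obtain rfl | rfl : n = 0 ∨ n = 1 := by omega
    · have h0 : t4eDeg ↥(tbFix 𝔓 (⊤ : Subgroup 𝔓.I)) N'' 𝔓.p 1 0 f
          = heckeAlphaBar ↥(tbFix 𝔓 (⊤ : Subgroup 𝔓.I)) N'' 𝔓.p f := by
        rw [t4eDeg_succ_of_le _ N'' 𝔓.p (le_refl 0) f]
        rfl
      have h1 : t4eDeg ↥(tbFix 𝔓 (⊤ : Subgroup 𝔓.I)) N'' 𝔓.p 1 (1 - 0) f
          = heckeBetaBar ↥(tbFix 𝔓 (⊤ : Subgroup 𝔓.I)) N'' 𝔓.p f := by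
        rw [Nat.sub_zero, t4eDeg_succ_self _ N'' 𝔓.p 0 f]
        rfl
      rw [h0, h1, (t2iALFix 𝔓 ⊤ N'' h).w_alpha]
    · have h0 : t4eDeg ↥(tbFix 𝔓 (⊤ : Subgroup 𝔓.I)) N'' 𝔓.p 1 (1 - 1) f
          = heckeAlphaBar ↥(tbFix 𝔓 (⊤ : Subgroup 𝔓.I)) N'' 𝔓.p f := by
        rw [Nat.sub_self, t4eDeg_succ_of_le _ N'' 𝔓.p (le_refl 0) f]
        rfl
      have h1 : t4eDeg ↥(tbFix 𝔓 (⊤ : Subgroup 𝔓.I)) N'' 𝔓.p 1 1 f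
          = heckeBetaBar ↥(tbFix 𝔓 (⊤ : Subgroup 𝔓.I)) N'' 𝔓.p f := by
        rw [t4eDeg_succ_self _ N'' 𝔓.p 0 f]
        rfl
      rw [h0, h1, (t2iALFix 𝔓 ⊤ N'' h).w_beta]

/-- the top component of level one is the Gauss valuation ring -/
theorem t4erl_V_one :
    (t4efLayer 𝔓 N'' h 1 le_rfl).V 1
      = taOv (tbFixO 𝔓 ⊤) (tbFixRes 𝔓 ⊤) (tbFixRes_surjective 𝔓 ⊤) (N'' * 𝔓.p) :=
  (t4efLayer 𝔓 N'' h 1 le_rfl).V_top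

/-- the bottom component of level one is `O¹_0` -/
theorem t4erl_V_zero :
    (t4efLayer 𝔓 N'' h 1 le_rfl).V 0
      = t4rtO10 (tbFixO 𝔓 ⊤) (tbFixRes 𝔓 ⊤) (tbFixRes_surjective 𝔓 ⊤) (t2iALFix 𝔓 ⊤ N'' h) := by
  have h1 := (t4ef_sym 𝔓 N'' h 1 le_rfl).comap_w 1 le_rfl
  rw [Nat.sub_self] at h1
  rw [← h1, t4erl_V_one, t4erl_w_eq]
  rfl

/-- the vertical valuation rings of level one -/
theorem t4erl_ver :
    (t4efLayer 𝔓 N'' h 1 le_rfl).ver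
      = t4vwVer1 (tbFixO 𝔓 ⊤) (tbFixRes 𝔓 ⊤) (tbFixRes_surjective 𝔓 ⊤) (t2iALFix 𝔓 ⊤ N'' h) := by
  ext V
  constructor
  · rintro ⟨w, hw, rfl⟩
    obtain rfl | rfl : w = 0 ∨ w = 1 := by omega
    · exact (mem_t4vwVer1 _ _ _ _ _).mpr (Or.inr (t4erl_V_zero 𝔓 N'' h))
    · exact (mem_t4vwVer1 _ _ _ _ _).mpr (Or.inl (t4erl_V_one 𝔓 N'' h))
  · intro hV
    rcases (mem_t4vwVer1 _ _ _ _ V).mp hV with hV | hV
    · exact ⟨1, le_rfl, hV.trans (t4erl_V_one 𝔓 N'' h).symm⟩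
    · exact ⟨0, Nat.zero_le 1, hV.trans (t4erl_V_zero 𝔓 N'' h).symm⟩

variable {Q : ℕ} (hQ : 2 ≤ Q)

/-- the chart of level one -/
theorem t4erl_X :
    t4ecX ↥(tbFix 𝔓 (⊤ : Subgroup 𝔓.I)) N'' 𝔓.p 1 Q
      = t4ri1X ↥(tbFix 𝔓 (⊤ : Subgroup 𝔓.I)) (N'' * 𝔓.p) Q := rfl

/-- the valuation rings of main's level-`N'' p` presentation, in layer language -/
theorem t4erl_vals :
    (t4rLevFixPres1 𝔓 N'' h hQ).vals =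
      t4vpHor ↥(tbFix 𝔓 (⊤ : Subgroup 𝔓.I)) (t4ecX ↥(tbFix 𝔓 (⊤ : Subgroup 𝔓.I)) N'' 𝔓.p 1 Q) ∪
        (t4efLayer 𝔓 N'' h 1 le_rfl).ver := by
  rw [t4erl_ver, t4erl_X]
  exact t4rLevFixPres1_vals 𝔓 N'' h hQ

/-- the ring of main's level-`N'' p` presentation, in layer language -/
theorem t4erl_mem_B (f : ↥(TaF ↥(tbFix 𝔓 (⊤ : Subgroup 𝔓.I)) (t4eLev N'' 𝔓.p 1))) :
    f ∈ (t4rLevFixPres1 𝔓 N'' h hQ).B ↔
      f ∈ t2Int (K := ↥(tbFix 𝔓 (⊤ : Subgroup 𝔓.I)))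
        (t4ecX ↥(tbFix 𝔓 (⊤ : Subgroup 𝔓.I)) N'' 𝔓.p 1 Q) ∧
      f ∈ (t4efLayer 𝔓 N'' h 1 le_rfl).Ov := by
  have h1 := mem_t4rLevFixPres1_B 𝔓 N'' h hQ f
  rw [mem_Ov1_iff_forall_t4vwVer1] at h1
  refine h1.trans (and_congr Iff.rfl ?_)
  constructor
  · intro hf w hw
    refine hf _ ?_
    rw [← t4erl_ver]
    exact ⟨w, hw, rfl⟩
  · intro hf V hV
    rw [← t4erl_ver] at hV
    obtain ⟨w, hw, rfl⟩ := hV
    exact hf w hw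

variable (h49 : 4 ∣ N'' ∨ 9 ∣ N'')

include h49 in
/-- **REG1-G in layer language**: a closed point of level one through which both components pass is
a node -/
theorem t4erl_node :
    T4PresOver.T4erNode (t4rLevFixPres1 𝔓 N'' h hQ)
      (((𝔓.p : ℕ) : ↥(TaF ↥(tbFix 𝔓 (⊤ : Subgroup 𝔓.I)) (t4eLev N'' 𝔓.p 1))))
      ((t4efLayer 𝔓 N'' h 1 le_rfl).V 1) ((t4efLayer 𝔓 N'' h 1 le_rfl).V 0) := by
  rw [t4erl_V_one, t4erl_V_zero]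
  exact t4rgf_regG0 𝔓 N'' h hQ h49

end Fix

end

end Fermat.Agent.T4
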