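/-
T4E-R (helper6), part 7: **`hreg` on chart 1 at the inertia (Fix) level**, every level `i ≥ 2`.

`Pm m` a tower of chart presentations (`m ≥ 1`) with `Pm 1` main's level-one presentation
`t4rLevFixPres1 𝔓 N'' h hQ` (the carrier of REG1-G / REG1-M / `T4rmLow`) and `T4erStep Pm m` for every
`m ≥ 1`.  Then every closed point of the special fibre of `Pm i` is regular, given all-or-one at
level `i` and the smoothness of the vertical branches.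

* `t4erf_rhoUnit` : (UNIT-ρ) for the layers `t4efLayer 𝔓 N'' h i hi`;
* `t4erf_lev1` : the REG1 package for any `P1 = t4rLevFixPres1 𝔓 N'' h hQ`;
* **`t4erf_hreg`** : the field `hreg` of `T4eCChart` on chart 1.
-/
import Fermat.Agent.Lib.T4E.Reg.ChainLayer
import Fermat.Agent.Lib.T4E.Reg.Lev1
import Fermat.Agent.Lib.T4E.Tower.RhoUnit

set_option autoImplicit false
set_option linter.unusedSectionVars false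
set_option linter.unusedVariables false
set_option linter.style.haveILetI false
set_option synthInstance.maxHeartbeats 400000

namespace Fermat.Agent.T4

open Fermat.Agent.S24Lib Fermat.Agent.T1 Fermat.Agent.T1.KMod Fermat.Agent.T2
open ModularCurve HahnSeries Fermat.Agent.TW Fermat.Agent.S05Lib

local notation "Qb" => AlgebraicClosure ℚ

noncomputable section

section Fix

attribute [local instance] t2i_dvr t2i_isAlgClosed t2i_charP t2i_fact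

variable (𝔓 : FFPlace) (N'' : ℕ) [NeZero N''] (h : ¬ 𝔓.p ∣ N'')

/-- **(UNIT-ρ) for the layers at the inertia level** -/
theorem t4erf_rhoUnit (i : ℕ) (hi : 1 ≤ i) (w : ℕ) (hw : w ≤ i) (hc : 1 ≤ min w (i - w)) :
    (t4efLayer 𝔓 N'' h i hi).RhoUnit w :=
  t4eLayerOf_rhoUnit (tbFixRes_surjective 𝔓 (⊤ : Subgroup 𝔓.I)) (t4cy_irreducible_p 𝔓)
    (t2i_natCast_ne_zero 𝔓 h) h (t4efAL 𝔓 N'' h) (t4efRc 𝔓 N'' h)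
    (fun a b hb1 hba =>
      letI := t4cyAlgebra 𝔓 (le_top : t4cyH 𝔓 (t4efZeta 𝔓 b) ≤ ⊤)
      t4eRecCusp_rhoUnit (tbFixRes_surjective 𝔓 (⊤ : Subgroup 𝔓.I))
        (t4eCycFix 𝔓 (Nat.one_le_iff_ne_zero.mp hb1) (t4efZeta_spec 𝔓 b)) hb1 hba
        (t4eCuspCycFix 𝔓 N'' h a b hba hb1 (t4efZeta_spec 𝔓 b)))
    (fun a b hb1 hba =>
      letI := t4cyAlgebra 𝔓 (le_top : t4cyH 𝔓 (t4efZeta 𝔓 b) ≤ ⊤)
      t4eRecCusp_flip_rhoUnit (tbFixRes_surjective 𝔓 (⊤ : Subgroup 𝔓.I))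
        (t4eCycFix 𝔓 (Nat.one_le_iff_ne_zero.mp hb1) (t4efZeta_spec 𝔓 b)) hb1 hba
        (t4eCuspCycFix 𝔓 N'' h a b hba hb1 (t4efZeta_spec 𝔓 b)) (t4efAL 𝔓 N'' h (a + b)))
    i hi w hw hc

variable {Q : ℕ} (hQ : 2 ≤ Q) (h49 : 4 ∣ N'' ∨ 9 ∣ N'')

include h49 in
/-- the REG1 package for a presentation identified with main's level-one presentation -/
theorem t4erf_lev1 {P1 : T4Pres ↥(TaF ↥(tbFix 𝔓 (⊤ : Subgroup 𝔓.I)) (N'' * 𝔓.p))}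
    (hP1 : P1 = t4rLevFixPres1 𝔓 N'' h hQ) :
    ∃ T' : T4rmLow (tbFixO 𝔓 ⊤) (tbFixRes 𝔓 ⊤) (tbFixRes_surjective 𝔓 ⊤)
        (t4ri1X ↥(tbFix 𝔓 (⊤ : Subgroup 𝔓.I)) N'' Q) (t4rLevFixP' 𝔓 N'' hQ) P1,
      P1.vals = t4vpHor ↥(tbFix 𝔓 (⊤ : Subgroup 𝔓.I))
          (t4ri1X ↥(tbFix 𝔓 (⊤ : Subgroup 𝔓.I)) (N'' * 𝔓.p) Q) ∪
        t4rtVer1 (tbFixO 𝔓 ⊤) (tbFixRes 𝔓 ⊤) (tbFixRes_surjective 𝔓 ⊤) (t2iALFix 𝔓 ⊤ N'' h) ∧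
      T4rtRegG (tbFixO 𝔓 ⊤) (tbFixRes 𝔓 ⊤) (tbFixRes_surjective 𝔓 ⊤) (t2iALFix 𝔓 ⊤ N'' h) P1 ∧
      T4rmRegM (tbFixO 𝔓 ⊤) (tbFixRes 𝔓 ⊤) (tbFixRes_surjective 𝔓 ⊤) (t2iALFix 𝔓 ⊤ N'' h)
        (t4rLevFixP' 𝔓 N'' hQ) P1 T'.overA' := by
  subst hP1
  exact ⟨t4rgf_low0 𝔓 N'' h hQ h49, t4rLevFixPres1_vals 𝔓 N'' h hQ, t4rgf_regG0 𝔓 N'' h hQ h49,
    t4rgf_regM0 𝔓 N'' h hQ h49⟩

include h49 in
/-- **`hreg` on chart 1 at the inertia level**, every level `i ≥ 2` -/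
theorem t4erf_hreg (i : ℕ) (hi : 2 ≤ i)
    {Pm : ∀ m : ℕ, T4Pres ↥(TaF ↥(tbFix 𝔓 (⊤ : Subgroup 𝔓.I)) (t4eLev N'' 𝔓.p m))}
    (hP1 : Pm 1 = t4rLevFixPres1 𝔓 N'' h hQ) (hstep : ∀ m, 1 ≤ m → T4erStep Pm m)
    {y : ↥(TaF ↥(tbFix 𝔓 (⊤ : Subgroup 𝔓.I)) (t4eLev N'' 𝔓.p i))}
    (hvals : (Pm i).vals = t4vpHor ↥(tbFix 𝔓 (⊤ : Subgroup 𝔓.I)) y ∪
      (t4efLayer 𝔓 N'' h i (by omega)).ver)
    (hAll : T4eAllAt (Pm i) i (t4efLayer 𝔓 N'' h i (by omega)).V)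
    (hqB : ((𝔓.p : ℕ) : ↥(TaF ↥(tbFix 𝔓 (⊤ : Subgroup 𝔓.I)) (t4eLev N'' 𝔓.p i))) ∈ (Pm i).B)
    (𝔫 : Ideal (Pm i).B) [h𝔫 : 𝔫.IsMaximal]
    (hq𝔫 : (⟨((𝔓.p : ℕ) : ↥(TaF ↥(tbFix 𝔓 (⊤ : Subgroup 𝔓.I)) (t4eLev N'' 𝔓.p i))), hqB⟩ :
      (Pm i).B) ∈ 𝔫)
    (hsm : ∀ (U : ValuationSubring ↥(TaF ↥(tbFix 𝔓 (⊤ : Subgroup 𝔓.I)) (t4eLev N'' 𝔓.p i)))
      (hU : U ∈ (Pm i).through 𝔫),
      U ∈ (Pm i).vert ((𝔓.p : ℕ) : ↥(TaF ↥(tbFix 𝔓 (⊤ : Subgroup 𝔓.I)) (t4eLev N'' 𝔓.p i))) →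
        (Pm i).SmoothAt 𝔫 U hU) : (Pm i).RegAt 𝔫 := by
  obtain ⟨T', vals1, hG, hM⟩ := t4erf_lev1 𝔓 N'' h hQ h49 hP1
  exact t4er_hreg_of_steps (t4cy_irreducible_p 𝔓) hi (t4efLayer 𝔓 N'' h i (by omega))
    (t4efLayer 𝔓 N'' h 1 le_rfl) (t4erl_V_zero 𝔓 N'' h) hstep T' vals1 hG hM hvals
    (fun w hw hc => t4erf_rhoUnit 𝔓 N'' h i (by omega) w hw hc) hAll hqB 𝔫 hq𝔫 hsm

end Fix

end

end Fermat.Agent.T4
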