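/-
T4E, package P7b (helper8): **`hreg` on chart 2 at the inertia (Fix) level**, every level `i ≥ 1`:
the application of `t4erc_hreg_chart2` (`Reg/Chart2.lean`) to the layers `t4efLayer 𝔓 N'' h i hi`,
chart `X_i⁻¹`, `X_i = j^(p·p) - j`, with

* `hone` = lead's `t4es2_hone_fix`, `hsm` = helper3's `t4eck_hsm_X_inv_fix`, `hres` = helper3's
  `t4ecr_resField_X_inv_fix`, (UNIT-ρ) = helper6's `t4erf_rhoUnit` (helper9's `t4eLayerOf_rhoUnit`),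
  `hT1`, `hT1'` = `t4erc_hT1_fix`, `t4erc_hT1'_fix`, `hG` = `t4rcGs_mem_fix`.

The only remaining input is `hreg` on chart 1 (`hreg₁`, helper6's `t4erf_hreg`), for any
presentation `P` of chart 1 with the `hvals` dictionary.
-/
import Fermat.Agent.Lib.T4E.Reg.Chart2
import Fermat.Agent.Lib.T4E.Reg.CuspIntFix
import Fermat.Agent.Lib.T4E.Reg.HregFix
import Fermat.Agent.Lib.T4E.Chart.K2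
import Fermat.Agent.Lib.T4E.Chart.Sep2Fix
import Fermat.Agent.Lib.T4.Reg.CuspFix

set_option autoImplicit false
set_option linter.unusedSectionVars false
set_option linter.unusedVariables false
set_option linter.style.haveILetI false
set_option synthInstance.maxHeartbeats 400000

namespace Fermat.Agent.T4

open Fermat.Agent.S24Lib Fermat.Agent.T1 Fermat.Agent.T1.KMod Fermat.Agent.T2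
open ModularCurve HahnSeries Fermat.Agent.TW Fermat.Agent.S05Lib

local notation "Qb" => AlgebraicClosure ℚ

noncomputable section

section Fix

attribute [local instance] t2i_dvr t2i_isAlgClosed t2i_charP t2i_fact

variable (𝔓 : FFPlace) (N'' : ℕ) [NeZero N''] (h : ¬ 𝔓.p ∣ N'') (h49 : 4 ∣ N'' ∨ 9 ∣ N'')

theorem t4erc_two_le_pp : 2 ≤ 𝔓.p * 𝔓.p := by
  have h2 := 𝔓.hp.two_le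
  nlinarith

include h49 in
/-- **`hreg` on chart 2 at the inertia level**, every level `i ≥ 1`, chart `1 / (j^(p·p) - j)` -/
theorem t4erc_hreg_chart2_fix (i : ℕ) (hi : 1 ≤ i)
    {P P₂ : T4Pres ↥(TaF ↥(tbFix 𝔓 (⊤ : Subgroup 𝔓.I)) (t4eLev N'' 𝔓.p i))}
    (hvals₁ : P.vals = t4vpHor ↥(tbFix 𝔓 (⊤ : Subgroup 𝔓.I))
        (t4ecX ↥(tbFix 𝔓 (⊤ : Subgroup 𝔓.I)) N'' 𝔓.p i (𝔓.p * 𝔓.p)) ∪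
      (t4efLayer 𝔓 N'' h i hi).ver)
    (hvals₂ : P₂.vals = t4vpHor ↥(tbFix 𝔓 (⊤ : Subgroup 𝔓.I))
        (t4ecX ↥(tbFix 𝔓 (⊤ : Subgroup 𝔓.I)) N'' 𝔓.p i (𝔓.p * 𝔓.p))⁻¹ ∪
      (t4efLayer 𝔓 N'' h i hi).ver)
    (hB₂ : ∀ f : ↥(TaF ↥(tbFix 𝔓 (⊤ : Subgroup 𝔓.I)) (t4eLev N'' 𝔓.p i)), f ∈ P₂.B ↔
      f ∈ t2Int (K := ↥(tbFix 𝔓 (⊤ : Subgroup 𝔓.I)))
        (t4ecX ↥(tbFix 𝔓 (⊤ : Subgroup 𝔓.I)) N'' 𝔓.p i (𝔓.p * 𝔓.p))⁻¹ ∧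
      f ∈ (t4efLayer 𝔓 N'' h i hi).Ov)
    (hqB₁ : ((𝔓.p : ℕ) : ↥(TaF ↥(tbFix 𝔓 (⊤ : Subgroup 𝔓.I)) (t4eLev N'' 𝔓.p i))) ∈ P.B)
    (hreg₁ : ∀ 𝔫₁ : Ideal P.B, 𝔫₁.IsMaximal →
      (⟨((𝔓.p : ℕ) : ↥(TaF ↥(tbFix 𝔓 (⊤ : Subgroup 𝔓.I)) (t4eLev N'' 𝔓.p i))), hqB₁⟩ : P.B) ∈ 𝔫₁ →
      (∀ (U : ValuationSubring ↥(TaF ↥(tbFix 𝔓 (⊤ : Subgroup 𝔓.I)) (t4eLev N'' 𝔓.p i)))
        (hU : U ∈ P.through 𝔫₁),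
        U ∈ P.vert ((𝔓.p : ℕ) : ↥(TaF ↥(tbFix 𝔓 (⊤ : Subgroup 𝔓.I)) (t4eLev N'' 𝔓.p i))) →
          P.SmoothAt 𝔫₁ U hU) → P.RegAt 𝔫₁)
    (hqB : ((𝔓.p : ℕ) : ↥(TaF ↥(tbFix 𝔓 (⊤ : Subgroup 𝔓.I)) (t4eLev N'' 𝔓.p i))) ∈ P₂.B)
    (𝔫₂ : Ideal P₂.B) (h𝔫₂ : 𝔫₂.IsMaximal)
    (hq𝔫 : (⟨((𝔓.p : ℕ) : ↥(TaF ↥(tbFix 𝔓 (⊤ : Subgroup 𝔓.I)) (t4eLev N'' 𝔓.p i))), hqB⟩ :
      P₂.B) ∈ 𝔫₂) : P₂.RegAt 𝔫₂ := by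
  haveI := h𝔫₂
  have hQ := t4erc_two_le_pp 𝔓
  have hpQ : 𝔓.p ∣ 𝔓.p * 𝔓.p := dvd_mul_right _ _
  have hcast : algebraMap ↥(tbFix 𝔓 (⊤ : Subgroup 𝔓.I))
      ↥(TaF ↥(tbFix 𝔓 (⊤ : Subgroup 𝔓.I)) (t4eLev N'' 𝔓.p i))
      ((𝔓.p : ℕ) : ↥(tbFix 𝔓 (⊤ : Subgroup 𝔓.I))) =
      ((𝔓.p : ℕ) : ↥(TaF ↥(tbFix 𝔓 (⊤ : Subgroup 𝔓.I)) (t4eLev N'' 𝔓.p i))) := map_natCast _ _
  refine t4erc_hreg_chart2 (Y := t4efLayer 𝔓 N'' h i hi) (t4cy_irreducible_p 𝔓) hQ hvals₁ hvals₂ hB₂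
    (fun w hw hc => t4erf_rhoUnit 𝔓 N'' h i hi w hw hc) hqB₁ hreg₁ hqB 𝔫₂ hq𝔫 ?_ ?_ ?_
    (t4erc_hT1_fix 𝔓 N'' ⊤) (t4erc_hT1'_fix 𝔓 N'' h ⊤) (t4rcGs_mem_fix 𝔓)
  · -- `hone`
    exact t4es2_hone_fix 𝔓 N'' h i hi P₂ hB₂ (fun V hV => t4erc_vert hvals₂ hV) 𝔫₂
      h𝔫₂.ne_top
  · -- `hsm`
    intro U hU hUq
    refine t4eck_hsm_X_inv_fix 𝔓 N'' h h49 (t4efLayer 𝔓 N'' h i hi) hQ hpQ P₂ hvals₂ hB₂ rfl 𝔫₂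
      h𝔫₂ U hU ?_
    rw [hcast]
    exact hUq
  · -- `hres`
    intro b
    have hqB' : algebraMap ↥(tbFix 𝔓 (⊤ : Subgroup 𝔓.I))
        ↥(TaF ↥(tbFix 𝔓 (⊤ : Subgroup 𝔓.I)) (t4eLev N'' 𝔓.p i))
        ((𝔓.p : ℕ) : ↥(tbFix 𝔓 (⊤ : Subgroup 𝔓.I))) ∈ P₂.B := by
      rw [hcast]
      exact hqB
    have hq𝔫' : (⟨_, hqB'⟩ : P₂.B) ∈ 𝔫₂ := by
      have e : (⟨_, hqB'⟩ : P₂.B) =
          ⟨((𝔓.p : ℕ) : ↥(TaF ↥(tbFix 𝔓 (⊤ : Subgroup 𝔓.I)) (t4eLev N'' 𝔓.p i))), hqB⟩ :=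
        Subtype.ext hcast
      rw [e]
      exact hq𝔫
    exact t4ecr_resField_X_inv_fix 𝔓 N'' h h49 (t4efLayer 𝔓 N'' h i hi) hQ hpQ P₂ hvals₂ hB₂ 𝔫₂
      hqB' hq𝔫' b

end Fix

end

end Fermat.Agent.T4
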