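/-
T4E-R (helper6), part 8: **ALL-OR-ONE along the tower of chart presentations** (adapter between
helper5's abstract induction step `t4e_allAt_succ` and the layer language).

* `t4er_lab` : `T4eLab P q i Y.V` for a chart presentation with `P.vals = t4vpHor L y ∪ Y.ver`;
* `t4er_stepA`, `t4er_stepB` : the two `T4eStep`s (labels `w ↦ min w i`, `w ↦ w - 1`) from `T4erStep`
  and `T4eLink`;
* **`t4er_allAt_step`** : `T4eAllAt (Pm i) i lo.V ⟹ T4eAllAt (Pm (i+1)) (i+1) up.V` (`i ≥ 1`), given the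
  two purely inseparable liftings `hpiA` (bottom vertical along `α`), `hpiB` (top vertical along `β`).
-/
import Fermat.Agent.Lib.T4E.Reg.Chain
import Fermat.Agent.Lib.T4E.Reg.Tower
import Fermat.Agent.Lib.T4E.Local.Tower
import Fermat.Agent.Lib.T4E.Chart.ResK

set_option autoImplicit false
set_option linter.unusedSectionVars false
set_option linter.unusedVariables false
set_option linter.style.haveILetI false
set_option synthInstance.maxHeartbeats 400000

open HahnSeries ModularCurve Fermat.Agent.T1 Fermat.Agent.T2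

noncomputable section

namespace Fermat.Agent.T4

section Gen

variable {L : Type} [Field L] [Algebra ℚ L] {O : ValuationSubring L} {k : Type*} [Field k]
  {π : ↥O →+* k} [IsDiscreteValuationRing ↥O] {hπ : Function.Surjective π} [IsAlgClosed k]
  {N'' q : ℕ} [NeZero N''] [hq : Fact q.Prime] [CharP k q] {i : ℕ}

/-- `α : F_i → F_{i+1}` with codomain in the form `t4eLev N'' q (i + 1)` -/
abbrev t4erAl (L : Type) [Field L] [Algebra ℚ L] (N'' q i : ℕ) [NeZero N''] [NeZero q] :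
    ↥(TaF L (t4eLev N'' q i)) →+* ↥(TaF L (t4eLev N'' q (i + 1))) :=
  (heckeAlphaBar L (t4eLev N'' q i) q).toRingHom

/-- `β : F_i → F_{i+1}` with codomain in the form `t4eLev N'' q (i + 1)` -/
abbrev t4erBe (L : Type) [Field L] [Algebra ℚ L] (N'' q i : ℕ) [NeZero N''] [NeZero q] :
    ↥(TaF L (t4eLev N'' q i)) →+* ↥(TaF L (t4eLev N'' q (i + 1))) :=
  (heckeBetaBar L (t4eLev N'' q i) q).toRingHom

/-- the labelling of the vertical valuation rings of a chart presentation of level `i` -/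
theorem t4er_lab (Y : T4eLayer O π hπ N'' q i) {P : T4Pres ↥(TaF L (t4eLev N'' q i))}
    {y : ↥(TaF L (t4eLev N'' q i))} (hvals : P.vals = t4vpHor L y ∪ Y.ver)
    (hqB : ((q : ℕ) : ↥(TaF L (t4eLev N'' q i))) ∈ P.B) :
    T4eLab P ((q : ℕ) : ↥(TaF L (t4eLev N'' q i))) i Y.V where
  hq := hqB
  vert := by
    intro W hW
    have h1 := t4ecr_vert Y P hvals
    rw [map_natCast] at h1
    rw [h1] at hW
    exact hW
  mem := by
    intro w hw
    refine ⟨?_, Y.t4er_valuation_q_lt_one hw⟩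
    rw [hvals]
    exact Or.inr (Y.V_mem_ver hw)
  inj := fun a b ha hb hab => Y.inj a ha b hb hab

variable {lo : T4eLayer O π hπ N'' q i} {up : T4eLayer O π hπ N'' q (i + 1)}
  {Pm : ∀ m : ℕ, T4Pres ↥(TaF L (t4eLev N'' q m))}

/-- the step along `α` -/
theorem t4er_stepA (hl : T4eLink lo up) (S : T4erStep Pm i) :
    @T4eStep _ _ _ _ (heckeAlphaBar L (t4eLev N'' q i) q).toRingHom.toAlgebra (Pm i) (Pm (i + 1))
      ((q : ℕ) : ↥(TaF L (t4eLev N'' q i))) ((q : ℕ) : ↥(TaF L (t4eLev N'' q (i + 1)))) i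
      lo.V up.V (fun w => min w i) := by
  letI : Algebra ↥(TaF L (t4eLev N'' q i)) ↥(TaF L (t4eLev N'' q i * q)) :=
    (heckeAlphaBar L (t4eLev N'' q i) q).toRingHom.toAlgebra
  exact
    { pres := S.presA
      hq := map_natCast _ q
      comap_vals := S.valsA
      comap := fun w hw => hl.comap_α w hw
      φ_le := fun w hw => Nat.min_le_right w i
      φ_surj := fun w' hw' => ⟨w', by omega, Nat.min_eq_left hw'⟩ }

/-- the step along `β` -/
theorem t4er_stepB (hl : T4eLink lo up) (S : T4erStep Pm i) :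
    @T4eStep _ _ _ _ (heckeBetaBar L (t4eLev N'' q i) q).toRingHom.toAlgebra (Pm i) (Pm (i + 1))
      ((q : ℕ) : ↥(TaF L (t4eLev N'' q i))) ((q : ℕ) : ↥(TaF L (t4eLev N'' q (i + 1)))) i
      lo.V up.V (fun w => w - 1) := by
  letI : Algebra ↥(TaF L (t4eLev N'' q i)) ↥(TaF L (t4eLev N'' q i * q)) :=
    (heckeBetaBar L (t4eLev N'' q i) q).toRingHom.toAlgebra
  exact
    { pres := S.presB
      hq := map_natCast _ q
      comap_vals := S.valsB
      comap := fun w hw => hl.comap_β w hw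
      φ_le := fun w hw => by omega
      φ_surj := fun w' hw' => ⟨w' + 1, by omega, by omega⟩ }

/-- **ALL-OR-ONE, one step up the tower** -/
theorem t4er_allAt_step (hi : 1 ≤ i) (hl : T4eLink lo up) (S : T4erStep Pm i)
    {y1 : ↥(TaF L (t4eLev N'' q i))} (hvals1 : (Pm i).vals = t4vpHor L y1 ∪ lo.ver)
    {y : ↥(TaF L (t4eLev N'' q (i + 1)))} (hvals : (Pm (i + 1)).vals = t4vpHor L y ∪ up.ver)
    (hqB1 : ((q : ℕ) : ↥(TaF L (t4eLev N'' q i))) ∈ (Pm i).B)
    (hqB : ((q : ℕ) : ↥(TaF L (t4eLev N'' q (i + 1)))) ∈ (Pm (i + 1)).B)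
    {Qa Qb : ℕ} (hQa : Qa ≠ 0) (hQb : Qb ≠ 0)
    (hpiA : ∀ x ∈ (Pm (i + 1)).B, ∃ a ∈ (Pm i).B,
      (up.V 0).valuation (x ^ Qa - t4erAl L N'' q i a) < 1)
    (hpiB : ∀ x ∈ (Pm (i + 1)).B, ∃ a ∈ (Pm i).B,
      (up.V (i + 1)).valuation (x ^ Qb - t4erBe L N'' q i a) < 1)
    (H1 : T4eAllAt (Pm i) i lo.V) : T4eAllAt (Pm (i + 1)) (i + 1) up.V :=
  t4e_allAt_succ (t4erAl L N'' q i) (t4erBe L N'' q i) hi (t4er_lab lo hvals1 hqB1)
    (t4er_lab up hvals hqB) (t4er_stepA hl S) (t4er_stepB hl S) hQa hQb hpiA hpiB H1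

end Gen

end Fermat.Agent.T4
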