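/-
T4E / P7 REG (lead): **ALL-OR-ONE at level one** (the base of helper5's induction `t4e_allAt_succ`):
a node in the sense of `T4erNode` (REG1-G) gives `T4eAllAt P1 1 V` — the two factors `a`, `b` of
`a * b ∼ q₁` are local equations of the top vertical `V 1` and of the bottom vertical `V 0`.

* `T4PresOver.T4erNode.t4erl_allAt_one` (abstract);
* **`t4erl_allAt`** : `T4eAllAt (t4rLevFixPres1 𝔓 N'' h hQ) 1 (t4efLayer 𝔓 N'' h 1 le_rfl).V`;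
* **`t4erl_lab`** : `T4eLab (t4rLevFixPres1 𝔓 N'' h hQ) p 1 (t4efLayer 𝔓 N'' h 1 le_rfl).V`.
-/
import Fermat.Agent.Lib.T4E.Reg.Lev1
import Fermat.Agent.Lib.T4E.Local.Tower

set_option autoImplicit false
set_option linter.unusedSectionVars false
set_option linter.unusedVariables false
set_option linter.style.haveILetI false
set_option synthInstance.maxHeartbeats 400000

namespace Fermat.Agent.T4

open Fermat.Agent.S24Lib Fermat.Agent.T1 Fermat.Agent.T1.KMod Fermat.Agent.T2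
open ModularCurve HahnSeries Fermat.Agent.TW Fermat.Agent.S05Lib

local notation "Qb" => AlgebraicClosure ℚ

noncomputable section

section Abs

variable {F1 : Type*} [Field F1] {P1 : T4Pres F1} {q1 : F1} {V : ℕ → ValuationSubring F1}

/-- a factor of a node equation is a local equation of its branch -/
theorem t4erl_locEq_of_factor {𝔫 : Ideal P1.B} {Va Vb : ValuationSubring F1}
    (hVa : Va ∈ P1.through 𝔫) (hVb : Vb ∈ P1.through 𝔫)
    (hhor : ∀ U ∈ P1.vals, U ≠ Va → U ≠ Vb → U.valuation q1 = 1)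
    {a b : F1} (ha : a ∈ P1.loc 𝔫) (hb : b ∈ P1.loc 𝔫)
    (hab : ∀ U ∈ P1.through 𝔫, U.valuation (a * b) = U.valuation q1)
    (haVa : Va.valuation a < 1) (haVb : Vb.valuation a = 1) :
    P1.T4eLocEq 𝔫 Va := by
  refine ⟨a, ha, ?_, ?_, ?_⟩
  · rintro rfl
    rw [map_zero] at haVb
    exact zero_ne_one haVb
  · intro hu
    obtain ⟨u, hu⟩ := hu.exists_right_inv
    have h1 : a * (u : F1) = 1 := congrArg Subtype.val hu
    have h2 : Va.valuation (u : F1) ≤ 1 := (Va.valuation_le_one_iff _).mpr (u.2 Va hVa)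
    have h3 := congrArg Va.valuation h1
    rw [map_mul, map_one] at h3
    have h4 : Va.valuation a * Va.valuation (u : F1) < 1 :=
      mul_lt_one_of_nonneg_of_lt_one_left zero_le haVa h2
    rw [h3] at h4
    exact lt_irrefl _ h4
  · intro U hU hne
    by_cases hUb : U = Vb
    · rw [hUb]
      exact haVb
    · have h1 := hab U hU
      rw [hhor U hU.1 hne hUb, map_mul] at h1
      have ha' : U.valuation a ≤ 1 := (U.valuation_le_one_iff _).mpr (ha U hU)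
      have hb' : U.valuation b ≤ 1 := (U.valuation_le_one_iff _).mpr (hb U hU)
      by_contra hlt
      have hlt' : U.valuation a < 1 := lt_of_le_of_ne ha' hlt
      have h4 : U.valuation a * U.valuation b < 1 :=
        mul_lt_one_of_nonneg_of_lt_one_left zero_le hlt' hb'
      rw [h1] at h4
      exact lt_irrefl _ h4

/-- **ALL-OR-ONE at level one** from REG1-G -/
theorem T4PresOver.T4erNode.t4erl_allAt_one (hG : T4PresOver.T4erNode P1 q1 (V 1) (V 0))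
    (hq1 : (V 1).valuation q1 < 1) (hq0 : (V 0).valuation q1 < 1)
    (hhor : ∀ U ∈ P1.vals, U ≠ V 1 → U ≠ V 0 → U.valuation q1 = 1) :
    T4eAllAt P1 1 V := by
  refine ⟨?_, ?_, ?_⟩
  · intro 𝔫 h𝔫 a b ha hb hab hVa hVb w hw
    obtain rfl | rfl : w = a ∨ w = b := by omega
    · exact hVa
    · exact hVb
  · intro 𝔫 h𝔫 hall
    have h1 := hall 1 le_rfl
    have h0 := hall 0 (Nat.zero_le 1)
    obtain ⟨a, b, ha, hb, hab, ha1, ha0, hb1, hb0⟩ := hG 𝔫 h𝔫 h1 h0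
    exact t4erl_locEq_of_factor h1 h0 hhor (P1.B_le_loc 𝔫 ha) hb hab (ha1 ▸ hq1) ha0
  · intro 𝔫 h𝔫 hall
    have h1 := hall 1 le_rfl
    have h0 := hall 0 (Nat.zero_le 1)
    obtain ⟨a, b, ha, hb, hab, ha1, ha0, hb1, hb0⟩ := hG 𝔫 h𝔫 h1 h0
    refine t4erl_locEq_of_factor h0 h1 (fun U hU hn0 hn1 => hhor U hU hn1 hn0) hb
      (P1.B_le_loc 𝔫 ha) (fun U hU => ?_) (hb0 ▸ hq0) hb1
    rw [mul_comm]
    exact hab U hU

end Abs

section Fix

attribute [local instance] t2i_dvr t2i_isAlgClosed t2i_charP t2i_fact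

variable (𝔓 : FFPlace) (N'' : ℕ) [NeZero N''] (h : ¬ 𝔓.p ∣ N'') {Q : ℕ} (hQ : 2 ≤ Q)

/-- `p` is a non-unit of the components of level one -/
theorem t4erl_val_p {w : ℕ} (hw : w ≤ 1) :
    ((t4efLayer 𝔓 N'' h 1 le_rfl).V w).valuation
      (((𝔓.p : ℕ) : ↥(TaF ↥(tbFix 𝔓 (⊤ : Subgroup 𝔓.I)) (t4eLev N'' 𝔓.p 1)))) < 1 := by
  have h1 := t4ec_V_q (t4efLayer 𝔓 N'' h 1 le_rfl) hw
  rw [map_natCast] at h1
  exact h1

/-- `p` is a unit of the horizontal valuation rings of main's level-`N'' p` presentation -/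
theorem t4erl_val_p_hor (U : ValuationSubring ↥(TaF ↥(tbFix 𝔓 (⊤ : Subgroup 𝔓.I)) (t4eLev N'' 𝔓.p 1)))
    (hU : U ∈ (t4rLevFixPres1 𝔓 N'' h hQ).vals)
    (h1 : U ≠ (t4efLayer 𝔓 N'' h 1 le_rfl).V 1) (h0 : U ≠ (t4efLayer 𝔓 N'' h 1 le_rfl).V 0) :
    U.valuation (((𝔓.p : ℕ) : ↥(TaF ↥(tbFix 𝔓 (⊤ : Subgroup 𝔓.I)) (t4eLev N'' 𝔓.p 1)))) = 1 := by
  have hU' := hU
  rw [t4erl_vals] at hU'
  rcases hU' with hhor | ⟨w, hw, rfl⟩
  · have hp0 : ((𝔓.p : ℕ) : ↥(tbFix 𝔓 (⊤ : Subgroup 𝔓.I))) ≠ 0 :=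
      Nat.cast_ne_zero.mpr 𝔓.hp.ne_zero
    have e1 : (((𝔓.p : ℕ) : ↥(TaF ↥(tbFix 𝔓 (⊤ : Subgroup 𝔓.I)) (t4eLev N'' 𝔓.p 1))))
        = algebraMap ↥(tbFix 𝔓 (⊤ : Subgroup 𝔓.I)) _ ((𝔓.p : ℕ) : ↥(tbFix 𝔓 (⊤ : Subgroup 𝔓.I))) := by
      rw [map_natCast]
    have m1 := t4vp_algebraMap_mem_hor hhor ((𝔓.p : ℕ) : ↥(tbFix 𝔓 (⊤ : Subgroup 𝔓.I)))
    have m2 := t4vp_algebraMap_mem_hor hhor (((𝔓.p : ℕ) : ↥(tbFix 𝔓 (⊤ : Subgroup 𝔓.I))))⁻¹
    rw [map_inv₀] at m2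
    rw [e1]
    apply le_antisymm ((U.valuation_le_one_iff _).mpr m1)
    have h3 := (U.valuation_le_one_iff _).mpr m2
    rw [map_inv₀] at h3
    have hne : U.valuation (algebraMap ↥(tbFix 𝔓 (⊤ : Subgroup 𝔓.I))
        ↥(TaF ↥(tbFix 𝔓 (⊤ : Subgroup 𝔓.I)) (t4eLev N'' 𝔓.p 1))
        ((𝔓.p : ℕ) : ↥(tbFix 𝔓 (⊤ : Subgroup 𝔓.I)))) ≠ 0 := by
      rw [Ne, map_eq_zero, map_eq_zero]
      exact hp0
    exact (inv_le_one₀ (zero_lt_iff.mpr hne)).mp h3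
  · exfalso
    obtain rfl | rfl : w = 0 ∨ w = 1 := by omega
    · exact h0 rfl
    · exact h1 rfl

variable (h49 : 4 ∣ N'' ∨ 9 ∣ N'')

include h49 in
/-- **ALL-OR-ONE at level one of the tower** -/
theorem t4erl_allAt :
    T4eAllAt (t4rLevFixPres1 𝔓 N'' h hQ) 1 (t4efLayer 𝔓 N'' h 1 le_rfl).V :=
  (t4erl_node 𝔓 N'' h hQ h49).t4erl_allAt_one (t4erl_val_p 𝔓 N'' h le_rfl)
    (t4erl_val_p 𝔓 N'' h (Nat.zero_le 1)) (t4erl_val_p_hor 𝔓 N'' h hQ)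

/-- the vertical valuation rings of main's level-`N'' p` presentation are the components of the
layer of level one -/
theorem t4erl_lab :
    T4eLab (t4rLevFixPres1 𝔓 N'' h hQ)
      (((𝔓.p : ℕ) : ↥(TaF ↥(tbFix 𝔓 (⊤ : Subgroup 𝔓.I)) (t4eLev N'' 𝔓.p 1)))) 1
      (t4efLayer 𝔓 N'' h 1 le_rfl).V where
  hq := by
    refine (t4erl_mem_B 𝔓 N'' h hQ _).mpr ⟨?_, fun w hw => ?_⟩
    · rw [mem_t2Int]
      have e1 : (((𝔓.p : ℕ) : ↥(TaF ↥(tbFix 𝔓 (⊤ : Subgroup 𝔓.I)) (t4eLev N'' 𝔓.p 1))))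
          = algebraMap ↥(Algebra.adjoin ↥(tbFix 𝔓 (⊤ : Subgroup 𝔓.I))
              {t4ecX ↥(tbFix 𝔓 (⊤ : Subgroup 𝔓.I)) N'' 𝔓.p 1 Q}) _ ((𝔓.p : ℕ)) := by
        rw [map_natCast]
      rw [e1]
      exact isIntegral_algebraMap
    · exact (ValuationSubring.valuation_le_one_iff _ _).mp (t4erl_val_p 𝔓 N'' h hw).le
  vert := by
    intro W hW
    have hWv : W ∈ (t4rLevFixPres1 𝔓 N'' h hQ).vals := hW.1
    by_contra hne
    push Not at hne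
    have h1 := t4erl_val_p_hor 𝔓 N'' h hQ W hWv (fun e => hne 1 le_rfl e)
      (fun e => hne 0 (Nat.zero_le 1) e)
    have h2 : W.valuation _ < 1 := hW.2
    exact (ne_of_lt h2) h1
  mem := by
    intro w hw
    refine ⟨?_, t4erl_val_p 𝔓 N'' h hw⟩
    rw [t4erl_vals]
    exact Or.inr ⟨w, hw, rfl⟩
  inj := fun a b ha hb e => (t4efLayer 𝔓 N'' h 1 le_rfl).inj a ha b hb e

end Fix

end

end Fermat.Agent.T4
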