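/-
T4E-R (helper6), part 9: **ALL-OR-ONE at every level of the tower at the inertia (Fix) level**, by
induction from lead's base case `t4erl_allAt` (level one, REG1-G) with the step `t4er_allAt_step`.

`Pm m` a tower of chart presentations with `Pm 1 = t4rLevFixPres1 𝔓 N'' h hQ`, `T4erStep Pm m`
(`m ≥ 1`), `(Pm m).vals = t4vpHor L (y m) ∪ (t4efLayer 𝔓 N'' h m _).ver`, and the two purely inseparable
liftings at every step.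

* `t4erf_p_mem` : `p ∈ (Pm m).B`;
* **`t4erf_allAt`** : `∀ m ≥ 1, T4eAllAt (Pm m) m (t4efLayer 𝔓 N'' h m _).V`.
-/
import Fermat.Agent.Lib.T4E.Reg.AllAt
import Fermat.Agent.Lib.T4E.Reg.Lev1All

set_option autoImplicit false
set_option linter.unusedSectionVars false
set_option linter.unusedVariables false
set_option linter.style.haveILetI false
set_option synthInstance.maxHeartbeats 400000

namespace Fermat.Agent.T4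

open Fermat.Agent.S24Lib Fermat.Agent.T1 Fermat.Agent.T1.KMod Fermat.Agent.T2
open ModularCurve HahnSeries Fermat.Agent.TW Fermat.Agent.S05Lib

local notation "Qb" => AlgebraicClosure ℚ

noncomputable section

section Fix

attribute [local instance] t2i_dvr t2i_isAlgClosed t2i_charP t2i_fact

variable (𝔓 : FFPlace) (N'' : ℕ) [NeZero N''] (h : ¬ 𝔓.p ∣ N'')

/-- `p` lies in the ring of every chart presentation of the tower -/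
theorem t4erf_p_mem {m : ℕ} (hm : 1 ≤ m)
    {P : T4Pres ↥(TaF ↥(tbFix 𝔓 (⊤ : Subgroup 𝔓.I)) (t4eLev N'' 𝔓.p m))}
    {y : ↥(TaF ↥(tbFix 𝔓 (⊤ : Subgroup 𝔓.I)) (t4eLev N'' 𝔓.p m))}
    (hvals : P.vals = t4vpHor ↥(tbFix 𝔓 (⊤ : Subgroup 𝔓.I)) y ∪ (t4efLayer 𝔓 N'' h m hm).ver) :
    ((𝔓.p : ℕ) : ↥(TaF ↥(tbFix 𝔓 (⊤ : Subgroup 𝔓.I)) (t4eLev N'' 𝔓.p m))) ∈ P.B := by
  have h1 := t4ecr_const_mem_B (t4efLayer 𝔓 N'' h m hm) P hvals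
    ((𝔓.p : ℕ) : ↥(tbFixO 𝔓 (⊤ : Subgroup 𝔓.I)))
  have h2 : ((((𝔓.p : ℕ) : ↥(tbFixO 𝔓 (⊤ : Subgroup 𝔓.I))) : ↥(tbFix 𝔓 (⊤ : Subgroup 𝔓.I))))
      = ((𝔓.p : ℕ) : ↥(tbFix 𝔓 (⊤ : Subgroup 𝔓.I))) := by
    norm_cast
  rw [h2, map_natCast] at h1
  exact h1

variable {Q : ℕ} (hQ : 2 ≤ Q) (h49 : 4 ∣ N'' ∨ 9 ∣ N'')

include h49 in
/-- **ALL-OR-ONE at every level `m ≥ 1` of the tower** -/
theorem t4erf_allAt
    {Pm : ∀ m : ℕ, T4Pres ↥(TaF ↥(tbFix 𝔓 (⊤ : Subgroup 𝔓.I)) (t4eLev N'' 𝔓.p m))}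
    (hP1 : Pm 1 = t4rLevFixPres1 𝔓 N'' h hQ) (hstep : ∀ m, 1 ≤ m → T4erStep Pm m)
    (hvals : ∀ m (hm : 1 ≤ m), ∃ y, (Pm m).vals =
      t4vpHor ↥(tbFix 𝔓 (⊤ : Subgroup 𝔓.I)) y ∪ (t4efLayer 𝔓 N'' h m hm).ver)
    (hpiA : ∀ m (hm : 1 ≤ m), ∀ x ∈ (Pm (m + 1)).B, ∃ a ∈ (Pm m).B,
      ((t4efLayer 𝔓 N'' h (m + 1) (by omega)).V 0).valuation
        (x ^ 𝔓.p - t4erAl ↥(tbFix 𝔓 (⊤ : Subgroup 𝔓.I)) N'' 𝔓.p m a) < 1)
    (hpiB : ∀ m (hm : 1 ≤ m), ∀ x ∈ (Pm (m + 1)).B, ∃ a ∈ (Pm m).B,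
      ((t4efLayer 𝔓 N'' h (m + 1) (by omega)).V (m + 1)).valuation
        (x ^ 𝔓.p - t4erBe ↥(tbFix 𝔓 (⊤ : Subgroup 𝔓.I)) N'' 𝔓.p m a) < 1) :
    ∀ m (hm : 1 ≤ m), T4eAllAt (Pm m) m (t4efLayer 𝔓 N'' h m hm).V := by
  intro m hm
  induction m, hm using Nat.le_induction with
  | base =>
    rw [hP1]
    exact t4erl_allAt 𝔓 N'' h hQ h49
  | succ m hm ih =>
    obtain ⟨y1, hv1⟩ := hvals m hm
    obtain ⟨y, hv⟩ := hvals (m + 1) (by omega)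
    exact t4er_allAt_step hm (t4ef_link 𝔓 N'' h m hm) (hstep m hm) hv1 hv
      (t4erf_p_mem 𝔓 N'' h hm hv1) (t4erf_p_mem 𝔓 N'' h (by omega) hv) 𝔓.hp.ne_zero 𝔓.hp.ne_zero
      (hpiA m hm) (hpiB m hm) ih

end Fix

end

end Fermat.Agent.T4
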