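/-
T4E-R (helper6), part 10: **the tower of chart-1 presentations at the inertia (Fix) level**.

* `t4erfPm 𝔓 N'' h hQ m` : level `0` main's `t4rLevFixP'`, level `1` main's `t4rLevFixPres1` (the
  carriers of REG1), level `m ≥ 2` helper2's `t4ecPres` of the layer `t4efLayer 𝔓 N'' h m _` on the chart
  `X_m = j^Q - j`;
* `t4erfPm_vals`, `t4erfPm_mem_B` : the dictionaries at every level `m ≥ 1`
  (`vals = t4vpHor L X_m ∪ Y_m.ver`, `B = IntCl(L[X_m]) ∩ 𝒪_m`).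
-/
import Fermat.Agent.Lib.T4E.Reg.Lev1
import Fermat.Agent.Lib.T4E.Chart.RR
import Fermat.Agent.Lib.T4E.Chart.Crt

set_option autoImplicit false
set_option linter.unusedSectionVars false
set_option linter.unusedVariables false
set_option linter.style.haveILetI false
set_option synthInstance.maxHeartbeats 400000

namespace Fermat.Agent.T4

open Fermat.Agent.S24Lib Fermat.Agent.T1 Fermat.Agent.T1.KMod Fermat.Agent.T2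
open ModularCurve HahnSeries Fermat.Agent.TW Fermat.Agent.S05Lib

local notation "Qb" => AlgebraicClosure ℚ

noncomputable section

section Fix

attribute [local instance] t2i_dvr t2i_isAlgClosed t2i_charP t2i_fact

variable (𝔓 : FFPlace) (N'' : ℕ) [NeZero N''] (h : ¬ 𝔓.p ∣ N'') {Q : ℕ} (hQ : 2 ≤ Q)

/-- **the tower of chart-1 presentations** (chart `X_m = j^Q - j` at every level) -/
def t4erfPm : ∀ m : ℕ, T4Pres ↥(TaF ↥(tbFix 𝔓 (⊤ : Subgroup 𝔓.I)) (t4eLev N'' 𝔓.p m))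
  | 0 => t4rLevFixP' 𝔓 N'' hQ
  | 1 => t4rLevFixPres1 𝔓 N'' h hQ
  | (m + 2) => t4ecPres (t4cy_irreducible_p 𝔓)
      (t4ecrHyp_X_fix 𝔓 N'' (t4efLayer 𝔓 N'' h (m + 2) (by omega)) hQ)
      (t4ecc_crt (t4efLayer 𝔓 N'' h (m + 2) (by omega)))

theorem t4erfPm_zero : t4erfPm 𝔓 N'' h hQ 0 = t4rLevFixP' 𝔓 N'' hQ := rfl

theorem t4erfPm_one : t4erfPm 𝔓 N'' h hQ 1 = t4rLevFixPres1 𝔓 N'' h hQ := rfl

theorem t4erfPm_add_two (m : ℕ) :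
    t4erfPm 𝔓 N'' h hQ (m + 2) = t4ecPres (t4cy_irreducible_p 𝔓)
      (t4ecrHyp_X_fix 𝔓 N'' (t4efLayer 𝔓 N'' h (m + 2) (by omega)) hQ)
      (t4ecc_crt (t4efLayer 𝔓 N'' h (m + 2) (by omega))) := rfl

/-- the valuation rings of the chart presentation of level `m ≥ 1` -/
theorem t4erfPm_vals : ∀ (m : ℕ) (hm : 1 ≤ m), (t4erfPm 𝔓 N'' h hQ m).vals =
    t4vpHor ↥(tbFix 𝔓 (⊤ : Subgroup 𝔓.I)) (t4ecX ↥(tbFix 𝔓 (⊤ : Subgroup 𝔓.I)) N'' 𝔓.p m Q) ∪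
      (t4efLayer 𝔓 N'' h m hm).ver
  | 0, hm => absurd hm (by omega)
  | 1, _ => t4erl_vals 𝔓 N'' h hQ
  | (m + 2), _ => rfl

/-- `B_m = IntCl(L[X_m]) ∩ 𝒪_m` at every level `m ≥ 1` -/
theorem t4erfPm_mem_B : ∀ (m : ℕ) (hm : 1 ≤ m)
    (f : ↥(TaF ↥(tbFix 𝔓 (⊤ : Subgroup 𝔓.I)) (t4eLev N'' 𝔓.p m))),
    f ∈ (t4erfPm 𝔓 N'' h hQ m).B ↔
      f ∈ t2Int (K := ↥(tbFix 𝔓 (⊤ : Subgroup 𝔓.I)))
        (t4ecX ↥(tbFix 𝔓 (⊤ : Subgroup 𝔓.I)) N'' 𝔓.p m Q) ∧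
      f ∈ (t4efLayer 𝔓 N'' h m hm).Ov
  | 0, hm, _ => absurd hm (by omega)
  | 1, _, f => t4erl_mem_B 𝔓 N'' h hQ f
  | (m + 2), _, f => mem_t4ecPres_B (t4cy_irreducible_p 𝔓)
      (t4ecrHyp_X_fix 𝔓 N'' (t4efLayer 𝔓 N'' h (m + 2) (by omega)) hQ)
      (t4ecc_crt (t4efLayer 𝔓 N'' h (m + 2) (by omega))) f

/-- the existential form of `t4erfPm_vals` (hypothesis `hvals` of `t4erf_allAt`) -/
theorem t4erfPm_vals' (m : ℕ) (hm : 1 ≤ m) : ∃ y, (t4erfPm 𝔓 N'' h hQ m).vals =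
    t4vpHor ↥(tbFix 𝔓 (⊤ : Subgroup 𝔓.I)) y ∪ (t4efLayer 𝔓 N'' h m hm).ver :=
  ⟨_, t4erfPm_vals 𝔓 N'' h hQ m hm⟩

end Fix

end

end Fermat.Agent.T4
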