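/-
T4E-R (helper6), part 11: **chart 1 at the inertia level, assembled**: for the tower of chart-1
presentations `t4erfPm 𝔓 N'' h hQ` (`Reg/PmFix.lean`), from

* `hstep : ∀ m ≥ 1, T4erStep (t4erfPm …) m` (helper2's `Chart/Over.lean`),
* the two purely inseparable liftings `hpiA`, `hpiB` at every step (helper1's `Reg/Lift.lean`),

the fields `hsm`, `hreg` of helper5's `T4eCChart` at every level `i ≥ 2` and ALL-OR-ONE at every level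
`m ≥ 1`:

* `t4erf_chain`, `t4erf_deg_mem` : `a_n B₀ ⊆ B_m` (`n ≤ m`);
* **`t4erf_hsm1`**, **`t4erf_allAt1`**, **`t4erf_hreg1`**.
-/
import Fermat.Agent.Lib.T4E.Reg.PmFix
import Fermat.Agent.Lib.T4E.Reg.HregFix
import Fermat.Agent.Lib.T4E.Reg.AllAtFix
import Fermat.Agent.Lib.T4E.Chart.Sm

set_option autoImplicit false
set_option linter.unusedSectionVars false
set_option linter.unusedVariables false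
set_option linter.style.haveILetI false
set_option synthInstance.maxHeartbeats 400000

namespace Fermat.Agent.T4

open Fermat.Agent.S24Lib Fermat.Agent.T1 Fermat.Agent.T1.KMod Fermat.Agent.T2
open ModularCurve HahnSeries Fermat.Agent.TW Fermat.Agent.S05Lib

local notation "Qb" => AlgebraicClosure ℚ

noncomputable section

section Fix

attribute [local instance] t2i_dvr t2i_isAlgClosed t2i_charP t2i_fact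

variable (𝔓 : FFPlace) (N'' : ℕ) [NeZero N''] (h : ¬ 𝔓.p ∣ N'') {Q : ℕ} (hQ : 2 ≤ Q)
  (h49 : 4 ∣ N'' ∨ 9 ∣ N'')
  (hstep : ∀ m, 1 ≤ m → T4erStep (t4erfPm 𝔓 N'' h hQ) m)

include hstep in
/-- the chain hypotheses for the tower `t4erfPm` -/
theorem t4erf_chain (i : ℕ) (hi : 1 ≤ i) :
    T4erChain (t4efLayer 𝔓 N'' h i hi) (t2iALFix 𝔓 ⊤ N'' h) (t4erfPm 𝔓 N'' h hQ 1)
      (t4erfPm 𝔓 N'' h hQ i) (t4erGam ↥(tbFix 𝔓 (⊤ : Subgroup 𝔓.I)) N'' 𝔓.p i) :=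
  t4er_chain_of_steps (t4efLayer 𝔓 N'' h i hi) (t4efLayer 𝔓 N'' h 1 le_rfl)
    (t4erl_V_zero 𝔓 N'' h) hstep

include hstep h49 in
/-- **`a_n B₀ ⊆ B_m`** for `n ≤ m`, `1 ≤ m` -/
theorem t4erf_deg_mem {m n : ℕ} (hm : 1 ≤ m) (hn : n ≤ m)
    {b : ↥(TaF ↥(tbFix 𝔓 (⊤ : Subgroup 𝔓.I)) N'')} (hb : b ∈ (t4rLevFixP' 𝔓 N'' hQ).B) :
    t4eDeg ↥(tbFix 𝔓 (⊤ : Subgroup 𝔓.I)) N'' 𝔓.p m n b ∈ (t4erfPm 𝔓 N'' h hQ m).B := by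
  obtain ⟨T', -, -, -⟩ := t4erf_lev1 𝔓 N'' h hQ h49 (t4erfPm_one 𝔓 N'' h hQ)
  have C := t4erf_chain 𝔓 N'' h hQ hstep m hm
  rcases Nat.eq_zero_or_pos n with rfl | hn1
  · have hm1 : 0 + 1 ≤ m := by omega
    have h1 := @T4PresOver.map_mem _ _ _ _
      (t4eDeg ↥(tbFix 𝔓 (⊤ : Subgroup 𝔓.I)) N'' 𝔓.p m 0).toRingHom.toAlgebra _ _
      (C.pres_zero T'.overA' 0 hm1 _ (fun f => rfl)) b hb
    exact h1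
  · exact C.deg_mem T'.mapB' hn1 hn hb

variable (hpQ : 𝔓.p ∣ Q)

include hstep h49 hpQ in
/-- **`hsm` on chart 1**, every level `i ≥ 1` -/
theorem t4erf_hsm1 (i : ℕ) (hi : 1 ≤ i) :
    ∀ 𝔫 : Ideal (t4erfPm 𝔓 N'' h hQ i).B, 𝔫.IsMaximal →
      ∀ (V : ValuationSubring ↥(TaF ↥(tbFix 𝔓 (⊤ : Subgroup 𝔓.I)) (t4eLev N'' 𝔓.p i)))
        (hV : V ∈ (t4erfPm 𝔓 N'' h hQ i).through 𝔫),
      V ∈ (t4erfPm 𝔓 N'' h hQ i).vert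
        ((𝔓.p : ℕ) : ↥(TaF ↥(tbFix 𝔓 (⊤ : Subgroup 𝔓.I)) (t4eLev N'' 𝔓.p i))) →
      (t4erfPm 𝔓 N'' h hQ i).SmoothAt 𝔫 V hV := by
  have hX : t4vX' ↥(tbFix 𝔓 (⊤ : Subgroup 𝔓.I)) N'' Q ∈ (t4rLevFixP' 𝔓 N'' hQ).B := by
    rw [mem_t4rLevFixP'_B]
    refine ⟨mem_t2Int.mpr ?_, t4vX'_mem _ _ _⟩
    have h1 : t4vX' ↥(tbFix 𝔓 (⊤ : Subgroup 𝔓.I)) N'' Q =
        algebraMap ↥(Algebra.adjoin ↥(tbFix 𝔓 (⊤ : Subgroup 𝔓.I))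
          {t4vX' ↥(tbFix 𝔓 (⊤ : Subgroup 𝔓.I)) N'' Q}) _
          ⟨_, Algebra.subset_adjoin (Set.mem_singleton _)⟩ := rfl
    rw [h1]
    exact isIntegral_algebraMap
  have hy := ((t4erfPm_mem_B 𝔓 N'' h hQ i hi _).mp
    (t4erf_deg_mem 𝔓 N'' h hQ h49 hstep hi le_rfl hX)).1
  have key := t4ecs_hsm_X_fix 𝔓 N'' h h49 (t4efLayer 𝔓 N'' h i hi) hQ hpQ (t4erfPm 𝔓 N'' h hQ i)
    (t4erfPm_vals 𝔓 N'' h hQ i hi) (t4erfPm_mem_B 𝔓 N'' h hQ i hi) hy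
  intro 𝔫 h𝔫 V hV hVq
  refine key 𝔫 h𝔫 V hV ?_
  rw [map_natCast]
  exact hVq

variable
  (hpiA : ∀ m (hm : 1 ≤ m), ∀ x ∈ (t4erfPm 𝔓 N'' h hQ (m + 1)).B, ∃ a ∈ (t4erfPm 𝔓 N'' h hQ m).B,
    ((t4efLayer 𝔓 N'' h (m + 1) (by omega)).V 0).valuation
      (x ^ 𝔓.p - t4erAl ↥(tbFix 𝔓 (⊤ : Subgroup 𝔓.I)) N'' 𝔓.p m a) < 1)
  (hpiB : ∀ m (hm : 1 ≤ m), ∀ x ∈ (t4erfPm 𝔓 N'' h hQ (m + 1)).B, ∃ a ∈ (t4erfPm 𝔓 N'' h hQ m).B,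
    ((t4efLayer 𝔓 N'' h (m + 1) (by omega)).V (m + 1)).valuation
      (x ^ 𝔓.p - t4erBe ↥(tbFix 𝔓 (⊤ : Subgroup 𝔓.I)) N'' 𝔓.p m a) < 1)

include hstep h49 hpiA hpiB in
/-- **ALL-OR-ONE on chart 1**, every level `m ≥ 1` -/
theorem t4erf_allAt1 (m : ℕ) (hm : 1 ≤ m) :
    T4eAllAt (t4erfPm 𝔓 N'' h hQ m) m (t4efLayer 𝔓 N'' h m hm).V :=
  t4erf_allAt 𝔓 N'' h hQ h49 (t4erfPm_one 𝔓 N'' h hQ) hstep (t4erfPm_vals' 𝔓 N'' h hQ) hpiA hpiB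
    m hm

include hstep h49 hpQ hpiA hpiB in
/-- **`hreg` on chart 1**, every level `i ≥ 2` -/
theorem t4erf_hreg1 (i : ℕ) (hi : 2 ≤ i)
    (hqB : ((𝔓.p : ℕ) : ↥(TaF ↥(tbFix 𝔓 (⊤ : Subgroup 𝔓.I)) (t4eLev N'' 𝔓.p i))) ∈
      (t4erfPm 𝔓 N'' h hQ i).B)
    (𝔫 : Ideal (t4erfPm 𝔓 N'' h hQ i).B) (h𝔫 : 𝔫.IsMaximal)
    (hq𝔫 : (⟨((𝔓.p : ℕ) : ↥(TaF ↥(tbFix 𝔓 (⊤ : Subgroup 𝔓.I)) (t4eLev N'' 𝔓.p i))), hqB⟩ :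
      (t4erfPm 𝔓 N'' h hQ i).B) ∈ 𝔫) : (t4erfPm 𝔓 N'' h hQ i).RegAt 𝔫 :=
  t4erf_hreg 𝔓 N'' h hQ h49 i hi (t4erfPm_one 𝔓 N'' h hQ) hstep
    (t4erfPm_vals 𝔓 N'' h hQ i (by omega))
    (t4erf_allAt1 𝔓 N'' h hQ h49 hstep hpiA hpiB i (by omega)) hqB 𝔫 hq𝔫
    (fun U hU hUq => t4erf_hsm1 𝔓 N'' h hQ h49 hstep hpQ i (by omega) 𝔫 h𝔫 U hU hUq)

end Fix

end

end Fermat.Agent.T4
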