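/-
T4E (L) (helper1), `Reg/Lift.lean`: **the liftings** (prefix `t4el_`).  Setting = helper3's `Chart/Sm.lean`
section `Gen` (abstract unramified DVR level `(L, O, π, k)`, abstract layer `Y : T4eLayer O π hπ N'' q i`,
`G : T4vmGood … y₀` the good reduction of the chart `y₀` of level `N''`), plus the Frobenius hypothesis
`hΦ : ȳ₀(𝔮^q) = ȳ₀^q`.

For `f ∈ 𝒪_i` integral over `L[a_0 y₀]`, a component `w ≤ i` and a column `n ≤ i` with `x = t4eExp i w n`:

* **`t4el_lift`** : `∃ f₀ ∈ 𝒪_{N''}` integral over `L[y₀]` with `v_w (f ^ (q ^ x) − a_n f₀) < 1`;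
* **`t4el_lift_zero`** (`x = 0`) : `v_w (f − a_n f₀) < 1`;
* **`t4el_lift_one`** (`x = 1`) : `v_w (f ^ q − a_n f₀) < 1`.

Ingredients: `t4ecs_int` (helper3: `ρ_w f` is integral over `k[ȳ₀]`), the coefficientwise Frobenius `σ` of
`E' = k(j̄(𝔮^d) : d ∣ N'')` (`t4elFrob`, fixes `ȳ₀` by `hΦ`, hence preserves `k[ȳ₀]` and its integral closure),
`t^{q^x} = (σ^x t)(𝔮^{q^x})` (`tkr_pow_char`), `T4vmGood.gr` (lifting), and the table `Y.ρ_a`.
-/
import Fermat.Agent.Lib.T4E.Chart.Sm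
import Fermat.Agent.Lib.T4E.Tower.Sep

set_option autoImplicit false
set_option linter.unusedSectionVars false
set_option linter.unusedVariables false
set_option linter.style.haveILetI false
set_option synthInstance.maxHeartbeats 400000
set_option maxHeartbeats 1000000

open HahnSeries ModularCurve IntermediateField Fermat.Agent.T1 Fermat.Agent.T2 Fermat.Agent.TW

noncomputable section

namespace Fermat.Agent.T4

section Frob

variable {k : Type*} [Field k] (q : ℕ) [hq : Fact q.Prime] [CharP k q] (N : ℕ) [NeZero N]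

/-- the coefficientwise Frobenius of `E' = k(j̄(𝔮^d) : d ∣ N)` -/
def t4elFrob : ↥(modularFunctionFieldFullC k N) →+* ↥(modularFunctionFieldFullC k N) :=
  ((coeffMap (frobenius k q)).comp
    (algebraMap ↥(modularFunctionFieldFullC k N) (LaurentSeries k))).codRestrict
    (modularFunctionFieldFullC k N).toSubring (fun t => t4es_frob_mem_full q N t.2)

theorem coe_t4elFrob (t : ↥(modularFunctionFieldFullC k N)) :
    ((t4elFrob q N t : ↥(modularFunctionFieldFullC k N)) : LaurentSeries k) =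
      coeffMap (frobenius k q) (t : LaurentSeries k) := rfl

/-- `t ^ q = (σ t)(𝔮^q)` -/
theorem t4el_pow_eq (t : ↥(modularFunctionFieldFullC k N)) :
    haveI : NeZero q := ⟨hq.out.ne_zero⟩
    (t : LaurentSeries k) ^ q = qExpand k q ((t4elFrob q N t : ↥(modularFunctionFieldFullC k N)) :
      LaurentSeries k) := by
  rw [coe_t4elFrob]
  exact tkr_pow_char q _

/-- `σ` is the Frobenius on the constants -/
theorem t4elFrob_algebraMap (c : k) :
    t4elFrob q N (algebraMap k ↥(modularFunctionFieldFullC k N) c) =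
      algebraMap k ↥(modularFunctionFieldFullC k N) (c ^ q) := by
  apply Subtype.ext
  rw [coe_t4elFrob]
  have h : ∀ c : k, ((algebraMap k ↥(modularFunctionFieldFullC k N) c :
      ↥(modularFunctionFieldFullC k N)) : LaurentSeries k) = HahnSeries.C c := by
    intro c
    rw [← ta_algebraMap_eq_C]
    rfl
  rw [h, h, t4v_coeffMap_C]
  rfl

/-- `σ` fixes an element `y` with `y(𝔮^q) = y^q` -/
theorem t4elFrob_fix {y : ↥(modularFunctionFieldFullC k N)}
    (hΦ : haveI : NeZero q := ⟨hq.out.ne_zero⟩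
      qExpand k q (y : LaurentSeries k) = (y : LaurentSeries k) ^ q) :
    t4elFrob q N y = y := by
  haveI : NeZero q := ⟨hq.out.ne_zero⟩
  apply Subtype.ext
  apply qExpand_injective (R := k) (N := q)
  rw [← t4el_pow_eq q N y, hΦ]

/-- `σ` preserves `k[y]` if `y(𝔮^q) = y^q` -/
theorem t4elFrob_mem_adjoin {y : ↥(modularFunctionFieldFullC k N)}
    (hΦ : haveI : NeZero q := ⟨hq.out.ne_zero⟩
      qExpand k q (y : LaurentSeries k) = (y : LaurentSeries k) ^ q)
    (a : ↥(modularFunctionFieldFullC k N)) (ha : a ∈ Algebra.adjoin k {y}) :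
    t4elFrob q N a ∈ Algebra.adjoin k {y} := by
  induction ha using Algebra.adjoin_induction with
  | mem x hx =>
    rw [Set.mem_singleton_iff] at hx
    rw [hx, t4elFrob_fix q N hΦ]
    exact Algebra.self_mem_adjoin_singleton k y
  | algebraMap c =>
    rw [t4elFrob_algebraMap]
    exact Subalgebra.algebraMap_mem _ _
  | add x z _ _ hx hz =>
    rw [map_add]
    exact add_mem hx hz
  | mul x z _ _ hx hz =>
    rw [map_mul]
    exact mul_mem hx hz

/-- `σ` preserves the integral closure of `k[y]` if `y(𝔮^q) = y^q` -/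
theorem t4elFrob_isIntegral {y : ↥(modularFunctionFieldFullC k N)}
    (hΦ : haveI : NeZero q := ⟨hq.out.ne_zero⟩
      qExpand k q (y : LaurentSeries k) = (y : LaurentSeries k) ^ q)
    {t : ↥(modularFunctionFieldFullC k N)} (ht : IsIntegral ↥(Algebra.adjoin k {y}) t) :
    IsIntegral ↥(Algebra.adjoin k {y}) (t4elFrob q N t) :=
  t4vm_isIntegral_endo (t4elFrob q N) (Algebra.adjoin k {y}) (t4elFrob_mem_adjoin q N hΦ) ht

/-- **`t^{q^x} = t'(𝔮^{q^x})` with `t'` (the `x`-fold Frobenius twist of `t`) still integral over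
`k[y]`** -/
theorem t4el_twist {y : ↥(modularFunctionFieldFullC k N)}
    (hΦ : haveI : NeZero q := ⟨hq.out.ne_zero⟩
      qExpand k q (y : LaurentSeries k) = (y : LaurentSeries k) ^ q) :
    ∀ (x : ℕ) {t : ↥(modularFunctionFieldFullC k N)}, IsIntegral ↥(Algebra.adjoin k {y}) t →
    haveI : NeZero (q ^ x) := ⟨pow_ne_zero _ hq.out.ne_zero⟩
    ∃ t' : ↥(modularFunctionFieldFullC k N), IsIntegral ↥(Algebra.adjoin k {y}) t' ∧
      (t : LaurentSeries k) ^ (q ^ x) = qExpand k (q ^ x) (t' : LaurentSeries k)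
  | 0, t, ht => by
    haveI : NeZero (q ^ 0) := ⟨pow_ne_zero _ hq.out.ne_zero⟩
    refine ⟨t, ht, ?_⟩
    rw [qExpand_congr (pow_zero q) (t : LaurentSeries k), qExpand_one_apply, pow_zero, pow_one]
  | x + 1, t, ht => by
    haveI : NeZero q := ⟨hq.out.ne_zero⟩
    haveI : NeZero (q ^ x) := ⟨pow_ne_zero _ hq.out.ne_zero⟩
    haveI : NeZero (q ^ (x + 1)) := ⟨pow_ne_zero _ hq.out.ne_zero⟩
    haveI : NeZero (q ^ x * q) := ⟨by rw [← pow_succ]; exact pow_ne_zero _ hq.out.ne_zero⟩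
    obtain ⟨t', ht', e1⟩ := t4el_twist hΦ x ht
    refine ⟨t4elFrob q N t', t4elFrob_isIntegral q N hΦ ht', ?_⟩
    have h0 : (t : LaurentSeries k) ^ q ^ (x + 1) = ((t : LaurentSeries k) ^ q ^ x) ^ q := by
      rw [← pow_mul, ← pow_succ]
    rw [h0, e1, ← map_pow, t4el_pow_eq q N t', qExpand_qExpand]
    exact qExpand_congr (pow_succ q x).symm _

end Frob

section Gen

variable {L : Type} [Field L] [Algebra ℚ L] {O : ValuationSubring L} {k : Type*} [Field k]
  {π : ↥O →+* k} [IsDiscreteValuationRing ↥O] {hπ : Function.Surjective π} [IsAlgClosed k]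
  {N'' q : ℕ} [NeZero N''] [hq : Fact q.Prime] [CharP k q] {i : ℕ}
  (Y : T4eLayer O π hπ N'' q i) (hqO : Irreducible ((q : ℕ) : ↥O)) (hN'' : (N'' : k) ≠ 0)
  {Fr : T2iFrob k N'' q} {y0 : ↥(TaF L N'')} (G : T4vmGood O π hπ hN'' Fr y0)

include hqO G in
/-- **the liftings**: for `f ∈ 𝒪_i` integral over `L[a_0 y₀]`, a component `w` and a column `n` of
exponent `x = t4eExp i w n`, there is `f₀ ∈ 𝒪_{N''}` integral over `L[y₀]` with
`f ^ (q ^ x) ≡ a_n f₀` on the component `w` -/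
theorem t4el_lift
    (hΦ : qExpand k q ((G.yb : ↥(modularFunctionFieldFullC k N'')) : LaurentSeries k) =
      ((G.yb : ↥(modularFunctionFieldFullC k N'')) : LaurentSeries k) ^ q)
    {w : ℕ} (hw : w ≤ i) {n : ℕ} (hn : n ≤ i)
    {f : ↥(TaF L (t4eLev N'' q i))} (hf : f ∈ Y.Ov)
    (hfint : f ∈ t2Int (K := L) (t4eDeg L N'' q i 0 y0)) :
    ∃ f0 : ↥(taOv O π hπ N''), (f0 : ↥(TaF L N'')) ∈ t2Int (K := L) y0 ∧
      (Y.V w).valuation (f ^ (q ^ t4eExp i w n) - t4eDeg L N'' q i n (f0 : ↥(TaF L N''))) < 1 := by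
  haveI : NeZero (q ^ t4eExp i w n) := ⟨pow_ne_zero _ hq.out.ne_zero⟩
  have hint : IsIntegral ↥(Algebra.adjoin k {G.yb}) (t4ecsRE Y hN'' hw ⟨f, hf⟩) :=
    t4ecs_int Y hqO hN'' G hw (t4ecs_frob_iter hΦ _) hf hfint
  obtain ⟨t', ht', e1⟩ := t4el_twist q N'' (y := G.yb) hΦ (t4eExp i w n) hint
  obtain ⟨f0, hf0, e⟩ := G.gr t' ht'
  refine ⟨f0, hf0, ?_⟩
  have hmem : f ^ (q ^ t4eExp i w n) - t4eDeg L N'' q i n (f0 : ↥(TaF L N'')) ∈ Y.Ov :=
    sub_mem (pow_mem hf _) (t4ecsA Y n hn f0).2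
  have key : t4ecrRho Y hw (⟨f, hf⟩ ^ (q ^ t4eExp i w n) - t4ecsA Y n hn f0) = 0 := by
    rw [map_sub, map_pow, sub_eq_zero]
    have h1 : t4ecrRho Y hw (t4ecsA Y n hn f0) =
        qExpand k (q ^ t4eExp i w n) (taResN O π hπ N'' f0) :=
      Y.ρ_a w hw n hn (f0 : ↥(TaF L N'')) f0.2
    have h2 : taResN O π hπ N'' f0 = ((t' : ↥(modularFunctionFieldFullC k N'')) :
        LaurentSeries k) := by
      rw [← e, coe_t2iRes]
    rw [h1, h2, ← e1]
    rfl
  exact (t4ecrRho_eq_zero_iff Y hw (⟨f, hf⟩ ^ (q ^ t4eExp i w n) - t4ecsA Y n hn f0)).mp key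

include hqO G in
/-- **liftings, exponent `0`**: `f ≡ a_n f₀` on the component `w` -/
theorem t4el_lift_zero
    (hΦ : qExpand k q ((G.yb : ↥(modularFunctionFieldFullC k N'')) : LaurentSeries k) =
      ((G.yb : ↥(modularFunctionFieldFullC k N'')) : LaurentSeries k) ^ q)
    {w : ℕ} (hw : w ≤ i) {n : ℕ} (hn : n ≤ i) (hx : t4eExp i w n = 0)
    {f : ↥(TaF L (t4eLev N'' q i))} (hf : f ∈ Y.Ov)
    (hfint : f ∈ t2Int (K := L) (t4eDeg L N'' q i 0 y0)) :
    ∃ f0 : ↥(taOv O π hπ N''), (f0 : ↥(TaF L N'')) ∈ t2Int (K := L) y0 ∧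
      (Y.V w).valuation (f - t4eDeg L N'' q i n (f0 : ↥(TaF L N''))) < 1 := by
  obtain ⟨f0, hf0, h⟩ := t4el_lift Y hqO hN'' G hΦ hw hn hf hfint
  refine ⟨f0, hf0, ?_⟩
  rw [hx, pow_zero, pow_one] at h
  exact h

include hqO G in
/-- **liftings, exponent `1`**: `f ^ q ≡ a_n f₀` on the component `w` -/
theorem t4el_lift_one
    (hΦ : qExpand k q ((G.yb : ↥(modularFunctionFieldFullC k N'')) : LaurentSeries k) =
      ((G.yb : ↥(modularFunctionFieldFullC k N'')) : LaurentSeries k) ^ q)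
    {w : ℕ} (hw : w ≤ i) {n : ℕ} (hn : n ≤ i) (hx : t4eExp i w n = 1)
    {f : ↥(TaF L (t4eLev N'' q i))} (hf : f ∈ Y.Ov)
    (hfint : f ∈ t2Int (K := L) (t4eDeg L N'' q i 0 y0)) :
    ∃ f0 : ↥(taOv O π hπ N''), (f0 : ↥(TaF L N'')) ∈ t2Int (K := L) y0 ∧
      (Y.V w).valuation (f ^ q - t4eDeg L N'' q i n (f0 : ↥(TaF L N''))) < 1 := by
  obtain ⟨f0, hf0, h⟩ := t4el_lift Y hqO hN'' G hΦ hw hn hf hfint
  refine ⟨f0, hf0, ?_⟩
  rw [hx, pow_one] at h
  exact h

end Gen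

end Fermat.Agent.T4
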