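/-
T4E (L) (helper1), `Reg/LiftStep.lean`: **the six lifting inputs of helper5's `t4e_hcase_of_tower`**
(`hIDtop`, `hIDsub`, `hIDbot`, `hIDone`, `hpiA`, `hpiB`) for two consecutive levels `i`, `i + 1`, in his
literal shape, from `t4el_lift` (`Reg/Lift.lean`).  Prefix `t4el_`.

Setting: `up : T4eLayer O π hπ N'' q (i + 1)`, `G : T4vmGood … y₀`, `hΦ : ȳ₀(𝔮^q) = ȳ₀^q`,
`P : T4Pres F_{i+1}` with `hB : f ∈ P.B ↔ f ∈ IntCl(L[a_0 y₀]) ∧ f ∈ 𝒪_{i+1}`, `B1` a subring of `F_i`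
(`= P1.B`), `α β : F_i →+* F_{i+1}` with `α (a_n f) = a_n f`, `β (a_n f) = a_{n+1} f`, and
`hdeg : a_n f₀ ∈ B1` for `f₀ ∈ 𝒪_{N''}` integral over `L[y₀]` (chart 1: `a_n B₀ ⊆ B_i`).

* `t4el_step` : (generic) `∀ x ∈ P.B, ∃ a ∈ B1, v_w (x ^ (q ^ t4eExp e w n) − φ a) < 1`;
* `t4el_hIDtop`, `t4el_hIDsub` (along `α`, components `i + 1`, `i`), `t4el_hIDbot`, `t4el_hIDone`
  (along `β`, components `0`, `1`), `t4el_hpiA` (`x ^ q ≡ α a` on the component `0`), `t4el_hpiB`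
  (`x ^ q ≡ β a` on the component `i + 1`).
-/
import Fermat.Agent.Lib.T4E.Reg.Lift

set_option autoImplicit false
set_option linter.unusedSectionVars false
set_option linter.unusedVariables false
set_option linter.style.haveILetI false
set_option synthInstance.maxHeartbeats 400000
set_option maxHeartbeats 1000000

open HahnSeries ModularCurve IntermediateField Fermat.Agent.T1 Fermat.Agent.T2 Fermat.Agent.TW

noncomputable section

namespace Fermat.Agent.T4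

section Gen

variable {L : Type} [Field L] [Algebra ℚ L] {O : ValuationSubring L} {k : Type*} [Field k]
  {π : ↥O →+* k} [IsDiscreteValuationRing ↥O] {hπ : Function.Surjective π} [IsAlgClosed k]
  {N'' q : ℕ} [NeZero N''] [hq : Fact q.Prime] [CharP k q]

/-! ### The exponents of the six columns -/

theorem t4el_exp_top (i : ℕ) : t4eExp (i + 1) (i + 1) 0 = 0 := by
  unfold t4eExp
  rw [if_pos (Nat.zero_le _)]
  omega

theorem t4el_exp_sub {i : ℕ} (hi : 1 ≤ i) : t4eExp (i + 1) i 0 = 0 := by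
  unfold t4eExp
  rw [if_pos (Nat.zero_le _)]
  omega

theorem t4el_exp_bot (i : ℕ) : t4eExp (i + 1) 0 (i + 1) = 0 := by
  unfold t4eExp
  rw [if_neg (by omega)]
  omega

theorem t4el_exp_one {i : ℕ} (hi : 1 ≤ i) : t4eExp (i + 1) 1 (i + 1) = 0 := by
  unfold t4eExp
  rw [if_neg (by omega)]
  omega

theorem t4el_exp_piA (i : ℕ) : t4eExp (i + 1) 0 i = 1 := by
  unfold t4eExp
  by_cases h : i ≤ 0
  · rw [if_pos h]
    omega
  · rw [if_neg h]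
    omega

theorem t4el_exp_piB (i : ℕ) : t4eExp (i + 1) (i + 1) 1 = 1 := by
  unfold t4eExp
  rw [if_pos (by omega)]
  omega

/-! ### The generic step -/

variable {e : ℕ} (Y : T4eLayer O π hπ N'' q e) (hqO : Irreducible ((q : ℕ) : ↥O))
  (hN'' : (N'' : k) ≠ 0)
  {Fr : T2iFrob k N'' q} {y0 : ↥(TaF L N'')} (G : T4vmGood O π hπ hN'' Fr y0)
  (P : T4Pres ↥(TaF L (t4eLev N'' q e)))
  (hB : ∀ f, f ∈ P.B ↔ f ∈ t2Int (K := L) (t4eDeg L N'' q e 0 y0) ∧ f ∈ Y.Ov)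

include hqO G hB in
/-- **the generic lifting step**: every `x` of the chart ring of level `e` is, up to the power
`q ^ t4eExp e w n`, congruent on the component `w` to `φ a`, `a ∈ B1`, if `φ ∘ g = a_n` and `g` maps the
chart ring of level `N''` into `B1` -/
theorem t4el_step
    (hΦ : qExpand k q ((G.yb : ↥(modularFunctionFieldFullC k N'')) : LaurentSeries k) =
      ((G.yb : ↥(modularFunctionFieldFullC k N'')) : LaurentSeries k) ^ q)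
    {F1 : Type*} [Field F1] (B1 : Subring F1) (φ : F1 →+* ↥(TaF L (t4eLev N'' q e)))
    (g : ↥(TaF L N'') → F1) {w n : ℕ} (hw : w ≤ e) (hn : n ≤ e)
    (hφ : ∀ f : ↥(TaF L N''), φ (g f) = t4eDeg L N'' q e n f)
    (hdeg : ∀ f0 : ↥(taOv O π hπ N''), (f0 : ↥(TaF L N'')) ∈ t2Int (K := L) y0 →
      g (f0 : ↥(TaF L N'')) ∈ B1) :
    ∀ x ∈ P.B, ∃ a ∈ B1, (Y.V w).valuation (x ^ (q ^ t4eExp e w n) - φ a) < 1 := by
  intro x hx
  obtain ⟨hxint, hxO⟩ := (hB x).mp hx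
  obtain ⟨f0, hf0, h⟩ := t4el_lift Y hqO hN'' G hΦ hw hn hxO hxint
  refine ⟨g (f0 : ↥(TaF L N'')), hdeg f0 hf0, ?_⟩
  rw [hφ]
  exact h

include hqO G hB in
/-- the generic step at a column of exponent `0` -/
theorem t4el_step_zero
    (hΦ : qExpand k q ((G.yb : ↥(modularFunctionFieldFullC k N'')) : LaurentSeries k) =
      ((G.yb : ↥(modularFunctionFieldFullC k N'')) : LaurentSeries k) ^ q)
    {F1 : Type*} [Field F1] (B1 : Subring F1) (φ : F1 →+* ↥(TaF L (t4eLev N'' q e)))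
    (g : ↥(TaF L N'') → F1) {w n : ℕ} (hw : w ≤ e) (hn : n ≤ e) (hx : t4eExp e w n = 0)
    (hφ : ∀ f : ↥(TaF L N''), φ (g f) = t4eDeg L N'' q e n f)
    (hdeg : ∀ f0 : ↥(taOv O π hπ N''), (f0 : ↥(TaF L N'')) ∈ t2Int (K := L) y0 →
      g (f0 : ↥(TaF L N'')) ∈ B1) :
    ∀ b ∈ P.B, ∃ b' ∈ B1, (Y.V w).valuation (b - φ b') < 1 := by
  intro b hb
  obtain ⟨a, ha, h⟩ := t4el_step Y hqO hN'' G P hB hΦ B1 φ g hw hn hφ hdeg b hb
  refine ⟨a, ha, ?_⟩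
  rw [hx, pow_zero, pow_one] at h
  exact h

include hqO G hB in
/-- the generic step at a column of exponent `1` -/
theorem t4el_step_one
    (hΦ : qExpand k q ((G.yb : ↥(modularFunctionFieldFullC k N'')) : LaurentSeries k) =
      ((G.yb : ↥(modularFunctionFieldFullC k N'')) : LaurentSeries k) ^ q)
    {F1 : Type*} [Field F1] (B1 : Subring F1) (φ : F1 →+* ↥(TaF L (t4eLev N'' q e)))
    (g : ↥(TaF L N'') → F1) {w n : ℕ} (hw : w ≤ e) (hn : n ≤ e) (hx : t4eExp e w n = 1)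
    (hφ : ∀ f : ↥(TaF L N''), φ (g f) = t4eDeg L N'' q e n f)
    (hdeg : ∀ f0 : ↥(taOv O π hπ N''), (f0 : ↥(TaF L N'')) ∈ t2Int (K := L) y0 →
      g (f0 : ↥(TaF L N'')) ∈ B1) :
    ∀ x ∈ P.B, ∃ a ∈ B1, (Y.V w).valuation (x ^ q - φ a) < 1 := by
  intro x hx'
  obtain ⟨a, ha, h⟩ := t4el_step Y hqO hN'' G P hB hΦ B1 φ g hw hn hφ hdeg x hx'
  refine ⟨a, ha, ?_⟩
  rw [hx, pow_one] at h
  exact h

end Gen

/-! ### The six inputs for two consecutive levels -/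

section Six

variable {L : Type} [Field L] [Algebra ℚ L] {O : ValuationSubring L} {k : Type*} [Field k]
  {π : ↥O →+* k} [IsDiscreteValuationRing ↥O] {hπ : Function.Surjective π} [IsAlgClosed k]
  {N'' q : ℕ} [NeZero N''] [hq : Fact q.Prime] [CharP k q] {i : ℕ}
  (up : T4eLayer O π hπ N'' q (i + 1)) (hqO : Irreducible ((q : ℕ) : ↥O))
  (hN'' : (N'' : k) ≠ 0)
  {Fr : T2iFrob k N'' q} {y0 : ↥(TaF L N'')} (G : T4vmGood O π hπ hN'' Fr y0)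
  (P : T4Pres ↥(TaF L (t4eLev N'' q (i + 1))))
  (hB : ∀ f, f ∈ P.B ↔ f ∈ t2Int (K := L) (t4eDeg L N'' q (i + 1) 0 y0) ∧ f ∈ up.Ov)
  (hΦ : qExpand k q ((G.yb : ↥(modularFunctionFieldFullC k N'')) : LaurentSeries k) =
    ((G.yb : ↥(modularFunctionFieldFullC k N'')) : LaurentSeries k) ^ q)
  (B1 : Subring ↥(TaF L (t4eLev N'' q i)))
  (α β : ↥(TaF L (t4eLev N'' q i)) →+* ↥(TaF L (t4eLev N'' q (i + 1))))
  (hα : ∀ n, n ≤ i → ∀ f : ↥(TaF L N''),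
    α (t4eDeg L N'' q i n f) = t4eDeg L N'' q (i + 1) n f)
  (hβ : ∀ n, n ≤ i → ∀ f : ↥(TaF L N''),
    β (t4eDeg L N'' q i n f) = t4eDeg L N'' q (i + 1) (n + 1) f)

include hqO G hB hΦ hα in
/-- `hIDtop` : `b ≡ α (a_0 f₀)` on the component `i + 1` -/
theorem t4el_hIDtop
    (hdeg : ∀ f0 : ↥(taOv O π hπ N''), (f0 : ↥(TaF L N'')) ∈ t2Int (K := L) y0 →
      t4eDeg L N'' q i 0 (f0 : ↥(TaF L N'')) ∈ B1) :
    ∀ b ∈ P.B, ∃ b' ∈ B1, (up.V (i + 1)).valuation (b - α b') < 1 :=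
  t4el_step_zero up hqO hN'' G P hB hΦ B1 α (fun f => t4eDeg L N'' q i 0 f) le_rfl
    (Nat.zero_le _) (t4el_exp_top i) (fun f => hα 0 (Nat.zero_le i) f) hdeg

include hqO G hB hΦ hα in
/-- `hIDsub` : `b ≡ α (a_0 f₀)` on the component `i` (`i ≥ 1`) -/
theorem t4el_hIDsub (hi : 1 ≤ i)
    (hdeg : ∀ f0 : ↥(taOv O π hπ N''), (f0 : ↥(TaF L N'')) ∈ t2Int (K := L) y0 →
      t4eDeg L N'' q i 0 (f0 : ↥(TaF L N'')) ∈ B1) :
    ∀ b ∈ P.B, ∃ b' ∈ B1, (up.V i).valuation (b - α b') < 1 :=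
  t4el_step_zero up hqO hN'' G P hB hΦ B1 α (fun f => t4eDeg L N'' q i 0 f) (Nat.le_succ i)
    (Nat.zero_le _) (t4el_exp_sub hi) (fun f => hα 0 (Nat.zero_le i) f) hdeg

include hqO G hB hΦ hβ in
/-- `hIDbot` : `b ≡ β (a_i f₀)` on the component `0` -/
theorem t4el_hIDbot
    (hdeg : ∀ f0 : ↥(taOv O π hπ N''), (f0 : ↥(TaF L N'')) ∈ t2Int (K := L) y0 →
      t4eDeg L N'' q i i (f0 : ↥(TaF L N'')) ∈ B1) :
    ∀ b ∈ P.B, ∃ b' ∈ B1, (up.V 0).valuation (b - β b') < 1 :=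
  t4el_step_zero up hqO hN'' G P hB hΦ B1 β (fun f => t4eDeg L N'' q i i f) (Nat.zero_le _)
    le_rfl (t4el_exp_bot i) (fun f => hβ i le_rfl f) hdeg

include hqO G hB hΦ hβ in
/-- `hIDone` : `b ≡ β (a_i f₀)` on the component `1` (`i ≥ 1`) -/
theorem t4el_hIDone (hi : 1 ≤ i)
    (hdeg : ∀ f0 : ↥(taOv O π hπ N''), (f0 : ↥(TaF L N'')) ∈ t2Int (K := L) y0 →
      t4eDeg L N'' q i i (f0 : ↥(TaF L N'')) ∈ B1) :
    ∀ b ∈ P.B, ∃ b' ∈ B1, (up.V 1).valuation (b - β b') < 1 :=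
  t4el_step_zero up hqO hN'' G P hB hΦ B1 β (fun f => t4eDeg L N'' q i i f)
    (by omega : 1 ≤ i + 1) le_rfl (t4el_exp_one hi) (fun f => hβ i le_rfl f) hdeg

include hqO G hB hΦ hα in
/-- `hpiA` (`Qa = q`) : `x ^ q ≡ α (a_i f₀)` on the component `0` -/
theorem t4el_hpiA
    (hdeg : ∀ f0 : ↥(taOv O π hπ N''), (f0 : ↥(TaF L N'')) ∈ t2Int (K := L) y0 →
      t4eDeg L N'' q i i (f0 : ↥(TaF L N'')) ∈ B1) :
    ∀ x ∈ P.B, ∃ a ∈ B1, (up.V 0).valuation (x ^ q - α a) < 1 :=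
  t4el_step_one up hqO hN'' G P hB hΦ B1 α (fun f => t4eDeg L N'' q i i f) (Nat.zero_le _)
    (Nat.le_succ i) (t4el_exp_piA i) (fun f => hα i le_rfl f) hdeg

include hqO G hB hΦ hβ in
/-- `hpiB` (`Qb = q`) : `x ^ q ≡ β (a_0 f₀)` on the component `i + 1` -/
theorem t4el_hpiB
    (hdeg : ∀ f0 : ↥(taOv O π hπ N''), (f0 : ↥(TaF L N'')) ∈ t2Int (K := L) y0 →
      t4eDeg L N'' q i 0 (f0 : ↥(TaF L N'')) ∈ B1) :
    ∀ x ∈ P.B, ∃ a ∈ B1, (up.V (i + 1)).valuation (x ^ q - β a) < 1 :=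
  t4el_step_one up hqO hN'' G P hB hΦ B1 β (fun f => t4eDeg L N'' q i 0 f) le_rfl
    (by omega : 1 ≤ i + 1) (t4el_exp_piB i) (fun f => hβ 0 (Nat.zero_le i) f) hdeg

end Six

end Fermat.Agent.T4
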