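/-
T4E-R (helper6), part 12: **chart 1 at the inertia level from helper2's `Over` steps ALONE**: the two
purely inseparable liftings `hpiA`, `hpiB` of `Reg/Chart1Fix.lean` are discharged by helper1's
`Reg/LiftStep.lean` (`t4el_hpiA`, `t4el_hpiB`) with `a_n B₀ ⊆ B_m` from the chain (`t4erf_deg_mem`).

* `t4erf_hB0` : the dictionary of `t4erfPm` in the form `IntCl(L[a_0 X']) ∩ 𝒪_m`;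
* `t4erf_hΦ` : `X̄'(𝔮^p) = X̄'^p`;
* `t4erf_hdeg` : `a_n f₀ ∈ B_m` for `f₀` in the chart ring of level `N''`;
* `t4erf_hpiA`, `t4erf_hpiB`; the four `hID`'s `t4erf_hIDtop`, `t4erf_hIDsub`, `t4erf_hIDbot`,
  `t4erf_hIDone` of helper5's `t4e_hcase_of_tower`;
* **`t4erf_allAt1'`**, **`t4erf_hreg1'`** : ALL-OR-ONE (every level `m ≥ 1`) and `hreg` (every level
  `i ≥ 2`) on chart 1 with `hstep` as the only hypothesis.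
-/
import Fermat.Agent.Lib.T4E.Reg.Chart1Fix
import Fermat.Agent.Lib.T4E.Reg.LiftStep

set_option autoImplicit false
set_option linter.unusedSectionVars false
set_option linter.unusedVariables false
set_option linter.style.haveILetI false
set_option synthInstance.maxHeartbeats 400000

namespace Fermat.Agent.T4

open Fermat.Agent.S24Lib Fermat.Agent.T1 Fermat.Agent.T1.KMod Fermat.Agent.T2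
open ModularCurve HahnSeries Fermat.Agent.TW Fermat.Agent.S05Lib

local notation "Qb" => AlgebraicClosure ℚ

noncomputable section

section Fix

attribute [local instance] t2i_dvr t2i_isAlgClosed t2i_charP t2i_fact

variable (𝔓 : FFPlace) (N'' : ℕ) [NeZero N''] (h : ¬ 𝔓.p ∣ N'') {Q : ℕ} (hQ : 2 ≤ Q)
  (h49 : 4 ∣ N'' ∨ 9 ∣ N'') (hpQ : 𝔓.p ∣ Q)

/-- the dictionary of the tower in the form used by the liftings -/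
theorem t4erf_hB0 (m : ℕ) (hm : 1 ≤ m)
    (f : ↥(TaF ↥(tbFix 𝔓 (⊤ : Subgroup 𝔓.I)) (t4eLev N'' 𝔓.p m))) :
    f ∈ (t4erfPm 𝔓 N'' h hQ m).B ↔
      f ∈ t2Int (K := ↥(tbFix 𝔓 (⊤ : Subgroup 𝔓.I)))
        (t4eDeg ↥(tbFix 𝔓 (⊤ : Subgroup 𝔓.I)) N'' 𝔓.p m 0
          (t4vX' ↥(tbFix 𝔓 (⊤ : Subgroup 𝔓.I)) N'' Q)) ∧
      f ∈ (t4efLayer 𝔓 N'' h m hm).Ov := by
  rw [← t4ecX_eq]
  exact t4erfPm_mem_B 𝔓 N'' h hQ m hm f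

include hQ h49 hpQ in
/-- `X̄'(𝔮^p) = X̄'^p` -/
theorem t4erf_hΦ :
    qExpand (IsLocalRing.ResidueField ↥𝔓.P) 𝔓.p
      (((t4vg_good_X 𝔓 ⊤ N'' h h49 hQ hpQ).yb :
        ↥(modularFunctionFieldFullC (IsLocalRing.ResidueField ↥𝔓.P) N'')) :
        LaurentSeries (IsLocalRing.ResidueField ↥𝔓.P)) =
      (((t4vg_good_X 𝔓 ⊤ N'' h h49 hQ hpQ).yb :
        ↥(modularFunctionFieldFullC (IsLocalRing.ResidueField ↥𝔓.P) N'')) :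
        LaurentSeries (IsLocalRing.ResidueField ↥𝔓.P)) ^ 𝔓.p := by
  have h1 := t4ecs_frob_good_X 𝔓 N'' h (t4vg_good_X 𝔓 ⊤ N'' h h49 hQ hpQ) 1
  refine (qExpand_congr (pow_one 𝔓.p).symm _).trans (h1.trans ?_)
  rw [pow_one]

variable (hstep : ∀ m, 1 ≤ m → T4erStep (t4erfPm 𝔓 N'' h hQ) m)

include hstep h49 in
/-- `a_n f₀ ∈ B_m` for `f₀` in the chart ring of level `N''` -/
theorem t4erf_hdeg {m n : ℕ} (hm : 1 ≤ m) (hn : n ≤ m)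
    (f0 : ↥(taOv (tbFixO 𝔓 ⊤) (tbFixRes 𝔓 ⊤) (tbFixRes_surjective 𝔓 ⊤) N''))
    (hf0 : (f0 : ↥(TaF ↥(tbFix 𝔓 (⊤ : Subgroup 𝔓.I)) N'')) ∈
      t2Int (K := ↥(tbFix 𝔓 (⊤ : Subgroup 𝔓.I)))
        (t4vX' ↥(tbFix 𝔓 (⊤ : Subgroup 𝔓.I)) N'' Q)) :
    t4eDeg ↥(tbFix 𝔓 (⊤ : Subgroup 𝔓.I)) N'' 𝔓.p m n
      (f0 : ↥(TaF ↥(tbFix 𝔓 (⊤ : Subgroup 𝔓.I)) N'')) ∈ (t4erfPm 𝔓 N'' h hQ m).B :=
  t4erf_deg_mem 𝔓 N'' h hQ h49 hstep hm hn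
    ((mem_t4rLevFixP'_B 𝔓 N'' hQ _).mpr ⟨hf0, f0.2⟩)

include hstep h49 hpQ in
/-- **`hpiA`** at every step `m → m + 1` -/
theorem t4erf_hpiA (m : ℕ) (hm : 1 ≤ m) :
    ∀ x ∈ (t4erfPm 𝔓 N'' h hQ (m + 1)).B, ∃ a ∈ (t4erfPm 𝔓 N'' h hQ m).B,
      ((t4efLayer 𝔓 N'' h (m + 1) (by omega)).V 0).valuation
        (x ^ 𝔓.p - t4erAl ↥(tbFix 𝔓 (⊤ : Subgroup 𝔓.I)) N'' 𝔓.p m a) < 1 :=
  t4el_hpiA (t4efLayer 𝔓 N'' h (m + 1) (by omega)) (t4cy_irreducible_p 𝔓)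
    (t2i_natCast_ne_zero 𝔓 h) (t4vg_good_X 𝔓 ⊤ N'' h h49 hQ hpQ) (t4erfPm 𝔓 N'' h hQ (m + 1))
    (t4erf_hB0 𝔓 N'' h hQ (m + 1) (by omega)) (t4erf_hΦ 𝔓 N'' h hQ h49 hpQ)
    (t4erfPm 𝔓 N'' h hQ m).B (t4erAl ↥(tbFix 𝔓 (⊤ : Subgroup 𝔓.I)) N'' 𝔓.p m)
    (fun n hn f => t4e_alpha_deg _ N'' 𝔓.p hn f)
    (fun f0 hf0 => t4erf_hdeg 𝔓 N'' h hQ h49 hstep hm le_rfl f0 hf0)

include hstep h49 hpQ in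
/-- **`hpiB`** at every step `m → m + 1` -/
theorem t4erf_hpiB (m : ℕ) (hm : 1 ≤ m) :
    ∀ x ∈ (t4erfPm 𝔓 N'' h hQ (m + 1)).B, ∃ a ∈ (t4erfPm 𝔓 N'' h hQ m).B,
      ((t4efLayer 𝔓 N'' h (m + 1) (by omega)).V (m + 1)).valuation
        (x ^ 𝔓.p - t4erBe ↥(tbFix 𝔓 (⊤ : Subgroup 𝔓.I)) N'' 𝔓.p m a) < 1 :=
  t4el_hpiB (t4efLayer 𝔓 N'' h (m + 1) (by omega)) (t4cy_irreducible_p 𝔓)
    (t2i_natCast_ne_zero 𝔓 h) (t4vg_good_X 𝔓 ⊤ N'' h h49 hQ hpQ) (t4erfPm 𝔓 N'' h hQ (m + 1))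
    (t4erf_hB0 𝔓 N'' h hQ (m + 1) (by omega)) (t4erf_hΦ 𝔓 N'' h hQ h49 hpQ)
    (t4erfPm 𝔓 N'' h hQ m).B (t4erBe ↥(tbFix 𝔓 (⊤ : Subgroup 𝔓.I)) N'' 𝔓.p m)
    (fun n hn f => t4e_beta_deg _ N'' 𝔓.p hn f)
    (fun f0 hf0 => t4erf_hdeg 𝔓 N'' h hQ h49 hstep hm (Nat.zero_le m) f0 hf0)

include hstep h49 hpQ in
/-- `hIDtop` of `t4e_hcase_of_tower` at the step `m → m + 1` -/
theorem t4erf_hIDtop (m : ℕ) (hm : 1 ≤ m) :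
    ∀ b ∈ (t4erfPm 𝔓 N'' h hQ (m + 1)).B, ∃ b' ∈ (t4erfPm 𝔓 N'' h hQ m).B,
      ((t4efLayer 𝔓 N'' h (m + 1) (by omega)).V (m + 1)).valuation
        (b - t4erAl ↥(tbFix 𝔓 (⊤ : Subgroup 𝔓.I)) N'' 𝔓.p m b') < 1 :=
  t4el_hIDtop (t4efLayer 𝔓 N'' h (m + 1) (by omega)) (t4cy_irreducible_p 𝔓)
    (t2i_natCast_ne_zero 𝔓 h) (t4vg_good_X 𝔓 ⊤ N'' h h49 hQ hpQ) (t4erfPm 𝔓 N'' h hQ (m + 1))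
    (t4erf_hB0 𝔓 N'' h hQ (m + 1) (by omega)) (t4erf_hΦ 𝔓 N'' h hQ h49 hpQ)
    (t4erfPm 𝔓 N'' h hQ m).B (t4erAl ↥(tbFix 𝔓 (⊤ : Subgroup 𝔓.I)) N'' 𝔓.p m)
    (fun n hn f => t4e_alpha_deg _ N'' 𝔓.p hn f)
    (fun f0 hf0 => t4erf_hdeg 𝔓 N'' h hQ h49 hstep hm (Nat.zero_le m) f0 hf0)

include hstep h49 hpQ in
/-- `hIDsub` of `t4e_hcase_of_tower` at the step `m → m + 1` -/
theorem t4erf_hIDsub (m : ℕ) (hm : 1 ≤ m) :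
    ∀ b ∈ (t4erfPm 𝔓 N'' h hQ (m + 1)).B, ∃ b' ∈ (t4erfPm 𝔓 N'' h hQ m).B,
      ((t4efLayer 𝔓 N'' h (m + 1) (by omega)).V m).valuation
        (b - t4erAl ↥(tbFix 𝔓 (⊤ : Subgroup 𝔓.I)) N'' 𝔓.p m b') < 1 :=
  t4el_hIDsub (t4efLayer 𝔓 N'' h (m + 1) (by omega)) (t4cy_irreducible_p 𝔓)
    (t2i_natCast_ne_zero 𝔓 h) (t4vg_good_X 𝔓 ⊤ N'' h h49 hQ hpQ) (t4erfPm 𝔓 N'' h hQ (m + 1))
    (t4erf_hB0 𝔓 N'' h hQ (m + 1) (by omega)) (t4erf_hΦ 𝔓 N'' h hQ h49 hpQ)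
    (t4erfPm 𝔓 N'' h hQ m).B (t4erAl ↥(tbFix 𝔓 (⊤ : Subgroup 𝔓.I)) N'' 𝔓.p m)
    (fun n hn f => t4e_alpha_deg _ N'' 𝔓.p hn f) hm
    (fun f0 hf0 => t4erf_hdeg 𝔓 N'' h hQ h49 hstep hm (Nat.zero_le m) f0 hf0)

include hstep h49 hpQ in
/-- `hIDbot` of `t4e_hcase_of_tower` at the step `m → m + 1` -/
theorem t4erf_hIDbot (m : ℕ) (hm : 1 ≤ m) :
    ∀ b ∈ (t4erfPm 𝔓 N'' h hQ (m + 1)).B, ∃ b' ∈ (t4erfPm 𝔓 N'' h hQ m).B,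
      ((t4efLayer 𝔓 N'' h (m + 1) (by omega)).V 0).valuation
        (b - t4erBe ↥(tbFix 𝔓 (⊤ : Subgroup 𝔓.I)) N'' 𝔓.p m b') < 1 :=
  t4el_hIDbot (t4efLayer 𝔓 N'' h (m + 1) (by omega)) (t4cy_irreducible_p 𝔓)
    (t2i_natCast_ne_zero 𝔓 h) (t4vg_good_X 𝔓 ⊤ N'' h h49 hQ hpQ) (t4erfPm 𝔓 N'' h hQ (m + 1))
    (t4erf_hB0 𝔓 N'' h hQ (m + 1) (by omega)) (t4erf_hΦ 𝔓 N'' h hQ h49 hpQ)
    (t4erfPm 𝔓 N'' h hQ m).B (t4erBe ↥(tbFix 𝔓 (⊤ : Subgroup 𝔓.I)) N'' 𝔓.p m)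
    (fun n hn f => t4e_beta_deg _ N'' 𝔓.p hn f)
    (fun f0 hf0 => t4erf_hdeg 𝔓 N'' h hQ h49 hstep hm le_rfl f0 hf0)

include hstep h49 hpQ in
/-- `hIDone` of `t4e_hcase_of_tower` at the step `m → m + 1` -/
theorem t4erf_hIDone (m : ℕ) (hm : 1 ≤ m) :
    ∀ b ∈ (t4erfPm 𝔓 N'' h hQ (m + 1)).B, ∃ b' ∈ (t4erfPm 𝔓 N'' h hQ m).B,
      ((t4efLayer 𝔓 N'' h (m + 1) (by omega)).V 1).valuation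
        (b - t4erBe ↥(tbFix 𝔓 (⊤ : Subgroup 𝔓.I)) N'' 𝔓.p m b') < 1 :=
  t4el_hIDone (t4efLayer 𝔓 N'' h (m + 1) (by omega)) (t4cy_irreducible_p 𝔓)
    (t2i_natCast_ne_zero 𝔓 h) (t4vg_good_X 𝔓 ⊤ N'' h h49 hQ hpQ) (t4erfPm 𝔓 N'' h hQ (m + 1))
    (t4erf_hB0 𝔓 N'' h hQ (m + 1) (by omega)) (t4erf_hΦ 𝔓 N'' h hQ h49 hpQ)
    (t4erfPm 𝔓 N'' h hQ m).B (t4erBe ↥(tbFix 𝔓 (⊤ : Subgroup 𝔓.I)) N'' 𝔓.p m)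
    (fun n hn f => t4e_beta_deg _ N'' 𝔓.p hn f) hm
    (fun f0 hf0 => t4erf_hdeg 𝔓 N'' h hQ h49 hstep hm le_rfl f0 hf0)

include hstep h49 hpQ in
/-- **ALL-OR-ONE on chart 1**, every level `m ≥ 1`, from the `Over` steps alone -/
theorem t4erf_allAt1' (m : ℕ) (hm : 1 ≤ m) :
    T4eAllAt (t4erfPm 𝔓 N'' h hQ m) m (t4efLayer 𝔓 N'' h m hm).V :=
  t4erf_allAt1 𝔓 N'' h hQ h49 hstep (t4erf_hpiA 𝔓 N'' h hQ h49 hpQ hstep)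
    (t4erf_hpiB 𝔓 N'' h hQ h49 hpQ hstep) m hm

include hstep h49 hpQ in
/-- **`hreg` on chart 1**, every level `i ≥ 2`, from the `Over` steps alone -/
theorem t4erf_hreg1' (i : ℕ) (hi : 2 ≤ i)
    (hqB : ((𝔓.p : ℕ) : ↥(TaF ↥(tbFix 𝔓 (⊤ : Subgroup 𝔓.I)) (t4eLev N'' 𝔓.p i))) ∈
      (t4erfPm 𝔓 N'' h hQ i).B)
    (𝔫 : Ideal (t4erfPm 𝔓 N'' h hQ i).B) (h𝔫 : 𝔫.IsMaximal)
    (hq𝔫 : (⟨((𝔓.p : ℕ) : ↥(TaF ↥(tbFix 𝔓 (⊤ : Subgroup 𝔓.I)) (t4eLev N'' 𝔓.p i))), hqB⟩ :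
      (t4erfPm 𝔓 N'' h hQ i).B) ∈ 𝔫) : (t4erfPm 𝔓 N'' h hQ i).RegAt 𝔫 :=
  t4erf_hreg1 𝔓 N'' h hQ h49 hstep hpQ (t4erf_hpiA 𝔓 N'' h hQ h49 hpQ hstep)
    (t4erf_hpiB 𝔓 N'' h hQ h49 hpQ hstep) i hi hqB 𝔫 h𝔫 hq𝔫

end Fix

end

end Fermat.Agent.T4
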