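/-
T4E-R (helper6), part 13: **the chart-1 tower `t4erfPm` at the inertia level: the ready-made inputs of
step C (P8)**, every one a one-liner for the concrete tower `t4erfPm 𝔓 N'' h hQ`:

* `t4erf_pB` : `p ∈ B_m`; `t4erf_lab` : helper5's `T4eLab` at level `m ≥ 1`;
* `t4erf_stepA`, `t4erf_stepB` : helper5's `T4eStep` along `α`, `β` (from `hstep`);
* `t4erf_noeth` : `B_m` noetherian (helper3's `t4ecrn_noeth_X_fix`);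
* `t4erf_const_mem` : the constants of `O` lie in `B_m`; `t4erf_minv` : `n⁻¹ ∈ B_m`, `n` prime to `p`.
-/
import Fermat.Agent.Lib.T4E.Reg.Chart1Lift
import Fermat.Agent.Lib.T4E.Chart.Noeth
import Fermat.Agent.Lib.T4.New.HhPack

set_option autoImplicit false
set_option linter.unusedSectionVars false
set_option linter.unusedVariables false
set_option linter.style.haveILetI false
set_option synthInstance.maxHeartbeats 400000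

namespace Fermat.Agent.T4

open Fermat.Agent.S24Lib Fermat.Agent.T1 Fermat.Agent.T1.KMod Fermat.Agent.T2
open ModularCurve HahnSeries Fermat.Agent.TW Fermat.Agent.S05Lib

local notation "Qb" => AlgebraicClosure ℚ

noncomputable section

section Fix

attribute [local instance] t2i_dvr t2i_isAlgClosed t2i_charP t2i_fact

variable (𝔓 : FFPlace) (N'' : ℕ) [NeZero N''] (h : ¬ 𝔓.p ∣ N'') {Q : ℕ} (hQ : 2 ≤ Q)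

/-- `p ∈ B_m` -/
theorem t4erf_pB (m : ℕ) (hm : 1 ≤ m) :
    ((𝔓.p : ℕ) : ↥(TaF ↥(tbFix 𝔓 (⊤ : Subgroup 𝔓.I)) (t4eLev N'' 𝔓.p m))) ∈
      (t4erfPm 𝔓 N'' h hQ m).B :=
  t4erf_p_mem 𝔓 N'' h hm (t4erfPm_vals 𝔓 N'' h hQ m hm)

/-- the labelling of the vertical valuation rings of `t4erfPm … m` -/
theorem t4erf_lab (m : ℕ) (hm : 1 ≤ m) :
    T4eLab (t4erfPm 𝔓 N'' h hQ m)
      ((𝔓.p : ℕ) : ↥(TaF ↥(tbFix 𝔓 (⊤ : Subgroup 𝔓.I)) (t4eLev N'' 𝔓.p m))) m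
      (t4efLayer 𝔓 N'' h m hm).V :=
  t4er_lab (t4efLayer 𝔓 N'' h m hm) (t4erfPm_vals 𝔓 N'' h hQ m hm) (t4erf_pB 𝔓 N'' h hQ m hm)

/-- the constants of `O` lie in `B_m` -/
theorem t4erf_const_mem (m : ℕ) (hm : 1 ≤ m) (c : ↥(tbFixO 𝔓 (⊤ : Subgroup 𝔓.I))) :
    algebraMap ↥(tbFix 𝔓 (⊤ : Subgroup 𝔓.I))
      ↥(TaF ↥(tbFix 𝔓 (⊤ : Subgroup 𝔓.I)) (t4eLev N'' 𝔓.p m))
      (c : ↥(tbFix 𝔓 (⊤ : Subgroup 𝔓.I))) ∈ (t4erfPm 𝔓 N'' h hQ m).B :=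
  t4ecr_const_mem_B (t4efLayer 𝔓 N'' h m hm) (t4erfPm 𝔓 N'' h hQ m)
    (t4erfPm_vals 𝔓 N'' h hQ m hm) c

/-- `n⁻¹ ∈ B_m` for `n` prime to `p` -/
theorem t4erf_minv (m : ℕ) (hm : 1 ≤ m) {n : ℕ} (hn : Nat.Coprime n 𝔓.p) :
    ((n : ℕ) : ↥(TaF ↥(tbFix 𝔓 (⊤ : Subgroup 𝔓.I)) (t4eLev N'' 𝔓.p m)))⁻¹ ∈
      (t4erfPm 𝔓 N'' h hQ m).B := by
  have hn0 : tbFixRes 𝔓 (⊤ : Subgroup 𝔓.I) ((n : ℕ) : ↥(tbFixO 𝔓 (⊤ : Subgroup 𝔓.I))) ≠ 0 := by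
    rw [map_natCast]
    intro h0
    have hdvd := (CharP.cast_eq_zero_iff _ 𝔓.p n).mp h0
    have h1 : 𝔓.p ∣ Nat.gcd n 𝔓.p := Nat.dvd_gcd hdvd dvd_rfl
    rw [hn] at h1
    exact 𝔓.hp.one_lt.ne' (Nat.dvd_one.mp h1)
  have hinv := t4nh_inv_mem_of_pi_ne (tbFixO 𝔓 (⊤ : Subgroup 𝔓.I)) (tbFixRes 𝔓 ⊤)
    (tbFixRes_surjective 𝔓 ⊤) (t4cy_irreducible_p 𝔓) hn0
  have h1 := t4erf_const_mem 𝔓 N'' h hQ m hm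
    ⟨((((n : ℕ) : ↥(tbFixO 𝔓 (⊤ : Subgroup 𝔓.I))) : ↥(tbFix 𝔓 (⊤ : Subgroup 𝔓.I))))⁻¹, hinv⟩
  have e : algebraMap ↥(tbFix 𝔓 (⊤ : Subgroup 𝔓.I))
      ↥(TaF ↥(tbFix 𝔓 (⊤ : Subgroup 𝔓.I)) (t4eLev N'' 𝔓.p m))
      ((((n : ℕ) : ↥(tbFixO 𝔓 (⊤ : Subgroup 𝔓.I))) : ↥(tbFix 𝔓 (⊤ : Subgroup 𝔓.I))))⁻¹ =
      ((n : ℕ) : ↥(TaF ↥(tbFix 𝔓 (⊤ : Subgroup 𝔓.I)) (t4eLev N'' 𝔓.p m)))⁻¹ := by
    rw [map_inv₀]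
    congr 1
    rw [show ((((n : ℕ) : ↥(tbFixO 𝔓 (⊤ : Subgroup 𝔓.I))) : ↥(tbFix 𝔓 (⊤ : Subgroup 𝔓.I)))) =
      ((n : ℕ) : ↥(tbFix 𝔓 (⊤ : Subgroup 𝔓.I))) from by push_cast; rfl, map_natCast]
  rw [← e]
  exact h1

/-- **`B_m` is noetherian** -/
theorem t4erf_noeth (m : ℕ) (hm : 1 ≤ m) : IsNoetherianRing ↥(t4erfPm 𝔓 N'' h hQ m).B :=
  t4ecrn_noeth_X_fix 𝔓 N'' h (t4efLayer 𝔓 N'' h m hm) hQ (t4erfPm 𝔓 N'' h hQ m).B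
    (t4erfPm_mem_B 𝔓 N'' h hQ m hm)

variable (hstep : ∀ m, 1 ≤ m → T4erStep (t4erfPm 𝔓 N'' h hQ) m)

include hstep in
/-- helper5's `T4eStep` along `α` for the tower `t4erfPm` -/
theorem t4erf_stepA (m : ℕ) (hm : 1 ≤ m) :
    @T4eStep _ _ _ _ (t4erAl ↥(tbFix 𝔓 (⊤ : Subgroup 𝔓.I)) N'' 𝔓.p m).toAlgebra
      (t4erfPm 𝔓 N'' h hQ m) (t4erfPm 𝔓 N'' h hQ (m + 1))
      ((𝔓.p : ℕ) : ↥(TaF ↥(tbFix 𝔓 (⊤ : Subgroup 𝔓.I)) (t4eLev N'' 𝔓.p m)))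
      ((𝔓.p : ℕ) : ↥(TaF ↥(tbFix 𝔓 (⊤ : Subgroup 𝔓.I)) (t4eLev N'' 𝔓.p (m + 1)))) m
      (t4efLayer 𝔓 N'' h m hm).V (t4efLayer 𝔓 N'' h (m + 1) (by omega)).V (fun w => min w m) :=
  t4er_stepA (t4ef_link 𝔓 N'' h m hm) (hstep m hm)

include hstep in
/-- helper5's `T4eStep` along `β` for the tower `t4erfPm` -/
theorem t4erf_stepB (m : ℕ) (hm : 1 ≤ m) :
    @T4eStep _ _ _ _ (t4erBe ↥(tbFix 𝔓 (⊤ : Subgroup 𝔓.I)) N'' 𝔓.p m).toAlgebra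
      (t4erfPm 𝔓 N'' h hQ m) (t4erfPm 𝔓 N'' h hQ (m + 1))
      ((𝔓.p : ℕ) : ↥(TaF ↥(tbFix 𝔓 (⊤ : Subgroup 𝔓.I)) (t4eLev N'' 𝔓.p m)))
      ((𝔓.p : ℕ) : ↥(TaF ↥(tbFix 𝔓 (⊤ : Subgroup 𝔓.I)) (t4eLev N'' 𝔓.p (m + 1)))) m
      (t4efLayer 𝔓 N'' h m hm).V (t4efLayer 𝔓 N'' h (m + 1) (by omega)).V (fun w => w - 1) :=
  t4er_stepB (t4ef_link 𝔓 N'' h m hm) (hstep m hm)

end Fix

end

end Fermat.Agent.T4
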