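/-
T4E-R (helper6), part 14: **chart 1 at the inertia level, unconditional**.

helper2's `Chart/OverFix.lean` (`t4eco_presA/presB/valsA/valsB`) gives the four fields of `T4erStep` for
the concrete tower `t4erfPm 𝔓 N'' h hQ` at every level `m ≥ 1`:

* **`t4erf_step`** : `∀ m ≥ 1, T4erStep (t4erfPm 𝔓 N'' h hQ) m`;

hence, with no hypothesis left (`hpQ : 𝔓.p ∣ Q`, `h49 : 4 ∣ N'' ∨ 9 ∣ N''`):

* **`t4erf_allAt_final`** : ALL-OR-ONE at every level `m ≥ 1`;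
* **`t4erf_hreg_final`** : `hreg` on chart 1 at every level `i ≥ 2`;
* **`t4erf_hsm_final`** : `hsm` on chart 1 at every level `i ≥ 1`;
* `t4erf_stepA_final`, `t4erf_stepB_final` : helper5's `T4eStep` along `α`, `β`;
* the liftings: `t4erf_hpiA … (t4erf_step 𝔓 N'' h hQ) m hm` etc. (`Reg/Chart1Lift.lean`).
-/
import Fermat.Agent.Lib.T4E.Reg.Chart1Bundle
import Fermat.Agent.Lib.T4E.Chart.OverFix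
import Fermat.Agent.Lib.T4E.AL.Fix

set_option autoImplicit false
set_option linter.unusedSectionVars false
set_option linter.unusedVariables false
set_option linter.style.haveILetI false
set_option synthInstance.maxHeartbeats 400000

namespace Fermat.Agent.T4

open Fermat.Agent.S24Lib Fermat.Agent.T1 Fermat.Agent.T1.KMod Fermat.Agent.T2
open ModularCurve HahnSeries Fermat.Agent.TW Fermat.Agent.S05Lib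

local notation "Qb" => AlgebraicClosure ℚ

noncomputable section

section Fix

attribute [local instance] t2i_dvr t2i_isAlgClosed t2i_charP t2i_fact

variable (𝔓 : FFPlace) (N'' : ℕ) [NeZero N''] (h : ¬ 𝔓.p ∣ N'') {Q : ℕ} (hQ : 2 ≤ Q)

/-- **the steps of the chart-1 tower** (helper2's `Over`) -/
theorem t4erf_step : ∀ m, 1 ≤ m → T4erStep (t4erfPm 𝔓 N'' h hQ) m := fun m hm =>
  { presA := t4eco_presA 𝔓 N'' (t4efLayer 𝔓 N'' h m hm) (t4efLayer 𝔓 N'' h (m + 1) (by omega))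
      (t4ef_link 𝔓 N'' h m hm) hQ (t4erfPm 𝔓 N'' h hQ m) (t4erfPm 𝔓 N'' h hQ (m + 1))
      (t4erfPm_vals 𝔓 N'' h hQ m hm) (t4erfPm_mem_B 𝔓 N'' h hQ m hm)
      (t4erfPm_mem_B 𝔓 N'' h hQ (m + 1) (by omega))
    presB := t4eco_presB 𝔓 N'' (t4efLayer 𝔓 N'' h m hm) (t4efLayer 𝔓 N'' h (m + 1) (by omega))
      (t4ef_link 𝔓 N'' h m hm) hQ (t4erfPm 𝔓 N'' h hQ m) (t4erfPm 𝔓 N'' h hQ (m + 1))
      (t4ef_sym 𝔓 N'' h m hm) (t4ef_sym 𝔓 N'' h (m + 1) (by omega))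
      (fun x => t4eaW_alpha 𝔓 (⊤ : Subgroup 𝔓.I) N'' h m x)
      (t4erfPm_vals 𝔓 N'' h hQ m hm) (t4erfPm_mem_B 𝔓 N'' h hQ m hm)
      (t4erfPm_mem_B 𝔓 N'' h hQ (m + 1) (by omega))
    valsA := t4eco_valsA 𝔓 N'' (t4efLayer 𝔓 N'' h m hm) (t4efLayer 𝔓 N'' h (m + 1) (by omega))
      (t4ef_link 𝔓 N'' h m hm) hQ (t4erfPm 𝔓 N'' h hQ m) (t4erfPm 𝔓 N'' h hQ (m + 1))
      (t4erfPm_vals 𝔓 N'' h hQ m hm) (t4erfPm_vals 𝔓 N'' h hQ (m + 1) (by omega))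
    valsB := t4eco_valsB 𝔓 N'' (t4efLayer 𝔓 N'' h m hm) (t4efLayer 𝔓 N'' h (m + 1) (by omega))
      (t4ef_link 𝔓 N'' h m hm) hQ (t4erfPm 𝔓 N'' h hQ m) (t4erfPm 𝔓 N'' h hQ (m + 1))
      (t4erfPm_vals 𝔓 N'' h hQ m hm) (t4erfPm_vals 𝔓 N'' h hQ (m + 1) (by omega)) }

variable (h49 : 4 ∣ N'' ∨ 9 ∣ N'') (hpQ : 𝔓.p ∣ Q)

include h49 hpQ in
/-- **ALL-OR-ONE on chart 1**, every level `m ≥ 1`, unconditional -/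
theorem t4erf_allAt_final (m : ℕ) (hm : 1 ≤ m) :
    T4eAllAt (t4erfPm 𝔓 N'' h hQ m) m (t4efLayer 𝔓 N'' h m hm).V :=
  t4erf_allAt1' 𝔓 N'' h hQ h49 hpQ (t4erf_step 𝔓 N'' h hQ) m hm

include h49 hpQ in
/-- **`hreg` on chart 1**, every level `i ≥ 2`, unconditional -/
theorem t4erf_hreg_final (i : ℕ) (hi : 2 ≤ i)
    (hqB : ((𝔓.p : ℕ) : ↥(TaF ↥(tbFix 𝔓 (⊤ : Subgroup 𝔓.I)) (t4eLev N'' 𝔓.p i))) ∈
      (t4erfPm 𝔓 N'' h hQ i).B)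
    (𝔫 : Ideal (t4erfPm 𝔓 N'' h hQ i).B) (h𝔫 : 𝔫.IsMaximal)
    (hq𝔫 : (⟨((𝔓.p : ℕ) : ↥(TaF ↥(tbFix 𝔓 (⊤ : Subgroup 𝔓.I)) (t4eLev N'' 𝔓.p i))), hqB⟩ :
      (t4erfPm 𝔓 N'' h hQ i).B) ∈ 𝔫) : (t4erfPm 𝔓 N'' h hQ i).RegAt 𝔫 :=
  t4erf_hreg1' 𝔓 N'' h hQ h49 hpQ (t4erf_step 𝔓 N'' h hQ) i hi hqB 𝔫 h𝔫 hq𝔫

include h49 hpQ in
/-- **`hsm` on chart 1**, every level `i ≥ 1`, unconditional -/
theorem t4erf_hsm_final (i : ℕ) (hi : 1 ≤ i) :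
    ∀ 𝔫 : Ideal (t4erfPm 𝔓 N'' h hQ i).B, 𝔫.IsMaximal →
      ∀ (V : ValuationSubring ↥(TaF ↥(tbFix 𝔓 (⊤ : Subgroup 𝔓.I)) (t4eLev N'' 𝔓.p i)))
        (hV : V ∈ (t4erfPm 𝔓 N'' h hQ i).through 𝔫),
      V ∈ (t4erfPm 𝔓 N'' h hQ i).vert
        ((𝔓.p : ℕ) : ↥(TaF ↥(tbFix 𝔓 (⊤ : Subgroup 𝔓.I)) (t4eLev N'' 𝔓.p i))) →
      (t4erfPm 𝔓 N'' h hQ i).SmoothAt 𝔫 V hV :=
  t4erf_hsm1 𝔓 N'' h hQ h49 (t4erf_step 𝔓 N'' h hQ) hpQ i hi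

/-- helper5's `T4eStep` along `α`, unconditional -/
theorem t4erf_stepA_final (m : ℕ) (hm : 1 ≤ m) :
    @T4eStep _ _ _ _ (t4erAl ↥(tbFix 𝔓 (⊤ : Subgroup 𝔓.I)) N'' 𝔓.p m).toAlgebra
      (t4erfPm 𝔓 N'' h hQ m) (t4erfPm 𝔓 N'' h hQ (m + 1))
      ((𝔓.p : ℕ) : ↥(TaF ↥(tbFix 𝔓 (⊤ : Subgroup 𝔓.I)) (t4eLev N'' 𝔓.p m)))
      ((𝔓.p : ℕ) : ↥(TaF ↥(tbFix 𝔓 (⊤ : Subgroup 𝔓.I)) (t4eLev N'' 𝔓.p (m + 1)))) m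
      (t4efLayer 𝔓 N'' h m hm).V (t4efLayer 𝔓 N'' h (m + 1) (by omega)).V (fun w => min w m) :=
  t4erf_stepA 𝔓 N'' h hQ (t4erf_step 𝔓 N'' h hQ) m hm

/-- helper5's `T4eStep` along `β`, unconditional -/
theorem t4erf_stepB_final (m : ℕ) (hm : 1 ≤ m) :
    @T4eStep _ _ _ _ (t4erBe ↥(tbFix 𝔓 (⊤ : Subgroup 𝔓.I)) N'' 𝔓.p m).toAlgebra
      (t4erfPm 𝔓 N'' h hQ m) (t4erfPm 𝔓 N'' h hQ (m + 1))
      ((𝔓.p : ℕ) : ↥(TaF ↥(tbFix 𝔓 (⊤ : Subgroup 𝔓.I)) (t4eLev N'' 𝔓.p m)))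
      ((𝔓.p : ℕ) : ↥(TaF ↥(tbFix 𝔓 (⊤ : Subgroup 𝔓.I)) (t4eLev N'' 𝔓.p (m + 1)))) m
      (t4efLayer 𝔓 N'' h m hm).V (t4efLayer 𝔓 N'' h (m + 1) (by omega)).V (fun w => w - 1) :=
  t4erf_stepB 𝔓 N'' h hQ (t4erf_step 𝔓 N'' h hQ) m hm

end Fix

end

end Fermat.Agent.T4
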